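import Mathlib
import Fermat.Agent.S59.NonMin.Geom.Defs
import Fermat.Agent.S59.CaseC.Defs

/-!
# S59, case C, package PGEOM (planner helper53): the geometry of the step at `p`

Plan: `NOTES/plan/S59_PGEOM.md`.  Same Betti framework as `S59/NonMin/Geom/Defs.lean` (helper61):
the states of the class `G` are Betti lattices (`Geom.IsBetti`).

POINTWISE form.  `NumCrit.H90.card_omega_growth_tors` / `NonMin.H90.step_core` (helper90) need the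
relation `α' ∘ α = e` only on the eigenspace `M[x]`, with a scalar `e : 𝒪`.  So the geometry has to
give the constant only pointwise, and local–global compatibility at `p` is needed only at the
characteristic zero points (`Stmt_LGCpt`).

* `PClause p ρbar s`  : the data of the step at `p` at the state `s` + the constant at every point;
* `Stmt_NMGEOMp`      : the geometric target of case C (replaces `CaseC.Stmt_NMGEOM2`);
* `Stmt_STEPPpt`, `Stmt_STEPPptWIRE`, `Stmt_CWIREp` : the algebra and the wiring which consume it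
                        (replace `CaseC.Stmt_STEPP`, `Stmt_STEPPWIRE`, `Stmt_CWIRE`);
* `Stmt_NMGEOMB`, `Stmt_PSTEPB`, `nmgeomp_of` : splitting of the target into the induction at
                        `q ≠ p` (helper61, class `G` exposed) and the step at `p`;
* leaves of `Stmt_PSTEPB`: `Stmt_LGCpt`, `Stmt_PREL`, `Stmt_IHARA2k`, `Stmt_CHEBkp`, `Stmt_PDUAL`,
  `Stmt_PALG` (`Deg2`, `Deg2Out`), `Stmt_PORD`, `Stmt_PLINK`, `Stmt_PRANK`, `Stmt_PASM`.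

No `sorry`.
-/

set_option autoImplicit false

open Polynomial CuspForm CongruenceSubgroup ModularFormClass IsLocalRing
open scoped MatrixGroups

namespace Fermat.Agent.S59.CaseC.Geom

open Fermat.Agent.S41 Fermat.Agent.Betti Fermat.Agent.S59 Fermat.Agent.S59.Asm
  Fermat.Agent.S59.NonMin Fermat.Agent.S59.NonMin.Geom Fermat.Agent.S59.CaseC

/-- The Galois group of `ℚ`. -/
local notation "Γℚ" => AlgebraicClosure ℚ ≃ₐ[ℚ] AlgebraicClosure ℚ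

/-! ## 1. The clause at `p`, the target, the consumers -/

section Clause

variable {𝒪 : Type} [CommRing 𝒪] [IsDomain 𝒪] [IsDiscreteValuationRing 𝒪]
  [IsAdicComplete (maximalIdeal 𝒪) 𝒪]

/-- **The step at `p` at the state `s`, pointwise form.**  There are the data `NMStepP s p c` of
the step (`c := α' ∘ α`), and for every Hecke–Galois datum `H` over the full local Hecke ring `T`
acting on `s.M` through `ηhat`, every ordinary line `ℒ` of `H.ρ` at a place `P` over `p`, every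
Frobenius element `g` at `P` with eigenvalue `z ∈ T` on the unramified quotient, and every point
`πx : T → 𝒪`: the operator `c` acts on the eigenspace of `πx` as `w (πx(z)² - 1)`, `w` a unit.
[`c = U⁻¹ (1 - p U⁻²)(U² - 1)`, `U` the unit root of `X² - T_p X + p` on `s.M`
(`Stmt_PALG`), and `U = πx(z)` on the eigenspace (`Stmt_PLINK`).] -/
def PClause (p : ℕ) (ρbar : ResidualGaloisRep (ResidueField 𝒪)) (s : NMState 𝒪)
    [NeZero (s.N * p)] [Fact (CuspForm.HasIntegralStructure s.N 2)] : Prop :=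
  ∃ (c : Module.End 𝒪 s.M.V) (_ : NMStepP s p c),
    ∀ (H : CuspForm.HeckeGaloisRepDatum s.N (↑s.S : Set ℕ) 𝒪 s.θ
          (CuspForm.heckeLocal s.N (↑s.S : Set ℕ) 𝒪 s.θ))
      (ηhat : CuspForm.heckeLocal s.N (↑s.S : Set ℕ) 𝒪 s.θ →ₐ[𝒪] Module.End 𝒪 s.M.V),
      H.π = CuspForm.heckeLocal.π s.N (↑s.S : Set ℕ) 𝒪 s.θ →
      (∀ t, ηhat (CuspForm.heckeLocal.π s.N (↑s.S : Set ℕ) 𝒪 s.θ t) = s.M.η t) →
      H.ρ.DetIsCyclotomic p →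
      H.ρ.residual.IsEquiv (ρbar.baseChangeAlong
        (ResidueField.map (algebraMap 𝒪 (CuspForm.heckeLocal s.N (↑s.S : Set ℕ) 𝒪 s.θ)))) →
      ∀ (P : ValuationSubring (AlgebraicClosure ℚ)), P.LiesOverPrime p →
      ∀ (ℒ : OrdLine H.ρ P) (g : Γℚ), P.IsFrobeniusAt g p →
      ∀ z : CuspForm.heckeLocal s.N (↑s.S : Set ℕ) 𝒪 s.θ, ℒ.IsQuotEigen g z →
      ∀ πx : CuspForm.heckeLocal s.N (↑s.S : Set ℕ) 𝒪 s.θ →ₐ[𝒪] 𝒪,
        ∃ w : 𝒪ˣ, ∀ v : s.M.V, (∀ t, ηhat t v = πx t • v) →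
          c v = ((w : 𝒪) * (πx z ^ 2 - 1)) • v

end Clause

/-- **NMGEOM-p**: the geometric target of case C.  `NonMin.Stmt_NMGEOM` at a minimal level `N`
PRIME TO `p`, for `ρbar` flat and ordinary, with a class `G` of states which admits the step at
`p` (`PClause`).  Replaces `CaseC.Stmt_NMGEOM2`. -/
def Stmt_NMGEOMp : Prop :=
  ∀ (𝒪 : Type) [CommRing 𝒪] [IsDomain 𝒪] [IsDiscreteValuationRing 𝒪]
    [IsAdicComplete (maximalIdeal 𝒪) 𝒪] [Finite (ResidueField 𝒪)] [CharZero 𝒪]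
    (p : ℕ) [Fact p.Prime], p ≠ 2 → (p : 𝒪) ∈ maximalIdeal 𝒪 →
    ∀ (ρbar : ResidualGaloisRep (ResidueField 𝒪)) (Smin : Finset ℕ), ResHyp p ρbar Smin →
    cond 𝒪 p true Smin ∅ (GaloisRepAdic.ofResidualGaloisRep ρbar) →
    (GaloisRepAdic.ofResidualGaloisRep ρbar).IsOrdinaryAt p →
    ∀ (N : ℕ) [NeZero N] [Fact (CuspForm.HasIntegralStructure N 2)],
    (∀ q : ℕ, q.Prime → q ∣ N → q ∈ Smin) → Squarefree N → ¬ p ∣ N →
    ∀ (θ : CuspForm.heckeAlgebra N 2 (↑Smin : Set ℕ) →+* ResidueField 𝒪),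
    Fermat.Agent.S59.Datum.FrobHyp ρbar N Smin θ →
    ∃ (M : HMod 𝒪 N (↑Smin : Set ℕ) θ) (G : NMState 𝒪 → Prop), Nontrivial M.V ∧
      (∀ (r n : ℕ) (qv : Fin r → ℕ), Fermat.Agent.S56.IsTWFamily ρbar p n Smin qv →
        ∀ [NeZero (twLevel N qv)] [Fact (CuspForm.HasIntegralStructure (twLevel N qv) 2)],
          Nonempty (TWGeom 𝒪 p ρbar N Smin θ M n qv)) ∧
      G ⟨N, Smin, θ, M⟩ ∧
      (∀ s : NMState 𝒪, G s → ∀ (q : ℕ) (hq : q.Prime), q ≠ p → ∀ (hqN : ¬ q ∣ s.N)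
        (hqS : q ∉ (↑s.S : Set ℕ)) [NeZero (s.N * q ^ 2)],
        ∃ st : NMStep s hq hqN hqS, G st.next) ∧
      (∀ s : NMState 𝒪, G s → ¬ p ∣ s.N → p ∈ s.S →
        ∀ [NeZero (s.N * p)] [Fact (CuspForm.HasIntegralStructure s.N 2)], PClause p ρbar s)

/-- **STEP-p, pointwise form** (algebra + deformation theory): `CaseC.Stmt_STEPP` with the
geometric hypothesis replaced by `PClause`.
[As `CaseC.Stmt_STEPP`; the growth of the congruence module by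
`NumCrit.H90.card_omega_growth_tors` / `NonMin.H90.step_core` with `e := w (πx(z)² - 1)`;
`πx(z)² - 1 ≠ 0` by `CaseC.Stmt_CPNE`; the Selmer bound `CaseC.Stmt_SELMERp` at
`z_D := φ⁻¹ z`.] -/
def Stmt_STEPPpt : Prop :=
  ∀ (𝒪 : Type) [CommRing 𝒪] [IsDomain 𝒪] [IsDiscreteValuationRing 𝒪]
    [IsAdicComplete (maximalIdeal 𝒪) 𝒪] [Finite (ResidueField 𝒪)] [CharZero 𝒪]
    (p : ℕ) [Fact p.Prime], p ≠ 2 → (p : 𝒪) ∈ maximalIdeal 𝒪 →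
    ∀ (ρbar : ResidualGaloisRep (ResidueField 𝒪)) (Smin : Finset ℕ),
    ResHyp p ρbar Smin →
    cond 𝒪 p true Smin ∅ (GaloisRepAdic.ofResidualGaloisRep ρbar) →
    (GaloisRepAdic.ofResidualGaloisRep ρbar).IsOrdinaryAt p →
    ∀ (Sig : Finset ℕ) (s : NMState 𝒪) [Fact (CuspForm.HasIntegralStructure s.N 2)],
    LevelHyp 𝒪 p true Smin Sig s →
    Fermat.Agent.S59.Datum.FrobHyp ρbar s.N s.S s.θ →
    ∀ (x : CuspForm.heckeAlgebra s.N 2 (↑s.S : Set ℕ) →+* 𝒪),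
    (∀ t, residue 𝒪 (x t) = s.θ t) →
    ∀ (d : ℕ), 0 < d → RTProp 𝒪 p true ρbar Smin Sig s x d →
    ∀ [NeZero (s.N * p)] [Fact (CuspForm.HasIntegralStructure (s.N * p) 2)],
    PClause p ρbar s →
    ∀ (ρ : GaloisRepAdic 𝒪), CaseC.condOrd 𝒪 p Smin Sig ρ →
    ρ.residual.IsEquiv (ρbar.baseChangeAlong (ResidueField.map (algebraMap 𝒪 𝒪))) →
    ∀ (a : ℕ → ℤ),
    (∀ ℓ : ℕ, ℓ.Prime → ℓ ∉ Smin ∪ Sig →
      ∀ A : ValuationSubring (AlgebraicClosure ℚ), A.LiesOverPrime ℓ →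
        ∀ σ : Γℚ, A.IsFrobeniusAt σ ℓ →
          LinearMap.charpoly (ρ.ρ σ) = X ^ 2 - C (((a ℓ : ℤ) : 𝒪)) * X + C ((ℓ : 𝒪))) →
    ∃ g : CuspForm (Gamma0 (s.N * p)) 2, g.IsNormalizedEigenform ∧
      ∀ ℓ : ℕ, ℓ.Prime → ¬ ℓ ∣ s.N * p → ℓ ∉ Smin ∪ Sig → qCoeff ⇑g ℓ = (a ℓ : ℂ)

/-- The wiring of the step at `p` from its leaves (pointwise form). -/
def Stmt_STEPPptWIRE : Prop :=
  CaseC.Stmt_S33 → CaseC.Stmt_DEFord → CaseC.Stmt_ORDT → CaseC.Stmt_TAUP →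
    CaseC.Stmt_SELMERp → CaseC.Stmt_CPNE → Stmt_STEPPpt

/-- Wiring of case C (pointwise form): geometry + the induction of RT-NONMIN + the step at `p`.
[As `CaseC.Stmt_CWIRE`; `N = minLevel p true Smin` is prime to `p`.] -/
def Stmt_CWIREp : Prop :=
  Stmt_NMGEOMp → CaseC.Stmt_RTALL → Stmt_STEPPpt → CaseC.Stmt_MLTc

/-! ## 2. Splitting of the target: the induction at `q ≠ p` (helper61) and the step at `p` -/

/-- **NMGEOM-B** = `Geom.Stmt_NMGEOM2` (helper61) with the class `G` EXPOSED: every state of the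
class is a Betti lattice (`Geom.IsBetti`) with `Geom.GeomHyp` and `FrobHyp`.  The assembly
`Geom.Stmt_ASMG` proves exactly this (its `G` is defined in this way). -/
def Stmt_NMGEOMB : Prop :=
  ∀ (𝒪 : Type) [CommRing 𝒪] [IsDomain 𝒪] [IsDiscreteValuationRing 𝒪]
    [IsAdicComplete (maximalIdeal 𝒪) 𝒪] [Finite (ResidueField 𝒪)] [CharZero 𝒪]
    (p : ℕ) [Fact p.Prime], p ≠ 2 → (p : 𝒪) ∈ maximalIdeal 𝒪 →
    ∀ (ρbar : ResidualGaloisRep (ResidueField 𝒪)) (Smin : Finset ℕ), ResHyp p ρbar Smin →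
    ∀ (N : ℕ) [NeZero N] [Fact (CuspForm.HasIntegralStructure N 2)],
    (∀ q : ℕ, q.Prime → q ∣ N → q ∈ Smin) → Squarefree N →
    (p ∣ N → ¬ (GaloisRepAdic.ofResidualGaloisRep ρbar).IsFlatAt p) →
    ∀ (θ : CuspForm.heckeAlgebra N 2 (↑Smin : Set ℕ) →+* ResidueField 𝒪),
    Fermat.Agent.S59.Datum.FrobHyp ρbar N Smin θ →
    ∃ (M : HMod 𝒪 N (↑Smin : Set ℕ) θ) (G : NMState 𝒪 → Prop), Nontrivial M.V ∧
      (∀ (r n : ℕ) (qv : Fin r → ℕ), Fermat.Agent.S56.IsTWFamily ρbar p n Smin qv →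
        ∀ [NeZero (twLevel N qv)] [Fact (CuspForm.HasIntegralStructure (twLevel N qv) 2)],
          Nonempty (TWGeom 𝒪 p ρbar N Smin θ M n qv)) ∧
      G ⟨N, Smin, θ, M⟩ ∧
      (∀ s : NMState 𝒪, G s → ∀ (q : ℕ) (hq : q.Prime), q ≠ p → ∀ (hqN : ¬ q ∣ s.N)
        (hqS : q ∉ (↑s.S : Set ℕ)) [NeZero (s.N * q ^ 2)],
        ∃ st : NMStep s hq hqN hqS, G st.next) ∧
      (∀ s : NMState 𝒪, G s → ∃ Sig : Finset ℕ, GeomHyp p Smin N Sig s.N s.S ∧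
        Fermat.Agent.S59.Datum.FrobHyp ρbar s.N s.S s.θ ∧ IsBetti s Sig)

/-- **PSTEP-B**: the step at `p` at a Betti state of level prime to `p`. -/
def Stmt_PSTEPB : Prop :=
  ∀ (𝒪 : Type) [CommRing 𝒪] [IsDomain 𝒪] [IsDiscreteValuationRing 𝒪]
    [IsAdicComplete (maximalIdeal 𝒪) 𝒪] [Finite (ResidueField 𝒪)] [CharZero 𝒪]
    (p : ℕ) [Fact p.Prime], p ≠ 2 → (p : 𝒪) ∈ maximalIdeal 𝒪 →
    ∀ (ρbar : ResidualGaloisRep (ResidueField 𝒪)) (Smin : Finset ℕ), ResHyp p ρbar Smin →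
    cond 𝒪 p true Smin ∅ (GaloisRepAdic.ofResidualGaloisRep ρbar) →
    (GaloisRepAdic.ofResidualGaloisRep ρbar).IsOrdinaryAt p →
    ∀ (N₀ : ℕ) (Sig : Finset ℕ) (s : NMState 𝒪), GeomHyp p Smin N₀ Sig s.N s.S →
    Fermat.Agent.S59.Datum.FrobHyp ρbar s.N s.S s.θ → IsBetti s Sig → ¬ p ∣ s.N →
    ∀ [NeZero (s.N * p)] [Fact (CuspForm.HasIntegralStructure s.N 2)], PClause p ρbar s

/-- The target from the two halves. -/
theorem nmgeomp_of (hB : Stmt_NMGEOMB) (hP : Stmt_PSTEPB) : Stmt_NMGEOMp := by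
  intro 𝒪 _ _ _ _ _ _ p _ hp2 hp𝒪 ρbar Smin hyp hfl hord N _ _ hN hsq hpN θ hθ
  obtain ⟨M, G, h1, h2, h3, h4, h5⟩ :=
    hB 𝒪 p hp2 hp𝒪 ρbar Smin hyp N hN hsq (fun h => absurd h hpN) θ hθ
  refine ⟨M, G, h1, h2, h3, h4, ?_⟩
  intro s hs hps _ _ _
  obtain ⟨Sig, hG, hF, hBt⟩ := h5 s hs
  exact hP 𝒪 p hp2 hp𝒪 ρbar Smin hyp hfl hord N Sig s hG hF hBt hps

/-! ## 3. Local–global compatibility at `p`, at a point (owner: helper54) -/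

/-- **LGC-pt** (Eichler–Shimura at `p`, at a characteristic zero point): let `p ∤ N`, let
`x̃` be a character of the Hecke algebra AWAY FROM `S ∖ {p}` (so `T_p` belongs to it), and `ρ` a
representation over `𝒪` with the Frobenius characteristic polynomials `X² - x̃(T_ℓ) X + ℓ`
(`ℓ ∉ S`), cyclotomic determinant, absolutely irreducible reduction.  If `ℒ` is an ordinary line
of `ρ` at `P ∣ p` and `z` the eigenvalue of a Frobenius element `g` at `P` on the quotient, then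
`z² - x̃(T_p) z + p = 0`: `z` is the unit root of `X² - a_p X + p`.
[helper54's route: `RED.Stmt_ES3` at `ℓ = p` on divisors, `r(g D) = φ r(D)`, `r(σ D) = r(D)` for
`σ` in inertia; `ker(red) ∩ V_k = L_k` by `FlatInf` for the Hopf order of G-FL.] -/
def Stmt_LGCpt : Prop :=
  ∀ (𝒪 : Type) [CommRing 𝒪] [IsDomain 𝒪] [IsDiscreteValuationRing 𝒪]
    [IsAdicComplete (maximalIdeal 𝒪) 𝒪] [Finite (ResidueField 𝒪)] [CharZero 𝒪]
    (p : ℕ) [Fact p.Prime], p ≠ 2 → (p : 𝒪) ∈ maximalIdeal 𝒪 →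
    ∀ (N : ℕ) [NeZero N] (S : Finset ℕ), p ∈ S → (∀ q : ℕ, q.Prime → q ∣ N → q ∈ S) →
    ∀ (hp : p.Prime) (hpN : ¬ p ∣ N) (hpS : p ∉ (↑(S.erase p) : Set ℕ))
      (xt : CuspForm.heckeAlgebra N 2 (↑(S.erase p) : Set ℕ) →+* 𝒪) (ρ : GaloisRepAdic 𝒪),
    (∀ (ℓ : ℕ) (hℓ : ℓ.Prime) (hℓN : ¬ ℓ ∣ N) (hℓS : ℓ ∉ (↑(S.erase p) : Set ℕ)), ℓ ≠ p →
      ∀ B : ValuationSubring (AlgebraicClosure ℚ), B.LiesOverPrime ℓ →
        ∀ σ : Γℚ, B.IsFrobeniusAt σ ℓ →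
          LinearMap.charpoly (ρ.ρ σ) =
            X ^ 2 - C (xt (CuspForm.heckeAlgebra.T hℓ hℓN hℓS)) * X + C ((ℓ : 𝒪))) →
    ρ.DetIsCyclotomic p → ρ.residual.IsAbsolutelyIrreducible →
    ∀ (P : ValuationSubring (AlgebraicClosure ℚ)), P.LiesOverPrime p →
    ∀ (ℒ : OrdLine ρ P) (g : Γℚ), P.IsFrobeniusAt g p →
    ∀ z : 𝒪, ℒ.IsQuotEigen g z →
      z ^ 2 - xt (CuspForm.heckeAlgebra.T hp hpN hpS) * z + (p : 𝒪) = 0

/-! ## 4. Betti cohomology at the levels `N` and `N q` (any prime `q ∤ N`, `q = p` allowed) -/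

/-- **P-REL**: the relations between the two degeneracy maps `res1, res2` (`cor1, cor2`) and
`U_q` of level `N q`, `T_q` of level `N` (the "stage 1 relations" of `NOTES/plan/S59_NMGEOM.md`
§0; the last four are `S41.H19.cor1_res1`, `cor2_res2`, `cor2_res1`, `S41.H20.Tcoh_eq_TB`).
Any coefficient group; `q` ANY prime not dividing `N`. -/
def Stmt_PREL : Prop :=
  ∀ (N q : ℕ) [NeZero N] [NeZero (N * q)] (hq : q.Prime) (hqN : ¬ q ∣ N) (hd : q ∣ N * q)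
    (A : Type) [AddCommGroup A],
    (∀ φ : Additive (Gamma0 N) →+ A,
      UB (N * q) A hd (res1 N q A φ) = res1 N q A (TB N A hq hqN φ) - res2 N q A φ ∧
      UB (N * q) A hd (res2 N q A φ) = q • res1 N q A φ ∧
      cor1 N q A (res1 N q A φ) = (q + 1) • φ ∧
      cor2 N q A (res2 N q A φ) = (q + 1) • φ ∧
      cor1 N q A (res2 N q A φ) = TB N A hq hqN φ ∧
      cor2 N q A (res1 N q A φ) = TB N A hq hqN φ) ∧
    (∀ ψ : Additive (Gamma0 (N * q)) →+ A,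
      cor1 N q A (UB (N * q) A hd ψ) = q • cor2 N q A ψ ∧
      cor2 N q A (UB (N * q) A hd ψ) = TB N A hq hqN (cor2 N q A ψ) - cor1 N q A ψ)

/-- **P-RELT**: `res_i`, `cor_i` (levels `N`, `N q`) commute with `T_ℓ` (`ℓ ∤ N q`) and `U_r`
(`r ∣ N`), preserve parabolic and cuspidal homomorphisms; `T_q` of level `N` commutes with
`T_ℓ`, `U_r` and preserves parabolic homomorphisms. -/
def Stmt_PRELT : Prop :=
  ∀ (N q : ℕ) [NeZero N] [NeZero (N * q)] (hq : q.Prime) (hqN : ¬ q ∣ N)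
    (A : Type) [AddCommGroup A],
    (∀ (ℓ : ℕ) (hℓ : ℓ.Prime) (hℓN : ¬ ℓ ∣ N) (hℓN' : ¬ ℓ ∣ N * q),
      (∀ φ : Additive (Gamma0 N) →+ A,
        TB (N * q) A hℓ hℓN' (res1 N q A φ) = res1 N q A (TB N A hℓ hℓN φ) ∧
        TB (N * q) A hℓ hℓN' (res2 N q A φ) = res2 N q A (TB N A hℓ hℓN φ) ∧
        TB N A hℓ hℓN (TB N A hq hqN φ) = TB N A hq hqN (TB N A hℓ hℓN φ)) ∧
      (∀ ψ : Additive (Gamma0 (N * q)) →+ A,
        cor1 N q A (TB (N * q) A hℓ hℓN' ψ) = TB N A hℓ hℓN (cor1 N q A ψ) ∧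
        cor2 N q A (TB (N * q) A hℓ hℓN' ψ) = TB N A hℓ hℓN (cor2 N q A ψ))) ∧
    (∀ (r : ℕ), r.Prime → ∀ (hrN : r ∣ N) (hrN' : r ∣ N * q),
      (∀ φ : Additive (Gamma0 N) →+ A,
        UB (N * q) A hrN' (res1 N q A φ) = res1 N q A (UB N A hrN φ) ∧
        UB (N * q) A hrN' (res2 N q A φ) = res2 N q A (UB N A hrN φ) ∧
        UB N A hrN (TB N A hq hqN φ) = TB N A hq hqN (UB N A hrN φ)) ∧
      (∀ ψ : Additive (Gamma0 (N * q)) →+ A,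
        cor1 N q A (UB (N * q) A hrN' ψ) = UB N A hrN (cor1 N q A ψ) ∧
        cor2 N q A (UB (N * q) A hrN' ψ) = UB N A hrN (cor2 N q A ψ))) ∧
    (∀ φ : Additive (Gamma0 N) →+ A, ModularCurve.Period.IsParabolicHom (Gamma0 N) φ →
      ModularCurve.Period.IsParabolicHom (Gamma0 (N * q)) (res1 N q A φ) ∧
      ModularCurve.Period.IsParabolicHom (Gamma0 (N * q)) (res2 N q A φ) ∧
      ModularCurve.Period.IsParabolicHom (Gamma0 N) (TB N A hq hqN φ)) ∧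
    (∀ ψ : Additive (Gamma0 (N * q)) →+ A,
      ModularCurve.Period.IsParabolicHom (Gamma0 (N * q)) ψ →
      ModularCurve.Period.IsParabolicHom (Gamma0 N) (cor1 N q A ψ) ∧
      ModularCurve.Period.IsParabolicHom (Gamma0 N) (cor2 N q A ψ))

/-- **IHARA2-k**: Ihara's lemma for two degeneracy maps over a field `k` of characteristic `p`,
in the form of `S41.Stmt_IHARA`, for ANY prime `q ∤ N` — `q = p` is allowed.
[Port of `S41.Ihara` (`H19_Ihara*`, `H37_Ihara*`) from `ZMod p` to `k`.  In the `S41` files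
`q ≠ p` is used ONLY in `H19_IharaStep0.eigen_x2`, to see that `y := T_ℓ x₂ - a x₂` vanishes at
`[[1,1],[0,1]]`; this holds because `y` is cuspidal.] -/
def Stmt_IHARA2k : Prop :=
  ∀ (k : Type) [Field k] (p : ℕ) [Fact p.Prime] [CharP k p], p ≠ 2 →
    ∀ (N q : ℕ), 0 < N → q.Prime → ¬ q ∣ N →
    ∀ (P : ℕ → Prop) (a : ℕ → k), (∀ ℓ, P ℓ → ℓ.Prime ∧ ¬ ℓ ∣ N * q ∧ ℓ ≠ p) →
    (∀ M : ℕ, 0 < M → p ∣ M →
      ∃ ℓ, P ℓ ∧ ℓ % M = 1 % M ∧ (q : ZMod ℓ) ^ ((ℓ - 1) / p) ≠ 1 ∧ a ℓ ≠ 2) →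
    ∀ x₁ x₂ : Additive (Gamma0 N) →+ k,
    IsCuspidalHom (Gamma0 N) x₁ → IsCuspidalHom (Gamma0 N) x₂ →
    (∀ (ℓ : ℕ) (hℓ : ℓ.Prime) (hℓN : ¬ ℓ ∣ N), P ℓ → TB N k hℓ hℓN x₁ = a ℓ • x₁) →
    res1 N q k x₁ + res2 N q k x₂ = 0 → x₁ = 0 ∧ x₂ = 0

/-- **CHEB-k at `p`** = `Geom.Stmt_CHEBk` (helper61) for `q = p`: the auxiliary primes
`ℓ ≡ 1 mod M` with `p` not a `p`-th power modulo `ℓ` and `θ(T_ℓ) ≠ 2`. -/
def Stmt_CHEBkp : Prop :=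
  ∀ (𝒪 : Type) [CommRing 𝒪] [IsDomain 𝒪] [IsDiscreteValuationRing 𝒪]
    [Finite (ResidueField 𝒪)] (p : ℕ) [Fact p.Prime], p ≠ 2 → (p : 𝒪) ∈ maximalIdeal 𝒪 →
    ∀ (ρbar : ResidualGaloisRep (ResidueField 𝒪)) (Smin : Finset ℕ), ResHyp p ρbar Smin →
    ∀ (N : ℕ) [NeZero N] (S : Finset ℕ)
      (θ : CuspForm.heckeAlgebra N 2 (↑S : Set ℕ) →+* ResidueField 𝒪),
    Fermat.Agent.S59.Datum.FrobHyp ρbar N S θ →
    ∀ (M : ℕ), 0 < M → p ∣ M → ∀ S' : Finset ℕ,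
    ∃ (ℓ : ℕ) (hℓ : ℓ.Prime) (hℓN : ¬ ℓ ∣ N) (hℓS : ℓ ∉ (↑S : Set ℕ)), ℓ ∉ S' ∧
      ℓ % M = 1 % M ∧ (p : ZMod ℓ) ^ ((ℓ - 1) / p) ≠ 1 ∧
      θ (CuspForm.heckeAlgebra.T hℓ hℓN hℓS) ≠ 2

/-- **P-DUAL** (dual Ihara at `p`): `(cor1, cor2)` maps the Betti lattice of level `N p` onto the
square of the Betti lattice of level `N`, modulo the maximal ideal.
[Mod `ϖ`: `S41.H94.BL` is perfect with `res_i ↔ cor_i` adjoint and `T_ℓ` self-adjoint; the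
adjoint `(x₁, x₂) ↦ res1 x₁ + res2 x₂` is injective on the `θ`-part: its kernel is Hecke stable,
a common eigenvector has both components in the eigenspace, `Stmt_IHARA2k` + `Stmt_CHEBkp`;
projectors `e_r` (`Geom.Stmt_RELSPLIT`), lifting by `Betti.H77.stmt_torsLift`, as in
`Geom.Stmt_DUAL`.] -/
def Stmt_PDUAL : Prop :=
  ∀ (𝒪 : Type) [CommRing 𝒪] [IsDomain 𝒪] [IsDiscreteValuationRing 𝒪]
    [IsAdicComplete (maximalIdeal 𝒪) 𝒪] [Finite (ResidueField 𝒪)] [CharZero 𝒪]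
    (p : ℕ) [Fact p.Prime], p ≠ 2 → (p : 𝒪) ∈ maximalIdeal 𝒪 →
    ∀ (ρbar : ResidualGaloisRep (ResidueField 𝒪)) (Smin : Finset ℕ), ResHyp p ρbar Smin →
    ∀ (N₀ : ℕ) (Sig : Finset ℕ) (N : ℕ) [NeZero N] (S : Finset ℕ), GeomHyp p Smin N₀ Sig N S →
    ¬ p ∣ N →
    ∀ (θ : CuspForm.heckeAlgebra N 2 (↑S : Set ℕ) →+* ResidueField 𝒪),
    Fermat.Agent.S59.Datum.FrobHyp ρbar N S θ →
    ∀ [NeZero (N * p)]
      (rest : CuspForm.heckeAlgebra (N * p) 2 (↑S : Set ℕ) →+*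
        CuspForm.heckeAlgebra N 2 (↑S : Set ℕ)),
    (∀ (ℓ : ℕ) (hℓ : ℓ.Prime) (hℓN' : ¬ ℓ ∣ N * p) (hℓS : ℓ ∉ (↑S : Set ℕ)) (hℓN : ¬ ℓ ∣ N),
      rest (CuspForm.heckeAlgebra.T hℓ hℓN' hℓS) = CuspForm.heckeAlgebra.T hℓ hℓN hℓS) →
    ∀ φ₁ φ₂ : Additive (Gamma0 N) →+ 𝒪,
    InBetti 𝒪 N (↑S : Set ℕ) θ Sig φ₁ → InBetti 𝒪 N (↑S : Set ℕ) θ Sig φ₂ →
      ∃ ψ : Additive (Gamma0 (N * p)) →+ 𝒪,
        InBetti 𝒪 (N * p) (↑S : Set ℕ) (θ.comp rest) Sig ψ ∧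
        ∀ γ, (cor1 N p 𝒪 ψ - φ₁) γ ∈ maximalIdeal 𝒪 ∧ (cor2 N p 𝒪 ψ - φ₂) γ ∈ maximalIdeal 𝒪

/-! ## 5. The abstract package (pure algebra) -/

/-- The abstract data of two degeneracy maps at `p` between two Hecke modules `L` (level `N`) and
`L'` (level `N p`, the whole `θ`-part), with the relations of Betti cohomology (`Stmt_PREL`),
ordinarity (`T_p` invertible on `L`), Ihara's lemma and its dual. -/
structure Deg2 (𝒪 : Type) [CommRing 𝒪] [IsLocalRing 𝒪] {H H' : Type} [CommRing H] [CommRing H']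
    (rest : H' →+* H) (θ : H →+* ResidueField 𝒪) : Type 1 where
  /-- the module at the level `N` -/
  L : Type
  /-- the module at the level `N p` -/
  L' : Type
  [iL1 : AddCommGroup L]
  [iL2 : Module 𝒪 L]
  [iL3 : Module.Finite 𝒪 L]
  [iL4 : Module.Free 𝒪 L]
  [iL'1 : AddCommGroup L']
  [iL'2 : Module 𝒪 L']
  [iL'3 : Module.Finite 𝒪 L']
  [iL'4 : Module.Free 𝒪 L']
  η : H →+* Module.End 𝒪 L
  η' : H' →+* Module.End 𝒪 L'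
  η_local : ∀ (t : H) (a : 𝒪), residue 𝒪 a = θ t →
    ∃ m : ℕ, ∀ v : L, ((η t - a • (1 : Module.End 𝒪 L)) ^ m) v ∈
      (maximalIdeal 𝒪 • ⊤ : Submodule 𝒪 L)
  η'_local : ∀ (t : H') (a : 𝒪), residue 𝒪 a = θ (rest t) →
    ∃ m : ℕ, ∀ w : L', ((η' t - a • (1 : Module.End 𝒪 L')) ^ m) w ∈
      (maximalIdeal 𝒪 • ⊤ : Submodule 𝒪 L')
  /-- the prime `p` -/
  p : ℕ
  p_mem : (p : 𝒪) ∈ maximalIdeal 𝒪
  /-- `T_p` on `L` -/
  Tp : Module.End 𝒪 L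
  Tp_η : ∀ t : H, Commute Tp (η t)
  /-- ordinarity: `T_p` is invertible on `L` -/
  Tp_unit : IsUnit Tp
  /-- `U_p` on `L'` -/
  U : Module.End 𝒪 L'
  U_η' : ∀ t : H', Commute U (η' t)
  r₁ : L →ₗ[𝒪] L'
  r₂ : L →ₗ[𝒪] L'
  c₁ : L' →ₗ[𝒪] L
  c₂ : L' →ₗ[𝒪] L
  r₁_η : ∀ (t : H') (v : L), r₁ (η (rest t) v) = η' t (r₁ v)
  r₂_η : ∀ (t : H') (v : L), r₂ (η (rest t) v) = η' t (r₂ v)
  c₁_η : ∀ (t : H') (w : L'), c₁ (η' t w) = η (rest t) (c₁ w)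
  c₂_η : ∀ (t : H') (w : L'), c₂ (η' t w) = η (rest t) (c₂ w)
  R1a : ∀ v : L, U (r₁ v) = r₁ (Tp v) - r₂ v
  R1b : ∀ v : L, U (r₂ v) = p • r₁ v
  R2a : ∀ w : L', c₁ (U w) = p • c₂ w
  R2b : ∀ w : L', c₂ (U w) = Tp (c₂ w) - c₁ w
  R3a : ∀ v : L, c₁ (r₁ v) = (p + 1) • v
  R3b : ∀ v : L, c₂ (r₂ v) = (p + 1) • v
  R3c : ∀ v : L, c₁ (r₂ v) = Tp v
  R3d : ∀ v : L, c₂ (r₁ v) = Tp v
  /-- Ihara's lemma: `(v₁, v₂) ↦ r₁ v₁ + r₂ v₂` is injective modulo the maximal ideal -/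
  ihara : ∀ v₁ v₂ : L, r₁ v₁ + r₂ v₂ ∈ (maximalIdeal 𝒪 • ⊤ : Submodule 𝒪 L') →
    v₁ ∈ (maximalIdeal 𝒪 • ⊤ : Submodule 𝒪 L) ∧ v₂ ∈ (maximalIdeal 𝒪 • ⊤ : Submodule 𝒪 L)
  /-- dual Ihara: `(c₁, c₂)` is surjective modulo the maximal ideal -/
  dual : ∀ v₁ v₂ : L, ∃ w : L', c₁ w - v₁ ∈ (maximalIdeal 𝒪 • ⊤ : Submodule 𝒪 L) ∧
    c₂ w - v₂ ∈ (maximalIdeal 𝒪 • ⊤ : Submodule 𝒪 L)

attribute [instance] Deg2.iL1 Deg2.iL2 Deg2.iL3 Deg2.iL4 Deg2.iL'1 Deg2.iL'2 Deg2.iL'3 Deg2.iL'4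

/-- The output of the algebra: the unit root `Uu` of `X² - T_p X + p` on `L`, the `U_p`-ordinary
part `V = ⋂ Uⁿ L' ⊆ L'` with its Hecke action, the maps `α = r₁ - r₂ Uu⁻¹ : L → V`,
`α' = c₂ - Uu⁻¹ c₁ : V → L` and their properties. -/
structure Deg2Out {𝒪 : Type} [CommRing 𝒪] [IsLocalRing 𝒪] {H H' : Type} [CommRing H]
    [CommRing H'] {rest : H' →+* H} {θ : H →+* ResidueField 𝒪} (D : Deg2 𝒪 rest θ) :
    Type 1 where
  V : Type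
  [iV1 : AddCommGroup V]
  [iV2 : Module 𝒪 V]
  [iV3 : Module.Finite 𝒪 V]
  [iV4 : Module.Free 𝒪 V]
  ι : V →ₗ[𝒪] D.L'
  ι_inj : Function.Injective ι
  /-- `V` is the ordinary part -/
  range_ι : ∀ w : D.L', w ∈ Set.range ι ↔ ∀ n : ℕ, ∃ w' : D.L', (D.U ^ n) w' = w
  η'' : H' →+* Module.End 𝒪 V
  ι_η : ∀ (t : H') (v : V), ι (η'' t v) = D.η' t (ι v)
  η''_local : ∀ (t : H') (a : 𝒪), residue 𝒪 a = θ (rest t) →
    ∃ m : ℕ, ∀ v : V, ((η'' t - a • (1 : Module.End 𝒪 V)) ^ m) v ∈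
      (maximalIdeal 𝒪 • ⊤ : Submodule 𝒪 V)
  /-- the unit root of `X² - T_p X + p` and its inverse -/
  Uu : Module.End 𝒪 D.L
  Ui : Module.End 𝒪 D.L
  Uu_Ui : Uu * Ui = 1
  Ui_Uu : Ui * Uu = 1
  Uu_root : Uu * Uu - D.Tp * Uu + (D.p : 𝒪) • (1 : Module.End 𝒪 D.L) = 0
  /-- `Uu` commutes with everything that commutes with `T_p` -/
  Uu_comm : ∀ X : Module.End 𝒪 D.L, Commute X D.Tp → Commute X Uu
  α : D.L →ₗ[𝒪] V
  α' : V →ₗ[𝒪] D.L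
  ι_α : ∀ v : D.L, ι (α v) = D.r₁ v - D.r₂ (Ui v)
  α'_eq : ∀ w : V, α' w = D.c₂ (ι w) - Ui (D.c₁ (ι w))
  α_η : ∀ (t : H') (v : D.L), α (D.η (rest t) v) = η'' t (α v)
  α'_η : ∀ (t : H') (w : V), α' (η'' t w) = D.η (rest t) (α' w)
  α_inj : Function.Injective α
  α_sat : ∀ (a : 𝒪) (w : V), a ≠ 0 → a • w ∈ LinearMap.range α → w ∈ LinearMap.range α
  α'_surj : Function.Surjective α'
  /-- `α' α = Uu⁻¹ (1 - p Uu⁻²) (Uu² - 1)` -/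
  comp : ∀ v : D.L, α' (α v) =
    Ui (Uu (Uu v) - v) - (D.p : 𝒪) • Ui (Ui (Ui (Uu (Uu v) - v)))

/-- **P-ALG** (pure algebra, Mathlib only).
Proof: `Uu := lim uₙ`, `u₀ = T_p`, `uₙ₊₁ = T_p - p uₙ⁻¹` (`End L` is `p`-adically complete, `T_p`
a unit); Fitting decomposition `L' = V ⊕ L'_nil` for `U` (`V = ⋂ Uⁿ L'`, a direct summand);
`U (r₁ - r₂ Ui) = (r₁ - r₂ Ui) Uu` by `R1` and `Uu = T_p - p Ui`, so `α` lands in `V`;
`(c₂ - Ui c₁) U = Uu (c₂ - Ui c₁)` by `R2`, so `c₂ - Ui c₁` kills `L'_nil`, and it is onto by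
`dual` + Nakayama: `α'` is onto; `α` is injective with saturated image by `ihara` (as in
`Geom.Stmt_ALG`); `comp` by `R3`. -/
def Stmt_PALG : Prop :=
  ∀ (𝒪 : Type) [CommRing 𝒪] [IsDomain 𝒪] [IsDiscreteValuationRing 𝒪]
    [IsAdicComplete (maximalIdeal 𝒪) 𝒪]
    {H H' : Type} [CommRing H] [CommRing H'] (rest : H' →+* H) (θ : H →+* ResidueField 𝒪)
    (D : Deg2 𝒪 rest θ), Nonempty (Deg2Out D)

/-! ## 6. Ordinarity, the link with the Galois side, multiplicity one -/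

/-- **P-ORD**: `T_p` is invertible on the Betti lattice of a state of level prime to `p`, if
`ρbar` is ordinary (and flat) at `p`.
[Every eigenvalue of `T_p` on `L ⊗ K̄` is `x̃(T_p)` for a character `x̃` of the Hecke algebra away
from `S ∖ {p}` (`Betti.H76.heckeRho`); `Datum.stmt_DATUM` + `CaseC.Stmt_ORDT` give an ordinary
`ρ` at the point, `Stmt_LGCpt`: `x̃(T_p) = z + p z⁻¹` is a unit; so `det T_p` is a unit.] -/
def Stmt_PORD : Prop :=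
  ∀ (𝒪 : Type) [CommRing 𝒪] [IsDomain 𝒪] [IsDiscreteValuationRing 𝒪]
    [IsAdicComplete (maximalIdeal 𝒪) 𝒪] [Finite (ResidueField 𝒪)] [CharZero 𝒪]
    (p : ℕ) [Fact p.Prime], p ≠ 2 → (p : 𝒪) ∈ maximalIdeal 𝒪 →
    ∀ (ρbar : ResidualGaloisRep (ResidueField 𝒪)) (Smin : Finset ℕ), ResHyp p ρbar Smin →
    cond 𝒪 p true Smin ∅ (GaloisRepAdic.ofResidualGaloisRep ρbar) →
    (GaloisRepAdic.ofResidualGaloisRep ρbar).IsOrdinaryAt p →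
    ∀ (N₀ : ℕ) (Sig : Finset ℕ) (N : ℕ) [NeZero N] [Fact (CuspForm.HasIntegralStructure N 2)]
      (S : Finset ℕ), GeomHyp p Smin N₀ Sig N S →
    ∀ (θ : CuspForm.heckeAlgebra N 2 (↑S : Set ℕ) →+* ResidueField 𝒪),
    Fermat.Agent.S59.Datum.FrobHyp ρbar N S θ →
    ∀ (hp : p.Prime) (hpN : ¬ p ∣ N) (φ : Additive (Gamma0 N) →+ 𝒪),
    InBetti 𝒪 N (↑S : Set ℕ) θ Sig φ →
      ∃ φ' : Additive (Gamma0 N) →+ 𝒪, InBetti 𝒪 N (↑S : Set ℕ) θ Sig φ' ∧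
        TB N 𝒪 hp hpN φ' = φ

/-- **P-LINK** (module form of local–global compatibility at `p`, pointwise): on the eigenspace
of a point `πx` the Betti operator `T_p` is the scalar `z + p z⁻¹`, `z = πx` of the eigenvalue of
Frobenius on the unramified quotient.
[The minimal polynomial of `T_p` on the eigenspace: each root `b` gives a character `x̃` of the
Hecke algebra away from `S ∖ {p}` with `x̃(T_p) = b` extending the point (`Betti.H76.heckeRho`),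
over the integers of `K(b)`; `Stmt_LGCpt` for the base change of `H.ρ` along `πx`: `b = z + p/z`;
`T_p` is semisimple because the Hecke algebra away from `S ∖ {p}` is reduced
(`R.Pet.H98.stmt_HeckeReduced`).] -/
def Stmt_PLINK : Prop :=
  ∀ (𝒪 : Type) [CommRing 𝒪] [IsDomain 𝒪] [IsDiscreteValuationRing 𝒪]
    [IsAdicComplete (maximalIdeal 𝒪) 𝒪] [Finite (ResidueField 𝒪)] [CharZero 𝒪]
    (p : ℕ) [Fact p.Prime], p ≠ 2 → (p : 𝒪) ∈ maximalIdeal 𝒪 →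
    ∀ (ρbar : ResidualGaloisRep (ResidueField 𝒪)) (Smin : Finset ℕ), ResHyp p ρbar Smin →
    ∀ (N₀ : ℕ) (Sig : Finset ℕ) (s : NMState 𝒪) [Fact (CuspForm.HasIntegralStructure s.N 2)],
    GeomHyp p Smin N₀ Sig s.N s.S →
    Fermat.Agent.S59.Datum.FrobHyp ρbar s.N s.S s.θ →
    ∀ (hp : p.Prime) (hpN : ¬ p ∣ s.N)
      (ι : s.M.V →ₗ[𝒪] (Additive (Gamma0 s.N) →+ 𝒪)), Function.Injective ι →
    (∀ φ, φ ∈ Set.range ι ↔ InBetti 𝒪 s.N (↑s.S : Set ℕ) s.θ Sig φ) →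
    (∀ (ℓ : ℕ) (hℓ : ℓ.Prime) (hℓN : ¬ ℓ ∣ s.N) (hℓS : ℓ ∉ (↑s.S : Set ℕ)) (v : s.M.V),
      ι (s.M.η (CuspForm.heckeAlgebra.T hℓ hℓN hℓS) v) = TB s.N 𝒪 hℓ hℓN (ι v)) →
    ∀ (H : CuspForm.HeckeGaloisRepDatum s.N (↑s.S : Set ℕ) 𝒪 s.θ
          (CuspForm.heckeLocal s.N (↑s.S : Set ℕ) 𝒪 s.θ))
      (ηhat : CuspForm.heckeLocal s.N (↑s.S : Set ℕ) 𝒪 s.θ →ₐ[𝒪] Module.End 𝒪 s.M.V),
      H.π = CuspForm.heckeLocal.π s.N (↑s.S : Set ℕ) 𝒪 s.θ →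
      (∀ t, ηhat (CuspForm.heckeLocal.π s.N (↑s.S : Set ℕ) 𝒪 s.θ t) = s.M.η t) →
      H.ρ.DetIsCyclotomic p →
      H.ρ.residual.IsEquiv (ρbar.baseChangeAlong
        (ResidueField.map (algebraMap 𝒪 (CuspForm.heckeLocal s.N (↑s.S : Set ℕ) 𝒪 s.θ)))) →
      ∀ (P : ValuationSubring (AlgebraicClosure ℚ)), P.LiesOverPrime p →
      ∀ (ℒ : OrdLine H.ρ P) (g : Γℚ), P.IsFrobeniusAt g p →
      ∀ z : CuspForm.heckeLocal s.N (↑s.S : Set ℕ) 𝒪 s.θ, ℒ.IsQuotEigen g z →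
      ∀ (πx : CuspForm.heckeLocal s.N (↑s.S : Set ℕ) 𝒪 s.θ →ₐ[𝒪] 𝒪) (v : s.M.V),
        (∀ t, ηhat t v = πx t • v) →
        πx z • TB s.N 𝒪 hp hpN (ι v) = (πx z ^ 2 + (p : 𝒪)) • ι v

/-- **P-RANK** (multiplicity one at `p`): the eigenspaces do not grow from `L` (level `N`) to the
`U_p`-ordinary part `M'` of level `N p`.
[`rank M'[x ∘ rest] = 2 dim E'`, `E' ⊆ S₂(Γ₀(N p))` the forms with the eigenvalues `x(T_ℓ)`
(`ℓ ∉ S`), killed by `U_r` (`r ∈ Sig`), in the ordinary part of `U_p`; no `p`-new form has the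
system `x` (`R.H99.smo`: it would be a newform of a level divisible by `p` with the eigenvalues
of a form of level prime to `p`), so `E' ⊆ E ⊕ V_p E`, where `U_p` has the matrix
`[[a_p, p], [-1, 0]]`: eigenvalues `u` (unit) and `p / u`; the ordinary part is one copy of
`E`.  helper27 (RANK sub-planner): same tools as `Geom.Stmt_RANK`.] -/
def Stmt_PRANK : Prop :=
  ∀ (𝒪 : Type) [CommRing 𝒪] [IsDomain 𝒪] [IsDiscreteValuationRing 𝒪]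
    [IsAdicComplete (maximalIdeal 𝒪) 𝒪] [Finite (ResidueField 𝒪)] [CharZero 𝒪]
    (p : ℕ) [Fact p.Prime], p ≠ 2 → (p : 𝒪) ∈ maximalIdeal 𝒪 →
    ∀ (ρbar : ResidualGaloisRep (ResidueField 𝒪)) (Smin : Finset ℕ), ResHyp p ρbar Smin →
    ∀ (N₀ : ℕ) (Sig : Finset ℕ) (s : NMState 𝒪), GeomHyp p Smin N₀ Sig s.N s.S →
    Fermat.Agent.S59.Datum.FrobHyp ρbar s.N s.S s.θ → IsBetti s Sig → ¬ p ∣ s.N →
    ∀ [NeZero (s.N * p)] (hd : p ∣ s.N * p)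
      (rest : CuspForm.heckeAlgebra (s.N * p) 2 (↑s.S : Set ℕ) →+*
        CuspForm.heckeAlgebra s.N 2 (↑s.S : Set ℕ)),
    (∀ (ℓ : ℕ) (hℓ : ℓ.Prime) (hℓN' : ¬ ℓ ∣ s.N * p) (hℓS : ℓ ∉ (↑s.S : Set ℕ))
      (hℓN : ¬ ℓ ∣ s.N),
      rest (CuspForm.heckeAlgebra.T hℓ hℓN' hℓS) = CuspForm.heckeAlgebra.T hℓ hℓN hℓS) →
    ∀ (M' : HMod 𝒪 (s.N * p) (↑s.S : Set ℕ) (s.θ.comp rest))
      (ι' : M'.V →ₗ[𝒪] (Additive (Gamma0 (s.N * p)) →+ 𝒪)), Function.Injective ι' →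
    (∀ ψ, ψ ∈ Set.range ι' ↔
      (InBetti 𝒪 (s.N * p) (↑s.S : Set ℕ) (s.θ.comp rest) Sig ψ ∧
        ∀ n : ℕ, ∃ ψ', InBetti 𝒪 (s.N * p) (↑s.S : Set ℕ) (s.θ.comp rest) Sig ψ' ∧
          (UB (s.N * p) 𝒪 hd)^[n] ψ' = ψ)) →
    (∀ (ℓ : ℕ) (hℓ : ℓ.Prime) (hℓN' : ¬ ℓ ∣ s.N * p) (hℓS : ℓ ∉ (↑s.S : Set ℕ)) (w : M'.V),
      ι' (M'.η (CuspForm.heckeAlgebra.T hℓ hℓN' hℓS) w) = TB (s.N * p) 𝒪 hℓ hℓN' (ι' w)) →
    ∀ (x : CuspForm.heckeAlgebra s.N 2 (↑s.S : Set ℕ) →+* 𝒪),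
    (∀ t, residue 𝒪 (x t) = s.θ t) →
    Module.finrank 𝒪 ↥(NMState.eigen (⟨s.N * p, s.S, s.θ.comp rest, M'⟩ : NMState 𝒪)
      (x.comp rest)) ≤ Module.finrank 𝒪 ↥(s.eigen x)

/-! ## 7. The assembly -/

/-- **P-ASM**: the assembly of the step at `p`.
[`rest`: as `Asm.H41.rest` (same `S`); `L := s.M` (`IsBetti`), `L'` := the lattice of
`Geom.Stmt_BM` at `(N p, S, θ ∘ rest, Sig)`; the operators of `Stmt_PREL`, `Stmt_PRELT` restricted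
to the lattices; `Tp_unit` from `Stmt_PORD`; `ihara` from `Stmt_IHARA2k` + `Stmt_CHEBkp` (a common
eigenvector, over a finite extension of `k`, in the kernel mod `ϖ`); `dual` from `Stmt_PDUAL`;
`Stmt_PALG`; `M' := V`, `rank` from `Stmt_PRANK`;
`c := Ui (1 - p Ui²)(Uu² - 1)`; at a point: `T_p = z + p z⁻¹` on the eigenspace (`Stmt_PLINK`),
so `(Uu - z)(Uu - p z⁻¹) = 0` there and `Uu - p z⁻¹` is invertible: `Uu = z`,
`c = z⁻¹ (1 - p z⁻²)(z² - 1)`.] -/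
def Stmt_PASM : Prop :=
  Geom.Stmt_BM → Stmt_PREL → Stmt_PRELT → Stmt_IHARA2k → Stmt_CHEBkp → Stmt_PDUAL →
    Stmt_PALG → Stmt_PORD → Stmt_PLINK → Stmt_PRANK → Stmt_PSTEPB

end Fermat.Agent.S59.CaseC.Geom
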