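import Mathlib

/-!
# S59 / case C / PGEOM, leaf P-DEG2 (helper13): abstract tools (Mathlib only)

* `liftL`, `liftL_spec` : the lift of a linear map along two embeddings;
* `intertwine_of_gen`, `intertwine_of_gen'`, `commute_of_gen` : a linear map which intertwines
  the generators of a `ℤ`-algebra intertwines the whole algebra;
* `prod_mem_smul_top_iff` : `I • ⊤` in a product;
* `isUnit_of_surjective` : a surjective endomorphism of a finite module is a unit;
* `charP_residue` : the characteristic of the residue field.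
-/

set_option autoImplicit false

open IsLocalRing

namespace Fermat.Agent.S59.CaseC.Geom.H13

section Lift

variable {𝒪 : Type*} [CommRing 𝒪] {V V' X X' : Type*} [AddCommGroup V] [Module 𝒪 V]
  [AddCommGroup V'] [Module 𝒪 V'] [AddCommGroup X] [Module 𝒪 X] [AddCommGroup X'] [Module 𝒪 X']

/-- The lift of `Φ : X → X'` to `V → V'` along `ι : V → X` and an injective `ι' : V' → X'`. -/
noncomputable def liftL (ι : V →ₗ[𝒪] X) (ι' : V' →ₗ[𝒪] X') (hι' : Function.Injective ι')
    (Φ : X →ₗ[𝒪] X') (h : ∀ v, Φ (ι v) ∈ LinearMap.range ι') : V →ₗ[𝒪] V' :=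
  ((LinearEquiv.ofInjective ι' hι').symm : LinearMap.range ι' →ₗ[𝒪] V').comp
    ((Φ.comp ι).codRestrict (LinearMap.range ι') h)

theorem liftL_spec (ι : V →ₗ[𝒪] X) (ι' : V' →ₗ[𝒪] X') (hι' : Function.Injective ι')
    (Φ : X →ₗ[𝒪] X') (h : ∀ v, Φ (ι v) ∈ LinearMap.range ι') (v : V) :
    ι' (liftL ι ι' hι' Φ h v) = Φ (ι v) := by
  unfold liftL
  rw [LinearMap.comp_apply]
  exact LinearEquiv.ofInjective_symm_apply ι' _

end Lift

section Gen

variable {𝒪 : Type*} [CommRing 𝒪] {V V' : Type*} [AddCommGroup V] [Module 𝒪 V]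
  [AddCommGroup V'] [Module 𝒪 V'] {H H' : Type*} [CommRing H] [CommRing H']

theorem intCast_end_apply (n : ℤ) (v : V) : ((n : Module.End 𝒪 V)) v = n • v := by
  rw [← zsmul_one, LinearMap.smul_apply, Module.End.one_apply]

/-- A linear map which intertwines the generators intertwines the algebra. -/
theorem intertwine_of_gen (rest : H' →+* H) {G : Set H'} (hG : Algebra.adjoin ℤ G = ⊤)
    (η : H →+* Module.End 𝒪 V) (η' : H' →+* Module.End 𝒪 V') (f : V →ₗ[𝒪] V')
    (h : ∀ g ∈ G, ∀ v, f (η (rest g) v) = η' g (f v)) (t : H') :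
    ∀ v : V, f (η (rest t) v) = η' t (f v) := by
  have ht : t ∈ Algebra.adjoin ℤ G := by rw [hG]; exact Algebra.mem_top
  induction ht using Algebra.adjoin_induction with
  | mem x hx => exact h x hx
  | algebraMap n =>
    intro v
    rw [eq_intCast (algebraMap ℤ H') n, map_intCast, map_intCast, map_intCast,
      intCast_end_apply, intCast_end_apply, map_zsmul]
  | add x y _ _ hx hy =>
    intro v
    rw [map_add, map_add, LinearMap.add_apply, map_add, hx, hy, map_add, LinearMap.add_apply]
  | mul x y _ _ hx hy =>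
    intro v
    rw [map_mul, map_mul, Module.End.mul_apply, hx, hy, map_mul, Module.End.mul_apply]

/-- The same in the other direction. -/
theorem intertwine_of_gen' (rest : H' →+* H) {G : Set H'} (hG : Algebra.adjoin ℤ G = ⊤)
    (η : H →+* Module.End 𝒪 V) (η' : H' →+* Module.End 𝒪 V') (f : V' →ₗ[𝒪] V)
    (h : ∀ g ∈ G, ∀ w, f (η' g w) = η (rest g) (f w)) (t : H') :
    ∀ w : V', f (η' t w) = η (rest t) (f w) := by
  have ht : t ∈ Algebra.adjoin ℤ G := by rw [hG]; exact Algebra.mem_top
  induction ht using Algebra.adjoin_induction with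
  | mem x hx => exact h x hx
  | algebraMap n =>
    intro w
    rw [eq_intCast (algebraMap ℤ H') n, map_intCast, map_intCast, map_intCast,
      intCast_end_apply, intCast_end_apply, map_zsmul]
  | add x y _ _ hx hy =>
    intro w
    rw [map_add, map_add, LinearMap.add_apply, map_add, hx, hy, map_add, LinearMap.add_apply]
  | mul x y _ _ hx hy =>
    intro w
    rw [map_mul, map_mul, Module.End.mul_apply, hx, hy, map_mul, Module.End.mul_apply]

/-- An endomorphism which commutes with the generators commutes with the algebra. -/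
theorem commute_of_gen (η : H →+* Module.End 𝒪 V) (f : Module.End 𝒪 V) {G : Set H}
    (hG : Algebra.adjoin ℤ G = ⊤)
    (h : ∀ g ∈ G, ∀ v, f (η g v) = η g (f v)) (t : H) : Commute f (η t) := by
  have := intertwine_of_gen (RingHom.id H) hG η η f h t
  exact LinearMap.ext this

end Gen

section Misc

variable {𝒪 : Type*} [CommRing 𝒪]

theorem prod_mem_smul_top_iff (I : Ideal 𝒪) {V V' : Type*} [AddCommGroup V] [Module 𝒪 V]
    [AddCommGroup V'] [Module 𝒪 V'] (x : V) (y : V') :
    ((x, y) : V × V') ∈ (I • ⊤ : Submodule 𝒪 (V × V')) ↔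
      x ∈ (I • ⊤ : Submodule 𝒪 V) ∧ y ∈ (I • ⊤ : Submodule 𝒪 V') := by
  constructor
  · intro h
    exact ⟨Submodule.smul_top_le_comap_smul_top I (LinearMap.fst 𝒪 V V') h,
      Submodule.smul_top_le_comap_smul_top I (LinearMap.snd 𝒪 V V') h⟩
  · rintro ⟨hx, hy⟩
    have h1 : ((x, y) : V × V') = LinearMap.inl 𝒪 V V' x + LinearMap.inr 𝒪 V V' y := by
      simp
    rw [h1]
    exact Submodule.add_mem _
      (Submodule.smul_top_le_comap_smul_top I (LinearMap.inl 𝒪 V V') hx)
      (Submodule.smul_top_le_comap_smul_top I (LinearMap.inr 𝒪 V V') hy)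

theorem isUnit_of_surjective {V : Type*} [AddCommGroup V] [Module 𝒪 V] [Module.Finite 𝒪 V]
    (f : Module.End 𝒪 V) (h : Function.Surjective f) : IsUnit f :=
  (Module.End.isUnit_iff f).2 ⟨OrzechProperty.injective_of_surjective_endomorphism f h, h⟩

theorem prodMap_pow_apply {V : Type*} [AddCommGroup V] [Module 𝒪 V] (D : Module.End 𝒪 V)
    (m : ℕ) (w : V × V) :
    ((LinearMap.prodMap D D : Module.End 𝒪 (V × V)) ^ m) w = ((D ^ m) w.1, (D ^ m) w.2) := by
  induction m generalizing w with
  | zero => rfl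
  | succ m ih =>
    rw [pow_succ, Module.End.mul_apply, ih, pow_succ, Module.End.mul_apply,
      Module.End.mul_apply]
    rfl

theorem charP_residue [IsLocalRing 𝒪] {p : ℕ} (hp : p.Prime)
    (h : (p : 𝒪) ∈ maximalIdeal 𝒪) : CharP (ResidueField 𝒪) p := by
  apply ringChar.of_eq
  apply CharP.ringChar_of_prime_eq_zero hp
  have h1 : residue 𝒪 (p : 𝒪) = 0 := (residue_eq_zero_iff _).2 h
  rwa [map_natCast] at h1

end Misc

end Fermat.Agent.S59.CaseC.Geom.H13
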