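import Mathlib
import Fermat.Agent.S59.CaseC.Geom.Defs
import Fermat.Agent.S59.NonMin.Geom.H48_AsmGDefs

/-!
# S59 / case C / PGEOM, assembly P-ASM (helper53): interface of the two halves

As in ASM-G (`NonMin/Geom/H48_AsmGDefs.lean`) the assembly is split:

* first half **P-DEG2**: at a Betti state `s` of level prime to `p` and the Betti lattice `M'` of
  level `N p` (same `S`, same `Sig`) the operators `T_p`, `U_p`, `res_i`, `cor_i` restricted to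
  the lattices form a `Deg2Data` (`Stmt_PDEG2`, `Stmt_PDEG2WIRE`);
* second half **P-FIN**: `Stmt_PALG` on `Deg2Data.toDeg2`, then `Stmt_PRANK`, `Stmt_PLINK` give
  `PClause` (`Stmt_PFIN`).

`pasm_of` : the two halves give `Stmt_PASM`.

No `sorry`.
-/

set_option autoImplicit false

open Polynomial CuspForm CongruenceSubgroup IsLocalRing
open scoped MatrixGroups

namespace Fermat.Agent.S59.CaseC.Geom.H53

open Fermat.Agent.S41 Fermat.Agent.Betti Fermat.Agent.S59 Fermat.Agent.S59.Asm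
  Fermat.Agent.S59.NonMin Fermat.Agent.S59.NonMin.Geom Fermat.Agent.S59.CaseC
  Fermat.Agent.S59.CaseC.Geom
open ModularCurve.Period

section

variable {𝒪 : Type} [CommRing 𝒪] [IsLocalRing 𝒪]

/-- The operators of `Geom.Deg2` between the module `s.M.V` of a state (level `N`) and a Hecke
module `M'.V` of level `N p` (away from the same set `S`), with all the relations. -/
structure Deg2Data (s : NMState 𝒪) (p : ℕ) [NeZero (s.N * p)]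
    (rest : CuspForm.heckeAlgebra (s.N * p) 2 (↑s.S : Set ℕ) →+*
      CuspForm.heckeAlgebra s.N 2 (↑s.S : Set ℕ))
    (M' : HMod 𝒪 (s.N * p) (↑s.S : Set ℕ) (s.θ.comp rest)) : Type where
  p_mem : (p : 𝒪) ∈ maximalIdeal 𝒪
  /-- `T_p` on `s.M.V` -/
  Tp : Module.End 𝒪 s.M.V
  Tp_η : ∀ t, Commute Tp (s.M.η t)
  Tp_unit : IsUnit Tp
  /-- `U_p` on `M'.V` -/
  U : Module.End 𝒪 M'.V
  U_η' : ∀ t, Commute U (M'.η t)
  r₁ : s.M.V →ₗ[𝒪] M'.V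
  r₂ : s.M.V →ₗ[𝒪] M'.V
  c₁ : M'.V →ₗ[𝒪] s.M.V
  c₂ : M'.V →ₗ[𝒪] s.M.V
  r₁_η : ∀ t (v : s.M.V), r₁ (s.M.η (rest t) v) = M'.η t (r₁ v)
  r₂_η : ∀ t (v : s.M.V), r₂ (s.M.η (rest t) v) = M'.η t (r₂ v)
  c₁_η : ∀ t (w : M'.V), c₁ (M'.η t w) = s.M.η (rest t) (c₁ w)
  c₂_η : ∀ t (w : M'.V), c₂ (M'.η t w) = s.M.η (rest t) (c₂ w)
  R1a : ∀ v : s.M.V, U (r₁ v) = r₁ (Tp v) - r₂ v
  R1b : ∀ v : s.M.V, U (r₂ v) = p • r₁ v
  R2a : ∀ w : M'.V, c₁ (U w) = p • c₂ w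
  R2b : ∀ w : M'.V, c₂ (U w) = Tp (c₂ w) - c₁ w
  R3a : ∀ v : s.M.V, c₁ (r₁ v) = (p + 1) • v
  R3b : ∀ v : s.M.V, c₂ (r₂ v) = (p + 1) • v
  R3c : ∀ v : s.M.V, c₁ (r₂ v) = Tp v
  R3d : ∀ v : s.M.V, c₂ (r₁ v) = Tp v
  ihara : ∀ v₁ v₂ : s.M.V, r₁ v₁ + r₂ v₂ ∈ (maximalIdeal 𝒪 • ⊤ : Submodule 𝒪 M'.V) →
    v₁ ∈ (maximalIdeal 𝒪 • ⊤ : Submodule 𝒪 s.M.V) ∧
      v₂ ∈ (maximalIdeal 𝒪 • ⊤ : Submodule 𝒪 s.M.V)
  dual : ∀ v₁ v₂ : s.M.V, ∃ w : M'.V,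
    c₁ w - v₁ ∈ (maximalIdeal 𝒪 • ⊤ : Submodule 𝒪 s.M.V) ∧
      c₂ w - v₂ ∈ (maximalIdeal 𝒪 • ⊤ : Submodule 𝒪 s.M.V)

/-- The package `Geom.Deg2` of a `Deg2Data`: `L = s.M.V`, `L' = M'.V`, `η = s.M.η`,
`η' = M'.η`, … (all definitional). -/
noncomputable def Deg2Data.toDeg2 {s : NMState 𝒪} {p : ℕ} [NeZero (s.N * p)]
    {rest : CuspForm.heckeAlgebra (s.N * p) 2 (↑s.S : Set ℕ) →+*
      CuspForm.heckeAlgebra s.N 2 (↑s.S : Set ℕ)}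
    {M' : HMod 𝒪 (s.N * p) (↑s.S : Set ℕ) (s.θ.comp rest)}
    (d : Deg2Data s p rest M') : Deg2 𝒪 rest s.θ where
  L := s.M.V
  L' := M'.V
  η := s.M.η
  η' := M'.η
  η_local := s.M.η_local
  η'_local := M'.η_local
  p := p
  p_mem := d.p_mem
  Tp := d.Tp
  Tp_η := d.Tp_η
  Tp_unit := d.Tp_unit
  U := d.U
  U_η' := d.U_η'
  r₁ := d.r₁
  r₂ := d.r₂
  c₁ := d.c₁
  c₂ := d.c₂
  r₁_η := d.r₁_η
  r₂_η := d.r₂_η
  c₁_η := d.c₁_η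
  c₂_η := d.c₂_η
  R1a := d.R1a
  R1b := d.R1b
  R2a := d.R2a
  R2b := d.R2b
  R3a := d.R3a
  R3b := d.R3b
  R3c := d.R3c
  R3d := d.R3d
  ihara := d.ihara
  dual := d.dual

end

/-- **P-DEG2** (first half of P-ASM): at a Betti state `s` of level prime to `p` and a Betti
lattice `M'` of level `N p` (away from the same `S ∋ p`, the same `Sig`) there is a `Deg2Data`
whose operators `T_p`, `U_p` are the Betti operators on the lattices.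
[Lattice operators by restriction: `res_i`, `cor_i`, `T_p`, `U_p` preserve `InBetti`
(`Stmt_PRELT`; `NonMin.Geom.H53.UB_TB_comm`, `UB_UB_comm`, `UB_par` or `H98.UB_comm_TB` for
`U_p`; values in `𝔪^m` are preserved by linearity); the relations from `Stmt_PREL`;
`Tp_η`, `U_η'`, `r_i_η`, `c_i_η` on the generators `T_ℓ`, then by induction on the Hecke
algebra (all primes of the levels are in `S`); `Tp_unit` from `Stmt_PORD` (a surjective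
endomorphism of a finite module is bijective); `ihara`: the submodule
`K = {(v₁, v₂) : r₁ v₁ + r₂ v₂ ∈ 𝔪 L'}` of `L × L` is Hecke stable; if `K ⊄ 𝔪 (L × L)` there is
a common eigenvector modulo `𝔪` in it (`NonMin.Geom.H53.exists_common_eigen_mod`), its
reductions `x_i : Γ₀(N) → k` are cuspidal, `x₁` is an eigenvector with the eigenvalues
`θ(T_ℓ)` and `res1 x₁ + res2 x₂ = 0`: `Stmt_IHARA2k` (auxiliary primes: `Stmt_CHEBkp`) gives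
`x₁ = x₂ = 0`, i.e. `v_i ∈ 𝔪 L` (the lattice is saturated); `dual` from `Stmt_PDUAL` and
saturation.] -/
def Stmt_PDEG2 : Prop :=
  ∀ (𝒪 : Type) [CommRing 𝒪] [IsDomain 𝒪] [IsDiscreteValuationRing 𝒪]
    [IsAdicComplete (maximalIdeal 𝒪) 𝒪] [Finite (ResidueField 𝒪)] [CharZero 𝒪]
    (p : ℕ) [Fact p.Prime], p ≠ 2 → (p : 𝒪) ∈ maximalIdeal 𝒪 →
    ∀ (ρbar : ResidualGaloisRep (ResidueField 𝒪)) (Smin : Finset ℕ), ResHyp p ρbar Smin →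
    cond 𝒪 p true Smin ∅ (GaloisRepAdic.ofResidualGaloisRep ρbar) →
    (GaloisRepAdic.ofResidualGaloisRep ρbar).IsOrdinaryAt p →
    ∀ (N₀ : ℕ) (Sig : Finset ℕ) (s : NMState 𝒪), GeomHyp p Smin N₀ Sig s.N s.S →
    Fermat.Agent.S59.Datum.FrobHyp ρbar s.N s.S s.θ →
    ∀ (ι : s.M.V →ₗ[𝒪] (Additive (Gamma0 s.N) →+ 𝒪)), H48.IsBettiVia s Sig ι →
    ¬ p ∣ s.N →
    ∀ [NeZero (s.N * p)] [Fact (CuspForm.HasIntegralStructure s.N 2)]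
      (rest : CuspForm.heckeAlgebra (s.N * p) 2 (↑s.S : Set ℕ) →+*
        CuspForm.heckeAlgebra s.N 2 (↑s.S : Set ℕ)),
    (∀ (ℓ : ℕ) (hℓ : ℓ.Prime) (hℓN' : ¬ ℓ ∣ s.N * p) (hℓS : ℓ ∉ (↑s.S : Set ℕ))
      (hℓN : ¬ ℓ ∣ s.N),
      rest (CuspForm.heckeAlgebra.T hℓ hℓN' hℓS) = CuspForm.heckeAlgebra.T hℓ hℓN hℓS) →
    ∀ (M' : HMod 𝒪 (s.N * p) (↑s.S : Set ℕ) (s.θ.comp rest))
      (ι' : M'.V →ₗ[𝒪] (Additive (Gamma0 (s.N * p)) →+ 𝒪)),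
    H48.IsBettiVia (⟨s.N * p, s.S, s.θ.comp rest, M'⟩ : NMState 𝒪) Sig ι' →
    ∃ d : Deg2Data s p rest M',
      (∀ (hp : p.Prime) (hpN : ¬ p ∣ s.N) (v : s.M.V),
        ι (d.Tp v) = TB s.N 𝒪 hp hpN (ι v)) ∧
      (∀ (hd : p ∣ s.N * p) (w : M'.V), ι' (d.U w) = UB (s.N * p) 𝒪 hd (ι' w))

/-- The wiring of the first half. -/
def Stmt_PDEG2WIRE : Prop :=
  Stmt_PREL → Stmt_PRELT → Stmt_IHARA2k → Stmt_CHEBkp → Stmt_PDUAL → Stmt_PORD → Stmt_PDEG2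

/-- **P-FIN** (second half of P-ASM): from the package to the clause at `p`.
[`rest := Asm.H41.rest`; `M'₀` := the lattice of `Geom.Stmt_BM` at `(N p, S, θ ∘ rest, Sig)`;
`d` from `Stmt_PDEG2`; `Stmt_PALG` on `d.toDeg2`; `M' := V` (the `U_p`-ordinary part) with
`ι'' := ι' ∘ Out.ι`; `rank` from `Stmt_PRANK`; `c := Ui (Uu² - 1) - p Ui³ (Uu² - 1)`; at a point:
`z₀ := πx z` is a unit (`det ρ(g)` is a unit), `z₀ T_p v = (z₀² + p) v` (`Stmt_PLINK`), so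
`(Uu - p z₀⁻¹)(Uu - z₀) v = 0` and `Uu - p z₀⁻¹` is injective: `Uu v = z₀ v`.] -/
def Stmt_PFIN : Prop :=
  Stmt_PDEG2 → Geom.Stmt_BM → Stmt_PALG → Stmt_PLINK → Stmt_PRANK → Stmt_PSTEPB

/-- The assembly from its two halves. -/
theorem pasm_of (h1 : Stmt_PDEG2WIRE) (h2 : Stmt_PFIN) : Stmt_PASM :=
  fun hBM hREL hRELT hIH hCHEB hDUAL hALG hORD hLINK hRANK =>
    h2 (h1 hREL hRELT hIH hCHEB hDUAL hORD) hBM hALG hLINK hRANK

end Fermat.Agent.S59.CaseC.Geom.H53
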