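import Mathlib
import Fermat.Agent.S59.CaseC.Geom.H53_PAsmDefs
import Fermat.Agent.S59.NonMin.Geom.H48_AsmGLat
import Fermat.Agent.S59.CaseC.Geom.H13_PDeg2Abs
import Fermat.Agent.S16.H38_Chi

/-!
# S59 / case C / PGEOM, leaf P-DEG2 (helper13): the operators preserve the Betti lattices

* `inBetti_TB`, `inBetti_UB` : `T_q` (`q ∤ M`), `U_q` (`q ∣ M`) preserve `InBetti` at the level `M`;
* `inBetti_res1/2`, `inBetti_cor1/2` : the degeneracy maps between the levels `N` and `N p`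
  (from `Stmt_PRELT`);
* `via_mem`, `via_exists`, `via_val_iff` : for an embedding `ι` with `IsBettiVia`, `ι v` has values
  in `𝔪` iff `v ∈ 𝔪 V`;
* `isCuspidal_of_parabolic`, `isCuspidal_red` : reduction modulo `𝔪` of a parabolic homomorphism
  is cuspidal.
-/

set_option autoImplicit false
set_option linter.unusedSectionVars false

open Polynomial CuspForm CongruenceSubgroup IsLocalRing
open scoped MatrixGroups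

namespace Fermat.Agent.S59.CaseC.Geom.H13

open Fermat.Agent.S41 Fermat.Agent.Betti Fermat.Agent.S59 Fermat.Agent.S59.Asm
  Fermat.Agent.S59.NonMin Fermat.Agent.S59.NonMin.Geom Fermat.Agent.S59.CaseC
  Fermat.Agent.S59.CaseC.Geom
open ModularCurve.Period

section Mem

variable {𝒪 : Type} [CommRing 𝒪] [IsDomain 𝒪] [IsDiscreteValuationRing 𝒪] [CharZero 𝒪]

/-- `T_q` preserves the Betti lattice. -/
theorem inBetti_TB {M : ℕ} [NeZero M] {S : Set ℕ}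
    {θ : CuspForm.heckeAlgebra M 2 S →+* ResidueField 𝒪} {Sig : Finset ℕ}
    (hSig : ∀ r ∈ Sig, r.Prime) {q : ℕ} (hq : q.Prime) (hqM : ¬ q ∣ M)
    {φ : Additive (Gamma0 M) →+ 𝒪} (h : InBetti 𝒪 M S θ Sig φ) :
    InBetti 𝒪 M S θ Sig (TB M 𝒪 hq hqM φ) := by
  have := H48.inBetti_map (θ₁ := θ) (θ₂ := θ) (Sig := Sig) (H48.TBl 𝒪 M hq hqM)
    (fun φ hφ => H53.TB_par 𝒪 hq hqM φ hφ)
    (fun r hr hr₂ => ⟨hr₂, fun φ hφ => H53.UB_TB_comm 𝒪 (hSig r hr) hr₂ hq hqM φ hφ⟩)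
    (fun ℓ hℓ hℓN hℓS => ⟨hℓN, hℓS, rfl, fun φ hφ => H53.TB_TB_comm 𝒪 hℓ hℓN hq hqM φ hφ⟩) h
  exact this

/-- `U_q` preserves the Betti lattice. -/
theorem inBetti_UB {M : ℕ} [NeZero M] {S : Set ℕ}
    {θ : CuspForm.heckeAlgebra M 2 S →+* ResidueField 𝒪} {Sig : Finset ℕ}
    (hSig : ∀ r ∈ Sig, r.Prime) {q : ℕ} (hq : q.Prime) (hqM : q ∣ M)
    {φ : Additive (Gamma0 M) →+ 𝒪} (h : InBetti 𝒪 M S θ Sig φ) :
    InBetti 𝒪 M S θ Sig (UB M 𝒪 hqM φ) := by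
  have := H48.inBetti_map (θ₁ := θ) (θ₂ := θ) (Sig := Sig) (H48.UBl 𝒪 M hqM)
    (fun φ hφ => H53.UB_par 𝒪 hqM φ hφ)
    (fun r hr hr₂ => ⟨hr₂, fun φ hφ => H53.UB_UB_comm 𝒪 (hSig r hr) hr₂ hq hqM φ hφ⟩)
    (fun ℓ hℓ hℓN hℓS => ⟨hℓN, hℓS, rfl, fun φ hφ => H53.TB_UB_comm 𝒪 hq hqM hℓ hℓN φ hφ⟩) h
  exact this

variable {N p : ℕ} [NeZero N] [NeZero (N * p)] {S : Set ℕ}
  {θ : CuspForm.heckeAlgebra N 2 S →+* ResidueField 𝒪}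
  {rest : CuspForm.heckeAlgebra (N * p) 2 S →+* CuspForm.heckeAlgebra N 2 S} {Sig : Finset ℕ}

theorem not_dvd_of_mul {ℓ : ℕ} (h : ¬ ℓ ∣ N * p) : ¬ ℓ ∣ N :=
  fun h' => h (dvd_mul_of_dvd_left h' p)

theorem not_dvd_mul {ℓ : ℕ} (hℓ : ℓ.Prime) (hp : p.Prime) (h : ¬ ℓ ∣ N) (hne : ℓ ≠ p) :
    ¬ ℓ ∣ N * p := by
  intro h'
  rcases (Nat.Prime.dvd_mul hℓ).1 h' with h1 | h1
  · exact h h1
  · exact hne ((Nat.prime_dvd_prime_iff_eq hℓ hp).1 h1)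

theorem inBetti_res1 (hRELT : Stmt_PRELT) (hp : p.Prime) (hpN : ¬ p ∣ N)
    (hSig : ∀ r ∈ Sig, r.Prime ∧ r ≠ p)
    (hrest : ∀ (ℓ : ℕ) (hℓ : ℓ.Prime) (hℓN' : ¬ ℓ ∣ N * p) (hℓS : ℓ ∉ S) (hℓN : ¬ ℓ ∣ N),
      rest (CuspForm.heckeAlgebra.T hℓ hℓN' hℓS) = CuspForm.heckeAlgebra.T hℓ hℓN hℓS)
    {φ : Additive (Gamma0 N) →+ 𝒪} (h : InBetti 𝒪 N S θ Sig φ) :
    InBetti 𝒪 (N * p) S (θ.comp rest) Sig (res1 N p 𝒪 φ) := by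
  obtain ⟨hT, hU, hparR, -⟩ := hRELT N p hp hpN 𝒪
  have := H48.inBetti_map (θ₁ := θ) (θ₂ := θ.comp rest) (Sig := Sig) (H48.resL 𝒪 (inclG N p))
    (fun φ hφ => (hparR φ hφ).1)
    (fun r hr hr₂ => by
      have hrN : r ∣ N := by
        rcases (Nat.Prime.dvd_mul (hSig r hr).1).1 hr₂ with h1 | h1
        · exact h1
        · exact absurd ((Nat.prime_dvd_prime_iff_eq (hSig r hr).1 hp).1 h1) (hSig r hr).2
      exact ⟨hrN, fun φ _ => ((hU r (hSig r hr).1 hrN hr₂).1 φ).1⟩)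
    (fun ℓ hℓ hℓN' hℓS => ⟨not_dvd_of_mul hℓN', hℓS, by
        rw [RingHom.comp_apply, hrest ℓ hℓ hℓN' hℓS (not_dvd_of_mul hℓN')],
      fun φ _ => ((hT ℓ hℓ (not_dvd_of_mul hℓN') hℓN').1 φ).1⟩) h
  exact this

theorem inBetti_res2 (hRELT : Stmt_PRELT) (hp : p.Prime) (hpN : ¬ p ∣ N)
    (hSig : ∀ r ∈ Sig, r.Prime ∧ r ≠ p)
    (hrest : ∀ (ℓ : ℕ) (hℓ : ℓ.Prime) (hℓN' : ¬ ℓ ∣ N * p) (hℓS : ℓ ∉ S) (hℓN : ¬ ℓ ∣ N),
      rest (CuspForm.heckeAlgebra.T hℓ hℓN' hℓS) = CuspForm.heckeAlgebra.T hℓ hℓN hℓS)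
    {φ : Additive (Gamma0 N) →+ 𝒪} (h : InBetti 𝒪 N S θ Sig φ) :
    InBetti 𝒪 (N * p) S (θ.comp rest) Sig (res2 N p 𝒪 φ) := by
  obtain ⟨hT, hU, hparR, -⟩ := hRELT N p hp hpN 𝒪
  have := H48.inBetti_map (θ₁ := θ) (θ₂ := θ.comp rest) (Sig := Sig) (H48.resL 𝒪 (conjG N p))
    (fun φ hφ => (hparR φ hφ).2.1)
    (fun r hr hr₂ => by
      have hrN : r ∣ N := by
        rcases (Nat.Prime.dvd_mul (hSig r hr).1).1 hr₂ with h1 | h1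
        · exact h1
        · exact absurd ((Nat.prime_dvd_prime_iff_eq (hSig r hr).1 hp).1 h1) (hSig r hr).2
      exact ⟨hrN, fun φ _ => ((hU r (hSig r hr).1 hrN hr₂).1 φ).2.1⟩)
    (fun ℓ hℓ hℓN' hℓS => ⟨not_dvd_of_mul hℓN', hℓS, by
        rw [RingHom.comp_apply, hrest ℓ hℓ hℓN' hℓS (not_dvd_of_mul hℓN')],
      fun φ _ => ((hT ℓ hℓ (not_dvd_of_mul hℓN') hℓN').1 φ).2.1⟩) h
  exact this

theorem inBetti_cor1 (hRELT : Stmt_PRELT) (hp : p.Prime) (hpN : ¬ p ∣ N) (hpS : p ∈ S)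
    (hSig : ∀ r ∈ Sig, r.Prime ∧ r ≠ p)
    (hrest : ∀ (ℓ : ℕ) (hℓ : ℓ.Prime) (hℓN' : ¬ ℓ ∣ N * p) (hℓS : ℓ ∉ S) (hℓN : ¬ ℓ ∣ N),
      rest (CuspForm.heckeAlgebra.T hℓ hℓN' hℓS) = CuspForm.heckeAlgebra.T hℓ hℓN hℓS)
    {ψ : Additive (Gamma0 (N * p)) →+ 𝒪} (h : InBetti 𝒪 (N * p) S (θ.comp rest) Sig ψ) :
    InBetti 𝒪 N S θ Sig (cor1 N p 𝒪 ψ) := by
  obtain ⟨hT, hU, -, hparC⟩ := hRELT N p hp hpN 𝒪
  have := H48.inBetti_map (θ₁ := θ.comp rest) (θ₂ := θ) (Sig := Sig) (H48.corL 𝒪 (inclG N p))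
    (fun ψ hψ => (hparC ψ hψ).1)
    (fun r hr hr₂ => ⟨dvd_mul_of_dvd_left hr₂ p, fun ψ _ =>
      (((hU r (hSig r hr).1 hr₂ (dvd_mul_of_dvd_left hr₂ p)).2 ψ).1).symm⟩)
    (fun ℓ hℓ hℓN hℓS => by
      have hne : ℓ ≠ p := fun h => hℓS (h ▸ hpS)
      have hℓN' : ¬ ℓ ∣ N * p := not_dvd_mul hℓ hp hℓN hne
      exact ⟨hℓN', hℓS, by rw [RingHom.comp_apply, hrest ℓ hℓ hℓN' hℓS hℓN],
        fun ψ _ => (((hT ℓ hℓ hℓN hℓN').2 ψ).1).symm⟩) h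
  exact this

theorem inBetti_cor2 (hRELT : Stmt_PRELT) (hp : p.Prime) (hpN : ¬ p ∣ N) (hpS : p ∈ S)
    (hSig : ∀ r ∈ Sig, r.Prime ∧ r ≠ p)
    (hrest : ∀ (ℓ : ℕ) (hℓ : ℓ.Prime) (hℓN' : ¬ ℓ ∣ N * p) (hℓS : ℓ ∉ S) (hℓN : ¬ ℓ ∣ N),
      rest (CuspForm.heckeAlgebra.T hℓ hℓN' hℓS) = CuspForm.heckeAlgebra.T hℓ hℓN hℓS)
    {ψ : Additive (Gamma0 (N * p)) →+ 𝒪} (h : InBetti 𝒪 (N * p) S (θ.comp rest) Sig ψ) :
    InBetti 𝒪 N S θ Sig (cor2 N p 𝒪 ψ) := by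
  obtain ⟨hT, hU, -, hparC⟩ := hRELT N p hp hpN 𝒪
  have := H48.inBetti_map (θ₁ := θ.comp rest) (θ₂ := θ) (Sig := Sig) (H48.corL 𝒪 (conjG N p))
    (fun ψ hψ => (hparC ψ hψ).2)
    (fun r hr hr₂ => ⟨dvd_mul_of_dvd_left hr₂ p, fun ψ _ =>
      (((hU r (hSig r hr).1 hr₂ (dvd_mul_of_dvd_left hr₂ p)).2 ψ).2).symm⟩)
    (fun ℓ hℓ hℓN hℓS => by
      have hne : ℓ ≠ p := fun h => hℓS (h ▸ hpS)
      have hℓN' : ¬ ℓ ∣ N * p := not_dvd_mul hℓ hp hℓN hne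
      exact ⟨hℓN', hℓS, by rw [RingHom.comp_apply, hrest ℓ hℓ hℓN' hℓS hℓN],
        fun ψ _ => (((hT ℓ hℓ hℓN hℓN').2 ψ).2).symm⟩) h
  exact this

end Mem

section Via

variable {𝒪 : Type} [CommRing 𝒪] [IsDomain 𝒪] [IsDiscreteValuationRing 𝒪]
  {M : ℕ} [NeZero M] {S : Set ℕ} {θ : CuspForm.heckeAlgebra M 2 S →+* ResidueField 𝒪}
  {Sig : Finset ℕ} {V : Type} [AddCommGroup V] [Module 𝒪 V]
  {ι : V →ₗ[𝒪] (Additive (Gamma0 M) →+ 𝒪)}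

/-- `ι v` has values in `𝔪` iff `v ∈ 𝔪 V`. -/
theorem via_val_iff (hinj : Function.Injective ι)
    (hrange : ∀ φ, φ ∈ Set.range ι ↔ InBetti 𝒪 M S θ Sig φ) (v : V) :
    (∀ γ, ι v γ ∈ maximalIdeal 𝒪) ↔ v ∈ (maximalIdeal 𝒪 • ⊤ : Submodule 𝒪 V) := by
  constructor
  · intro h
    obtain ⟨ϖ, hϖ⟩ := IsDiscreteValuationRing.exists_irreducible 𝒪
    have hm : ι v ∈ H48.Mval 𝒪 (Additive (Gamma0 M)) 1 := by
      intro γ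
      rw [pow_one]
      exact h γ
    obtain ⟨φ', h1, h2⟩ := H48.exists_inBetti_smul hϖ ((hrange _).1 ⟨v, rfl⟩) hm
    obtain ⟨v', rfl⟩ := (hrange _).2 h2
    rw [pow_one, ← map_smul] at h1
    rw [hinj h1]
    exact Submodule.smul_mem_smul
      ((mem_maximalIdeal ϖ).2 hϖ.not_isUnit) Submodule.mem_top
  · intro h γ
    refine Submodule.smul_induction_on (p := fun w => ι w γ ∈ maximalIdeal 𝒪) h ?_ ?_
    · intro a ha w _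
      rw [map_smul]
      exact Ideal.mul_mem_right _ _ ha
    · intro x y hx hy
      rw [map_add]
      exact Ideal.add_mem _ hx hy

end Via

section Cusp

/-- A parabolic homomorphism with values in a group without `12`-torsion is cuspidal. -/
theorem isCuspidal_of_parabolic {M : ℕ} {A : Type*} [AddCommGroup A]
    (hA : ∀ a : A, (12 : ℕ) • a = 0 → a = 0) {φ : Additive (Gamma0 M) →+ A}
    (h : IsParabolicHom (Gamma0 M) φ) : IsCuspidalHom (Gamma0 M) φ := by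
  intro γ hγ
  rcases hγ.lt_or_eq with hlt | heq
  · have h12 : (γ : SL(2, ℤ)) ^ 12 = 1 := Fermat.Agent.S16.H38.pow_twelve_eq_one_of_trace _ hlt
    have h12' : γ ^ 12 = 1 := Subtype.ext h12
    have : (12 : ℕ) • φ (Additive.ofMul γ) = 0 := by
      rw [← map_nsmul, ← ofMul_pow, h12', ofMul_one, map_zero]
    exact hA _ this
  · exact h γ heq

/-- reduction of a homomorphism modulo the maximal ideal -/
noncomputable def redk (𝒪 : Type) [CommRing 𝒪] [IsLocalRing 𝒪] {G : Type*} [AddGroup G] (φ : G →+ 𝒪) :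
    G →+ ResidueField 𝒪 :=
  (residue 𝒪).toAddMonoidHom.comp φ

theorem redk_apply {𝒪 : Type} [CommRing 𝒪] [IsLocalRing 𝒪] {G : Type*} [AddGroup G]
    (φ : G →+ 𝒪) (γ : G) : redk 𝒪 φ γ = residue 𝒪 (φ γ) := rfl

theorem redk_eq_zero_iff {𝒪 : Type} [CommRing 𝒪] [IsLocalRing 𝒪] {G : Type*} [AddGroup G]
    (φ : G →+ 𝒪) : redk 𝒪 φ = 0 ↔ ∀ γ, φ γ ∈ maximalIdeal 𝒪 := by
  constructor
  · intro h γ
    have := DFunLike.congr_fun h γ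
    rw [redk_apply] at this
    exact (residue_eq_zero_iff _).1 this
  · intro h
    refine AddMonoidHom.ext fun γ => ?_
    rw [redk_apply]
    exact (residue_eq_zero_iff _).2 (h γ)

theorem isCuspidal_redk {𝒪 : Type} [CommRing 𝒪] [IsLocalRing 𝒪] {M : ℕ}
    {φ : Additive (Gamma0 M) →+ 𝒪} (h : IsCuspidalHom (Gamma0 M) φ) :
    IsCuspidalHom (Gamma0 M) (redk 𝒪 φ) := by
  intro γ hγ
  rw [redk_apply, h γ hγ, map_zero]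

end Cusp

end Fermat.Agent.S59.CaseC.Geom.H13
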