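import Mathlib
import Fermat.Agent.S59.CaseC.Geom.H13_PDeg2Mem
import Fermat.Agent.S59.NonMin.Geom.H53_CommonEigen
import Fermat.Agent.S59.NonMin.Geom.H61_BM

/-!
# S59 / case C / PGEOM, leaf P-DEG2 (helper13): the wiring of the first half of P-ASM

`stmt_PDEG2WIRE : H53.Stmt_PDEG2WIRE`, i.e.
`Stmt_PREL → Stmt_PRELT → Stmt_IHARA2k → Stmt_CHEBkp → Stmt_PDUAL → Stmt_PORD → Stmt_PDEG2`.

The operators `T_p`, `U_p`, `res_i`, `cor_i` preserve the Betti lattices (`H13_PDeg2Mem.lean`) and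
are lifted to the modules of the states along the embeddings (`liftL`); the relations come from
`Stmt_PREL`; the compatibility with the Hecke action is checked on the generators `T_ℓ`;
`T_p` is a unit by `Stmt_PORD`; Ihara's lemma on the lattice by a common eigenvector modulo `𝔪`
(`H53.exists_common_eigen_mod`), `Stmt_IHARA2k` and `Stmt_CHEBkp`; the dual by `Stmt_PDUAL`.
-/

set_option autoImplicit false
set_option linter.unusedSectionVars false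

open Polynomial CuspForm CongruenceSubgroup IsLocalRing
open scoped MatrixGroups

namespace Fermat.Agent.S59.CaseC.Geom.H13

open Fermat.Agent.S41 Fermat.Agent.Betti Fermat.Agent.S59 Fermat.Agent.S59.Asm
  Fermat.Agent.S59.NonMin Fermat.Agent.S59.NonMin.Geom Fermat.Agent.S59.CaseC
  Fermat.Agent.S59.CaseC.Geom
open ModularCurve.Period

section Core

variable {𝒪 : Type} [CommRing 𝒪] [IsDomain 𝒪] [IsDiscreteValuationRing 𝒪] [CharZero 𝒪]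
variable {N p : ℕ} [NeZero N] [NeZero (N * p)] {S : Finset ℕ}
  {θ : CuspForm.heckeAlgebra N 2 (↑S : Set ℕ) →+* ResidueField 𝒪}
  {rest : CuspForm.heckeAlgebra (N * p) 2 (↑S : Set ℕ) →+*
    CuspForm.heckeAlgebra N 2 (↑S : Set ℕ)}

/-- The standing hypotheses of the construction. -/
structure Setup (Sig : Finset ℕ) (M : HMod 𝒪 N (↑S : Set ℕ) θ)
    (M' : HMod 𝒪 (N * p) (↑S : Set ℕ) (θ.comp rest))
    (ι : M.V →ₗ[𝒪] (Additive (Gamma0 N) →+ 𝒪))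
    (ι' : M'.V →ₗ[𝒪] (Additive (Gamma0 (N * p)) →+ 𝒪)) : Prop where
  hinj : Function.Injective ι
  hrange : ∀ φ, φ ∈ Set.range ι ↔ InBetti 𝒪 N (↑S : Set ℕ) θ Sig φ
  hT : ∀ (ℓ : ℕ) (hℓ : ℓ.Prime) (hℓN : ¬ ℓ ∣ N) (hℓS : ℓ ∉ (↑S : Set ℕ)) (v : M.V),
    ι (M.η (CuspForm.heckeAlgebra.T hℓ hℓN hℓS) v) = TB N 𝒪 hℓ hℓN (ι v)
  hinj' : Function.Injective ι'
  hrange' : ∀ ψ, ψ ∈ Set.range ι' ↔ InBetti 𝒪 (N * p) (↑S : Set ℕ) (θ.comp rest) Sig ψ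
  hT' : ∀ (ℓ : ℕ) (hℓ : ℓ.Prime) (hℓN : ¬ ℓ ∣ N * p) (hℓS : ℓ ∉ (↑S : Set ℕ)) (w : M'.V),
    ι' (M'.η (CuspForm.heckeAlgebra.T hℓ hℓN hℓS) w) = TB (N * p) 𝒪 hℓ hℓN (ι' w)
  hp : p.Prime
  hpN : ¬ p ∣ N
  hpS : p ∈ (↑S : Set ℕ)
  hSig : ∀ r ∈ Sig, r.Prime ∧ r ≠ p
  hNS : ∀ r : ℕ, r.Prime → r ∣ N → r ∈ (↑S : Set ℕ)
  hrest : ∀ (ℓ : ℕ) (hℓ : ℓ.Prime) (hℓN' : ¬ ℓ ∣ N * p) (hℓS : ℓ ∉ (↑S : Set ℕ))
    (hℓN : ¬ ℓ ∣ N),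
    rest (CuspForm.heckeAlgebra.T hℓ hℓN' hℓS) = CuspForm.heckeAlgebra.T hℓ hℓN hℓS
  hREL : Stmt_PREL
  hRELT : Stmt_PRELT

variable {Sig : Finset ℕ} {M : HMod 𝒪 N (↑S : Set ℕ) θ}
  {M' : HMod 𝒪 (N * p) (↑S : Set ℕ) (θ.comp rest)}
  {ι : M.V →ₗ[𝒪] (Additive (Gamma0 N) →+ 𝒪)}
  {ι' : M'.V →ₗ[𝒪] (Additive (Gamma0 (N * p)) →+ 𝒪)}

namespace Setup

variable (h : Setup Sig M M' ι ι')
include h

theorem hd : p ∣ N * p := dvd_mul_left p N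

theorem hSigP : ∀ r ∈ Sig, r.Prime := fun r hr => (h.hSig r hr).1

theorem mem (v : M.V) : InBetti 𝒪 N (↑S : Set ℕ) θ Sig (ι v) := (h.hrange _).1 ⟨v, rfl⟩

theorem mem' (w : M'.V) : InBetti 𝒪 (N * p) (↑S : Set ℕ) (θ.comp rest) Sig (ι' w) :=
  (h.hrange' _).1 ⟨w, rfl⟩

theorem hNS' : ∀ r : ℕ, r.Prime → r ∣ N * p → r ∈ (↑S : Set ℕ) := by
  intro r hr hrd
  rcases (Nat.Prime.dvd_mul hr).1 hrd with h1 | h1
  · exact h.hNS r hr h1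
  · rw [(Nat.prime_dvd_prime_iff_eq hr h.hp).1 h1]
    exact h.hpS

/-- `T_p` on the module of level `N` -/
noncomputable def opTp : Module.End 𝒪 M.V :=
  liftL ι ι h.hinj (H48.TBl 𝒪 N h.hp h.hpN)
    (fun v => (h.hrange _).2 (inBetti_TB h.hSigP h.hp h.hpN (h.mem v)))

theorem opTp_spec (v : M.V) : ι (h.opTp v) = TB N 𝒪 h.hp h.hpN (ι v) :=
  liftL_spec ι ι h.hinj (H48.TBl 𝒪 N h.hp h.hpN) _ v

/-- `U_p` on the module of level `N p` -/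
noncomputable def opU : Module.End 𝒪 M'.V :=
  liftL ι' ι' h.hinj' (H48.UBl 𝒪 (N * p) h.hd)
    (fun w => (h.hrange' _).2 (inBetti_UB h.hSigP h.hp h.hd (h.mem' w)))

theorem opU_spec (w : M'.V) : ι' (h.opU w) = UB (N * p) 𝒪 h.hd (ι' w) :=
  liftL_spec ι' ι' h.hinj' (H48.UBl 𝒪 (N * p) h.hd) _ w

noncomputable def opr1 : M.V →ₗ[𝒪] M'.V :=
  liftL ι ι' h.hinj' (H48.resL 𝒪 (inclG N p))
    (fun v => (h.hrange' _).2 (inBetti_res1 h.hRELT h.hp h.hpN h.hSig h.hrest (h.mem v)))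

theorem opr1_spec (v : M.V) : ι' (h.opr1 v) = res1 N p 𝒪 (ι v) :=
  liftL_spec ι ι' h.hinj' (H48.resL 𝒪 (inclG N p)) _ v

noncomputable def opr2 : M.V →ₗ[𝒪] M'.V :=
  liftL ι ι' h.hinj' (H48.resL 𝒪 (conjG N p))
    (fun v => (h.hrange' _).2 (inBetti_res2 h.hRELT h.hp h.hpN h.hSig h.hrest (h.mem v)))

theorem opr2_spec (v : M.V) : ι' (h.opr2 v) = res2 N p 𝒪 (ι v) :=
  liftL_spec ι ι' h.hinj' (H48.resL 𝒪 (conjG N p)) _ v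

noncomputable def opc1 : M'.V →ₗ[𝒪] M.V :=
  liftL ι' ι h.hinj (H48.corL 𝒪 (inclG N p))
    (fun w => (h.hrange _).2
      (inBetti_cor1 h.hRELT h.hp h.hpN h.hpS h.hSig h.hrest (h.mem' w)))

theorem opc1_spec (w : M'.V) : ι (h.opc1 w) = cor1 N p 𝒪 (ι' w) :=
  liftL_spec ι' ι h.hinj (H48.corL 𝒪 (inclG N p)) _ w

noncomputable def opc2 : M'.V →ₗ[𝒪] M.V :=
  liftL ι' ι h.hinj (H48.corL 𝒪 (conjG N p))
    (fun w => (h.hrange _).2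
      (inBetti_cor2 h.hRELT h.hp h.hpN h.hpS h.hSig h.hrest (h.mem' w)))

theorem opc2_spec (w : M'.V) : ι (h.opc2 w) = cor2 N p 𝒪 (ι' w) :=
  liftL_spec ι' ι h.hinj (H48.corL 𝒪 (conjG N p)) _ w

/-! ### the relations -/

theorem R1a (v : M.V) : h.opU (h.opr1 v) = h.opr1 (h.opTp v) - h.opr2 v := by
  apply h.hinj'
  rw [opU_spec, opr1_spec, map_sub, opr1_spec, opr2_spec, opTp_spec]
  exact ((h.hREL N p h.hp h.hpN h.hd 𝒪).1 (ι v)).1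

theorem R1b (v : M.V) : h.opU (h.opr2 v) = p • h.opr1 v := by
  apply h.hinj'
  rw [opU_spec, opr2_spec, map_nsmul, opr1_spec]
  exact ((h.hREL N p h.hp h.hpN h.hd 𝒪).1 (ι v)).2.1

theorem R2a (w : M'.V) : h.opc1 (h.opU w) = p • h.opc2 w := by
  apply h.hinj
  rw [opc1_spec, opU_spec, map_nsmul, opc2_spec]
  exact ((h.hREL N p h.hp h.hpN h.hd 𝒪).2 (ι' w)).1

theorem R2b (w : M'.V) : h.opc2 (h.opU w) = h.opTp (h.opc2 w) - h.opc1 w := by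
  apply h.hinj
  rw [opc2_spec, opU_spec, map_sub, opTp_spec, opc2_spec, opc1_spec]
  exact ((h.hREL N p h.hp h.hpN h.hd 𝒪).2 (ι' w)).2

theorem R3a (v : M.V) : h.opc1 (h.opr1 v) = (p + 1) • v := by
  apply h.hinj
  rw [opc1_spec, opr1_spec, map_nsmul]
  exact ((h.hREL N p h.hp h.hpN h.hd 𝒪).1 (ι v)).2.2.1

theorem R3b (v : M.V) : h.opc2 (h.opr2 v) = (p + 1) • v := by
  apply h.hinj
  rw [opc2_spec, opr2_spec, map_nsmul]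
  exact ((h.hREL N p h.hp h.hpN h.hd 𝒪).1 (ι v)).2.2.2.1

theorem R3c (v : M.V) : h.opc1 (h.opr2 v) = h.opTp v := by
  apply h.hinj
  rw [opc1_spec, opr2_spec, opTp_spec]
  exact ((h.hREL N p h.hp h.hpN h.hd 𝒪).1 (ι v)).2.2.2.2.1

theorem R3d (v : M.V) : h.opc2 (h.opr1 v) = h.opTp v := by
  apply h.hinj
  rw [opc2_spec, opr1_spec, opTp_spec]
  exact ((h.hREL N p h.hp h.hpN h.hd 𝒪).1 (ι v)).2.2.2.2.2

/-! ### compatibility with the Hecke action -/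

theorem Tp_η (t : CuspForm.heckeAlgebra N 2 (↑S : Set ℕ)) : Commute h.opTp (M.η t) := by
  refine commute_of_gen M.η h.opTp (H61.adjoin_bmG (↑S : Set ℕ) h.hNS) ?_ t
  rintro g ⟨ℓ, hℓ, hℓN, hℓS, rfl⟩ v
  apply h.hinj
  rw [opTp_spec, h.hT, h.hT, opTp_spec]
  exact H53.TB_TB_comm 𝒪 h.hp h.hpN hℓ hℓN (ι v) (h.mem v).1

theorem U_η' (t : CuspForm.heckeAlgebra (N * p) 2 (↑S : Set ℕ)) :
    Commute h.opU (M'.η t) := by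
  refine commute_of_gen M'.η h.opU (H61.adjoin_bmG (↑S : Set ℕ) h.hNS') ?_ t
  rintro g ⟨ℓ, hℓ, hℓN, hℓS, rfl⟩ w
  apply h.hinj'
  rw [opU_spec, h.hT', h.hT', opU_spec]
  exact H53.UB_TB_comm 𝒪 h.hp h.hd hℓ hℓN (ι' w) (h.mem' w).1

theorem r₁_η (t : CuspForm.heckeAlgebra (N * p) 2 (↑S : Set ℕ)) (v : M.V) :
    h.opr1 (M.η (rest t) v) = M'.η t (h.opr1 v) := by
  refine intertwine_of_gen rest (H61.adjoin_bmG (↑S : Set ℕ) h.hNS') M.η M'.η h.opr1 ?_ t v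
  rintro g ⟨ℓ, hℓ, hℓN', hℓS, rfl⟩ v
  apply h.hinj'
  rw [h.hrest ℓ hℓ hℓN' hℓS (not_dvd_of_mul hℓN'), opr1_spec, h.hT, h.hT', opr1_spec]
  exact ((((h.hRELT N p h.hp h.hpN 𝒪).1 ℓ hℓ (not_dvd_of_mul hℓN') hℓN').1 (ι v)).1).symm

theorem r₂_η (t : CuspForm.heckeAlgebra (N * p) 2 (↑S : Set ℕ)) (v : M.V) :
    h.opr2 (M.η (rest t) v) = M'.η t (h.opr2 v) := by
  refine intertwine_of_gen rest (H61.adjoin_bmG (↑S : Set ℕ) h.hNS') M.η M'.η h.opr2 ?_ t v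
  rintro g ⟨ℓ, hℓ, hℓN', hℓS, rfl⟩ v
  apply h.hinj'
  rw [h.hrest ℓ hℓ hℓN' hℓS (not_dvd_of_mul hℓN'), opr2_spec, h.hT, h.hT', opr2_spec]
  exact ((((h.hRELT N p h.hp h.hpN 𝒪).1 ℓ hℓ (not_dvd_of_mul hℓN') hℓN').1 (ι v)).2.1).symm

theorem c₁_η (t : CuspForm.heckeAlgebra (N * p) 2 (↑S : Set ℕ)) (w : M'.V) :
    h.opc1 (M'.η t w) = M.η (rest t) (h.opc1 w) := by
  refine intertwine_of_gen' rest (H61.adjoin_bmG (↑S : Set ℕ) h.hNS') M.η M'.η h.opc1 ?_ t w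
  rintro g ⟨ℓ, hℓ, hℓN', hℓS, rfl⟩ w
  apply h.hinj
  rw [h.hrest ℓ hℓ hℓN' hℓS (not_dvd_of_mul hℓN'), opc1_spec, h.hT, h.hT', opc1_spec]
  exact (((h.hRELT N p h.hp h.hpN 𝒪).1 ℓ hℓ (not_dvd_of_mul hℓN') hℓN').2 (ι' w)).1

theorem c₂_η (t : CuspForm.heckeAlgebra (N * p) 2 (↑S : Set ℕ)) (w : M'.V) :
    h.opc2 (M'.η t w) = M.η (rest t) (h.opc2 w) := by
  refine intertwine_of_gen' rest (H61.adjoin_bmG (↑S : Set ℕ) h.hNS') M.η M'.η h.opc2 ?_ t w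
  rintro g ⟨ℓ, hℓ, hℓN', hℓS, rfl⟩ w
  apply h.hinj
  rw [h.hrest ℓ hℓ hℓN' hℓS (not_dvd_of_mul hℓN'), opc2_spec, h.hT, h.hT', opc2_spec]
  exact (((h.hRELT N p h.hp h.hpN 𝒪).1 ℓ hℓ (not_dvd_of_mul hℓN') hℓN').2 (ι' w)).2

/-! ### ordinarity -/

theorem Tp_unit
    (hord : ∀ φ : Additive (Gamma0 N) →+ 𝒪, InBetti 𝒪 N (↑S : Set ℕ) θ Sig φ →
      ∃ φ' : Additive (Gamma0 N) →+ 𝒪, InBetti 𝒪 N (↑S : Set ℕ) θ Sig φ' ∧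
        TB N 𝒪 h.hp h.hpN φ' = φ) : IsUnit h.opTp := by
  refine isUnit_of_surjective h.opTp fun v => ?_
  obtain ⟨φ', hφ', hTφ⟩ := hord (ι v) (h.mem v)
  obtain ⟨v', rfl⟩ := (h.hrange _).2 hφ'
  exact ⟨v', h.hinj (by rw [opTp_spec, hTφ])⟩

/-! ### the dual of Ihara's lemma -/

theorem dual
    (hdual : ∀ φ₁ φ₂ : Additive (Gamma0 N) →+ 𝒪,
      InBetti 𝒪 N (↑S : Set ℕ) θ Sig φ₁ → InBetti 𝒪 N (↑S : Set ℕ) θ Sig φ₂ →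
      ∃ ψ : Additive (Gamma0 (N * p)) →+ 𝒪,
        InBetti 𝒪 (N * p) (↑S : Set ℕ) (θ.comp rest) Sig ψ ∧
        ∀ γ, (cor1 N p 𝒪 ψ - φ₁) γ ∈ maximalIdeal 𝒪 ∧ (cor2 N p 𝒪 ψ - φ₂) γ ∈ maximalIdeal 𝒪)
    (v₁ v₂ : M.V) :
    ∃ w : M'.V, h.opc1 w - v₁ ∈ (maximalIdeal 𝒪 • ⊤ : Submodule 𝒪 M.V) ∧
      h.opc2 w - v₂ ∈ (maximalIdeal 𝒪 • ⊤ : Submodule 𝒪 M.V) := by
  obtain ⟨ψ, hψ, hγ⟩ := hdual (ι v₁) (ι v₂) (h.mem v₁) (h.mem v₂)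
  obtain ⟨w, rfl⟩ := (h.hrange' _).2 hψ
  refine ⟨w, (via_val_iff h.hinj h.hrange _).1 fun γ => ?_,
    (via_val_iff h.hinj h.hrange _).1 fun γ => ?_⟩
  · rw [map_sub, opc1_spec]
    exact (hγ γ).1
  · rw [map_sub, opc2_spec]
    exact (hγ γ).2

/-! ### Ihara's lemma on the lattice -/

omit h in
/-- the operator `η t - a` -/
noncomputable def Dop {L : ℕ} [NeZero L] {S' : Set ℕ}
    {θ' : CuspForm.heckeAlgebra L 2 S' →+* ResidueField 𝒪} (M₀ : HMod 𝒪 L S' θ')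
    (t : CuspForm.heckeAlgebra L 2 S') (a : 𝒪) : Module.End 𝒪 M₀.V :=
  M₀.η t - a • 1

omit h in
theorem Dop_apply {L : ℕ} [NeZero L] {S' : Set ℕ}
    {θ' : CuspForm.heckeAlgebra L 2 S' →+* ResidueField 𝒪} (M₀ : HMod 𝒪 L S' θ')
    (t : CuspForm.heckeAlgebra L 2 S') (a : 𝒪) (x : M₀.V) :
    Dop M₀ t a x = M₀.η t x - a • x := rfl

omit h in
theorem Dop_comm {L : ℕ} [NeZero L] {S' : Set ℕ}
    {θ' : CuspForm.heckeAlgebra L 2 S' →+* ResidueField 𝒪} (M₀ : HMod 𝒪 L S' θ')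
    (t t' : CuspForm.heckeAlgebra L 2 S') (a a' : 𝒪) (x : M₀.V) :
    Dop M₀ t a (Dop M₀ t' a' x) = Dop M₀ t' a' (Dop M₀ t a x) := by
  have h1 : Commute (M₀.η t) (M₀.η t') := (Commute.all _ _).map M₀.η
  have h1' : M₀.η t (M₀.η t' x) = M₀.η t' (M₀.η t x) :=
    congrArg (fun F : Module.End 𝒪 M₀.V => F x) h1.eq
  rw [Dop_apply, Dop_apply, Dop_apply, Dop_apply, map_sub, map_sub, map_smul, map_smul,
    smul_sub, smul_sub, h1', smul_comm a a']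
  abel

omit h in
/-- the primes `ℓ ∤ N p`, `ℓ ∉ S` -/
def Pidx (N p : ℕ) (S : Finset ℕ) (ℓ : ℕ) : Prop :=
  ℓ.Prime ∧ ¬ ℓ ∣ N * p ∧ ℓ ∉ (↑S : Set ℕ)

omit h in
/-- the index set: the primes `ℓ ∤ N p`, `ℓ ∉ S` -/
abbrev Idx (N p : ℕ) (S : Finset ℕ) : Type :=
  {ℓ : ℕ // Pidx N p S ℓ}

omit h in
/-- `T_ℓ` at the level `N` -/
noncomputable def IdxT (i : Idx N p S) : CuspForm.heckeAlgebra N 2 (↑S : Set ℕ) :=
  CuspForm.heckeAlgebra.T i.2.1 (not_dvd_of_mul i.2.2.1) i.2.2.2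

omit h in
/-- `T_ℓ` at the level `N p` -/
noncomputable def IdxT' (i : Idx N p S) : CuspForm.heckeAlgebra (N * p) 2 (↑S : Set ℕ) :=
  CuspForm.heckeAlgebra.T i.2.1 i.2.2.1 i.2.2.2

open Classical in
omit h in
/-- the eigenvalues modulo `𝔪` -/
noncomputable def aaθ (θ : CuspForm.heckeAlgebra N 2 (↑S : Set ℕ) →+* ResidueField 𝒪)
    (ℓ : ℕ) : ResidueField 𝒪 :=
  if hP : Pidx N p S ℓ then θ (IdxT (⟨ℓ, hP⟩ : Idx N p S)) else 0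

omit h in
theorem aaθ_eq (i : Idx N p S) : aaθ (p := p) θ i.1 = θ (IdxT i) := by
  unfold aaθ
  exact dif_pos i.2

theorem rest_IdxT' (i : Idx N p S) : rest (IdxT' i) = IdxT i := h.hrest _ _ _ _ _

theorem r1_Dop (i : Idx N p S) (a : 𝒪) (x : M.V) :
    h.opr1 (Dop M (IdxT i) a x) = Dop M' (IdxT' i) a (h.opr1 x) := by
  have e := h.r₁_η (IdxT' i) x
  have e2 : M.η (rest (IdxT' i)) x = M.η (IdxT i) x :=
    congrArg (fun t => M.η t x) (h.rest_IdxT' i)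
  have e3 : h.opr1 (M.η (IdxT i) x) = M'.η (IdxT' i) (h.opr1 x) :=
    (congrArg h.opr1 e2).symm.trans e
  calc h.opr1 (Dop M (IdxT i) a x)
      = h.opr1 (M.η (IdxT i) x) - a • h.opr1 x := by
        rw [Dop_apply, map_sub, map_smul]
    _ = M'.η (IdxT' i) (h.opr1 x) - a • h.opr1 x :=
        congrArg (fun z => z - a • h.opr1 x) e3
    _ = Dop M' (IdxT' i) a (h.opr1 x) := rfl

theorem r2_Dop (i : Idx N p S) (a : 𝒪) (x : M.V) :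
    h.opr2 (Dop M (IdxT i) a x) = Dop M' (IdxT' i) a (h.opr2 x) := by
  have e := h.r₂_η (IdxT' i) x
  have e2 : M.η (rest (IdxT' i)) x = M.η (IdxT i) x :=
    congrArg (fun t => M.η t x) (h.rest_IdxT' i)
  have e3 : h.opr2 (M.η (IdxT i) x) = M'.η (IdxT' i) (h.opr2 x) :=
    (congrArg h.opr2 e2).symm.trans e
  calc h.opr2 (Dop M (IdxT i) a x)
      = h.opr2 (M.η (IdxT i) x) - a • h.opr2 x := by
        rw [Dop_apply, map_sub, map_smul]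
    _ = M'.η (IdxT' i) (h.opr2 x) - a • h.opr2 x :=
        congrArg (fun z => z - a • h.opr2 x) e3
    _ = Dop M' (IdxT' i) a (h.opr2 x) := rfl

theorem ι_Dop (i : Idx N p S) (a : 𝒪) (x : M.V) :
    ι (Dop M (IdxT i) a x) =
      TB N 𝒪 i.2.1 (not_dvd_of_mul i.2.2.1) (ι x) - a • ι x := by
  rw [Dop_apply, map_sub, map_smul]
  exact congrArg (fun z => z - a • ι x) (h.hT i.1 i.2.1 (not_dvd_of_mul i.2.2.1) i.2.2.2 x)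

omit h in
/-- the diagonal operator on `V × V` -/
noncomputable def Uop (M : HMod 𝒪 N (↑S : Set ℕ) θ) (a : Idx N p S → 𝒪) (i : Idx N p S) :
    Module.End 𝒪 (M.V × M.V) :=
  LinearMap.prodMap (Dop M (IdxT i) (a i)) (Dop M (IdxT i) (a i))

omit h in
theorem Uop_apply (a : Idx N p S → 𝒪) (i : Idx N p S) (w : M.V × M.V) :
    Uop M a i w = (Dop M (IdxT i) (a i) w.1, Dop M (IdxT i) (a i) w.2) := rfl

/-- `(v₁, v₂) ↦ r₁ v₁ + r₂ v₂` -/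
noncomputable def Rop : M.V × M.V →ₗ[𝒪] M'.V := LinearMap.coprod h.opr1 h.opr2

theorem Rop_apply (w : M.V × M.V) : h.Rop w = h.opr1 w.1 + h.opr2 w.2 := rfl

/-- the kernel of `Rop` modulo `𝔪` -/
noncomputable def Kop : Submodule 𝒪 (M.V × M.V) :=
  (maximalIdeal 𝒪 • ⊤ : Submodule 𝒪 M'.V).comap h.Rop

theorem mem_Kop (w : M.V × M.V) :
    w ∈ h.Kop ↔ h.opr1 w.1 + h.opr2 w.2 ∈ (maximalIdeal 𝒪 • ⊤ : Submodule 𝒪 M'.V) := Iff.rfl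

theorem Kop_stable (a : Idx N p S → 𝒪) (i : Idx N p S) (w : M.V × M.V) (hw : w ∈ h.Kop) :
    Uop M a i w ∈ h.Kop := by
  rw [mem_Kop] at hw ⊢
  rw [Uop_apply]
  show h.opr1 (Dop M (IdxT i) (a i) w.1) + h.opr2 (Dop M (IdxT i) (a i) w.2) ∈ _
  rw [h.r1_Dop, h.r2_Dop, ← map_add]
  exact Submodule.smul_top_le_comap_smul_top _ (Dop M' (IdxT' i) (a i)) hw

omit h in
theorem Uop_comm (a : Idx N p S → 𝒪) (i j : Idx N p S) (w : M.V × M.V) :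
    Uop M a i (Uop M a j w) - Uop M a j (Uop M a i w) ∈
      (maximalIdeal 𝒪 • ⊤ : Submodule 𝒪 (M.V × M.V)) := by
  have : Uop M a i (Uop M a j w) = Uop M a j (Uop M a i w) := by
    rw [Uop_apply, Uop_apply, Uop_apply, Uop_apply]
    show (Dop M (IdxT i) (a i) (Dop M (IdxT j) (a j) w.1),
        Dop M (IdxT i) (a i) (Dop M (IdxT j) (a j) w.2)) =
      (Dop M (IdxT j) (a j) (Dop M (IdxT i) (a i) w.1),
        Dop M (IdxT j) (a j) (Dop M (IdxT i) (a i) w.2))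
    rw [Dop_comm M (IdxT i) (IdxT j) (a i) (a j) w.1,
      Dop_comm M (IdxT i) (IdxT j) (a i) (a j) w.2]
  rw [this, sub_self]
  exact Submodule.zero_mem _

omit h in
theorem Uop_nil (a : Idx N p S → 𝒪) (ha : ∀ i : Idx N p S, residue 𝒪 (a i) = θ (IdxT i))
    (i : Idx N p S) : ∃ m : ℕ, ∀ w, ((Uop M a i) ^ m) w ∈
      (maximalIdeal 𝒪 • ⊤ : Submodule 𝒪 (M.V × M.V)) := by
  obtain ⟨m, hm⟩ := M.η_local (IdxT i) (a i) (ha i)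
  refine ⟨m, fun w => ?_⟩
  have e : ((Uop M a i) ^ m) w =
      ((Dop M (IdxT i) (a i) ^ m) w.1, (Dop M (IdxT i) (a i) ^ m) w.2) :=
    prodMap_pow_apply _ m w
  rw [e]
  exact (prod_mem_smul_top_iff _ _ _).2 ⟨hm w.1, hm w.2⟩

omit h in
theorem twelve_tf : ∀ c : 𝒪, (12 : ℕ) • c = 0 → c = 0 := by
  intro c hc
  rw [nsmul_eq_mul] at hc
  rcases mul_eq_zero.1 hc with h0 | h0
  · exact absurd h0 (by exact_mod_cast (by norm_num : (12 : ℕ) ≠ 0))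
  · exact h0

/-- A common eigenvector modulo `𝔪` in `Kop` is zero modulo `𝔪`. -/
theorem eigen_zero (hp2 : p ≠ 2) (hp𝒪 : (p : 𝒪) ∈ maximalIdeal 𝒪) (hIH : Stmt_IHARA2k)
    (hcheb : ∀ M₀ : ℕ, 0 < M₀ → p ∣ M₀ →
      ∃ (ℓ : ℕ) (hℓ : ℓ.Prime) (hℓN : ¬ ℓ ∣ N) (hℓS : ℓ ∉ (↑S : Set ℕ)),
        ℓ % M₀ = 1 % M₀ ∧ (p : ZMod ℓ) ^ ((ℓ - 1) / p) ≠ 1 ∧
        θ (CuspForm.heckeAlgebra.T hℓ hℓN hℓS) ≠ 2)
    (a : Idx N p S → 𝒪) (ha : ∀ i : Idx N p S, residue 𝒪 (a i) = θ (IdxT i))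
    (w : M.V × M.V) (hwK : w ∈ h.Kop)
    (hwU : ∀ i, Uop M a i w ∈ (maximalIdeal 𝒪 • ⊤ : Submodule 𝒪 (M.V × M.V))) :
    w ∈ (maximalIdeal 𝒪 • ⊤ : Submodule 𝒪 (M.V × M.V)) := by
  classical
  have hc₁ : IsCuspidalHom (Gamma0 N) (redk 𝒪 (ι w.1)) :=
    isCuspidal_redk (isCuspidal_of_parabolic twelve_tf (h.mem w.1).1)
  have hc₂ : IsCuspidalHom (Gamma0 N) (redk 𝒪 (ι w.2)) :=
    isCuspidal_redk (isCuspidal_of_parabolic twelve_tf (h.mem w.2).1)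
  have hchar : CharP (ResidueField 𝒪) p := charP_residue h.hp hp𝒪
  have hfact : Fact p.Prime := ⟨h.hp⟩
  have hP1 : ∀ ℓ, Pidx N p S ℓ → ℓ.Prime ∧ ¬ ℓ ∣ N * p ∧ ℓ ≠ p := fun ℓ hℓ =>
    ⟨hℓ.1, hℓ.2.1, fun e => hℓ.2.1 (by rw [e]; exact dvd_mul_left p N)⟩
  have hP2 : ∀ M₀ : ℕ, 0 < M₀ → p ∣ M₀ → ∃ ℓ, Pidx N p S ℓ ∧ ℓ % M₀ = 1 % M₀ ∧
      (p : ZMod ℓ) ^ ((ℓ - 1) / p) ≠ 1 ∧ aaθ (p := p) θ ℓ ≠ 2 := by
    intro M₀ hM₀ hpM₀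
    obtain ⟨ℓ, hℓ, hℓN, hℓS, h1, h2, h3⟩ := hcheb M₀ hM₀ hpM₀
    have hne : ℓ ≠ p := fun e => hℓS (e ▸ h.hpS)
    have hPℓ : Pidx N p S ℓ := ⟨hℓ, not_dvd_mul hℓ h.hp hℓN hne, hℓS⟩
    refine ⟨ℓ, hPℓ, h1, h2, ?_⟩
    have e := aaθ_eq (θ := θ) (⟨ℓ, hPℓ⟩ : Idx N p S)
    intro hcon
    exact h3 (e.symm.trans hcon)
  have heig : ∀ (ℓ : ℕ) (hℓ : ℓ.Prime) (hℓN : ¬ ℓ ∣ N), Pidx N p S ℓ →
      TB N (ResidueField 𝒪) hℓ hℓN (redk 𝒪 (ι w.1)) = aaθ (p := p) θ ℓ • redk 𝒪 (ι w.1) := by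
    intro ℓ hℓ hℓN hPℓ
    have h0 : (Dop M (IdxT (⟨ℓ, hPℓ⟩ : Idx N p S)) (a ⟨ℓ, hPℓ⟩) w.1,
        Dop M (IdxT (⟨ℓ, hPℓ⟩ : Idx N p S)) (a ⟨ℓ, hPℓ⟩) w.2) ∈
        (maximalIdeal 𝒪 • ⊤ : Submodule 𝒪 (M.V × M.V)) := hwU ⟨ℓ, hPℓ⟩
    have h1 := ((prod_mem_smul_top_iff _ _ _).1 h0).1
    have h2 := (via_val_iff h.hinj h.hrange _).2 h1
    have h3 : ι (Dop M (IdxT (⟨ℓ, hPℓ⟩ : Idx N p S)) (a ⟨ℓ, hPℓ⟩) w.1) =
        TB N 𝒪 hℓ hℓN (ι w.1) - a ⟨ℓ, hPℓ⟩ • ι w.1 := h.ι_Dop ⟨ℓ, hPℓ⟩ (a ⟨ℓ, hPℓ⟩) w.1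
    rw [h3] at h2
    have h4 : TB N (ResidueField 𝒪) hℓ hℓN (redk 𝒪 (ι w.1)) =
        redk 𝒪 (TB N 𝒪 hℓ hℓN (ι w.1)) :=
      H48.TB_nat (residue 𝒪).toAddMonoidHom hℓ hℓN (ι w.1)
    rw [h4, aaθ_eq (θ := θ) (⟨ℓ, hPℓ⟩ : Idx N p S)]
    refine AddMonoidHom.ext fun γ => ?_
    have h5 := (residue_eq_zero_iff _).2 (h2 γ)
    rw [AddMonoidHom.sub_apply, map_sub, sub_eq_zero] at h5
    rw [redk_apply, h5]
    show residue 𝒪 (a ⟨ℓ, hPℓ⟩ * ι w.1 γ) =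
      θ (IdxT (⟨ℓ, hPℓ⟩ : Idx N p S)) * residue 𝒪 (ι w.1 γ)
    rw [map_mul, ha]
  have hres : res1 N p (ResidueField 𝒪) (redk 𝒪 (ι w.1)) +
      res2 N p (ResidueField 𝒪) (redk 𝒪 (ι w.2)) = 0 := by
    have h1 := (h.mem_Kop w).1 hwK
    have h2 := (via_val_iff h.hinj' h.hrange' _).2 h1
    rw [map_add, opr1_spec, opr2_spec] at h2
    refine AddMonoidHom.ext fun γ => ?_
    have h5 := (residue_eq_zero_iff _).2 (h2 γ)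
    rw [AddMonoidHom.add_apply, map_add] at h5
    exact h5
  obtain ⟨e₁, e₂⟩ := @hIH (ResidueField 𝒪) _ p hfact hchar hp2 N p
    (Nat.pos_of_ne_zero (NeZero.ne N)) h.hp h.hpN (Pidx N p S) (aaθ (p := p) θ) hP1 hP2 _ _ hc₁ hc₂
    heig hres
  have f₁ := (via_val_iff h.hinj h.hrange _).1 ((redk_eq_zero_iff _).1 e₁)
  have f₂ := (via_val_iff h.hinj h.hrange _).1 ((redk_eq_zero_iff _).1 e₂)
  exact (prod_mem_smul_top_iff _ w.1 w.2).2 ⟨f₁, f₂⟩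

theorem ihara (hp2 : p ≠ 2) (hp𝒪 : (p : 𝒪) ∈ maximalIdeal 𝒪) (hIH : Stmt_IHARA2k)
    (hcheb : ∀ M₀ : ℕ, 0 < M₀ → p ∣ M₀ →
      ∃ (ℓ : ℕ) (hℓ : ℓ.Prime) (hℓN : ¬ ℓ ∣ N) (hℓS : ℓ ∉ (↑S : Set ℕ)),
        ℓ % M₀ = 1 % M₀ ∧ (p : ZMod ℓ) ^ ((ℓ - 1) / p) ≠ 1 ∧
        θ (CuspForm.heckeAlgebra.T hℓ hℓN hℓS) ≠ 2)
    (v₁ v₂ : M.V)
    (hv : h.opr1 v₁ + h.opr2 v₂ ∈ (maximalIdeal 𝒪 • ⊤ : Submodule 𝒪 M'.V)) :
    v₁ ∈ (maximalIdeal 𝒪 • ⊤ : Submodule 𝒪 M.V) ∧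
      v₂ ∈ (maximalIdeal 𝒪 • ⊤ : Submodule 𝒪 M.V) := by
  classical
  choose a ha using fun i : Idx N p S => residue_surjective (θ (IdxT i))
  have hKle : h.Kop ≤ (maximalIdeal 𝒪 • ⊤ : Submodule 𝒪 (M.V × M.V)) := by
    by_contra hne
    obtain ⟨w, hwK, hwn, hwU⟩ := H53.exists_common_eigen_mod (Uop M a) (Uop_comm a)
      (Uop_nil a ha) h.Kop (h.Kop_stable a) hne
    exact hwn (h.eigen_zero hp2 hp𝒪 hIH hcheb a ha w hwK hwU)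
  have hmem : ((v₁, v₂) : M.V × M.V) ∈ h.Kop := (h.mem_Kop _).2 hv
  exact (prod_mem_smul_top_iff _ _ _).1 (hKle hmem)

end Setup

end Core

/-- **P-DEG2, the wiring.** -/
theorem stmt_PDEG2WIRE : H53.Stmt_PDEG2WIRE := by
  intro hREL hRELT hIH hCHEB hDUAL hORD
  intro 𝒪 _ _ _ _ _ _ p _ hp2 hp𝒪 ρbar Smin hRes hcond hordi N₀ Sig s hG hFrob ι hι hpN _ _
    rest hrest M' ι' hι'
  have hp : p.Prime := Fact.out
  have hpS : p ∈ (↑s.S : Set ℕ) := by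
    rw [hG.hS]
    exact Finset.mem_coe.2 (Finset.mem_union_left _ hRes.hpSmin)
  have hNS : ∀ r : ℕ, r.Prime → r ∣ s.N → r ∈ (↑s.S : Set ℕ) := by
    intro r hr hrN
    rw [hG.hN] at hrN
    rw [hG.hS, Finset.mem_coe, Finset.mem_union]
    rcases (Nat.Prime.dvd_mul hr).1 hrN with h1 | h1
    · exact Or.inl (hG.hN₀S r hr h1)
    · right
      obtain ⟨r', hr', hd⟩ := (Prime.dvd_finsetProd_iff hr.prime _).1 h1
      have h2 := hr.dvd_of_dvd_pow hd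
      rw [(Nat.prime_dvd_prime_iff_eq hr (hG.hSig r' hr').1).1 h2]
      exact hr'
  have hS : Setup Sig s.M M' ι ι' :=
    { hinj := hι.1
      hrange := hι.2.1
      hT := hι.2.2
      hinj' := hι'.1
      hrange' := hι'.2.1
      hT' := hι'.2.2
      hp := hp
      hpN := hpN
      hpS := hpS
      hSig := fun r hr => ⟨(hG.hSig r hr).1, (hG.hSig r hr).2.1⟩
      hNS := hNS
      hrest := hrest
      hREL := hREL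
      hRELT := hRELT }
  refine ⟨{ p_mem := hp𝒪
            Tp := hS.opTp
            Tp_η := hS.Tp_η
            Tp_unit := hS.Tp_unit (fun φ hφ => hORD 𝒪 p hp2 hp𝒪 ρbar Smin hRes hcond hordi N₀
              Sig s.N s.S hG s.θ hFrob hp hpN φ hφ)
            U := hS.opU
            U_η' := hS.U_η'
            r₁ := hS.opr1
            r₂ := hS.opr2
            c₁ := hS.opc1
            c₂ := hS.opc2
            r₁_η := hS.r₁_η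
            r₂_η := hS.r₂_η
            c₁_η := hS.c₁_η
            c₂_η := hS.c₂_η
            R1a := hS.R1a
            R1b := hS.R1b
            R2a := hS.R2a
            R2b := hS.R2b
            R3a := hS.R3a
            R3b := hS.R3b
            R3c := hS.R3c
            R3d := hS.R3d
            ihara := hS.ihara hp2 hp𝒪 hIH (fun M₀ hM₀ hpM₀ => by
              obtain ⟨ℓ, hℓ, hℓN, hℓS, -, h1, h2, h3⟩ :=
                hCHEB 𝒪 p hp2 hp𝒪 ρbar Smin hRes s.N s.S s.θ hFrob M₀ hM₀ hpM₀ ∅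
              exact ⟨ℓ, hℓ, hℓN, hℓS, h1, h2, h3⟩)
            dual := hS.dual (hDUAL 𝒪 p hp2 hp𝒪 ρbar Smin hRes N₀ Sig s.N s.S hG hpN s.θ hFrob
              rest hrest) }, ?_, ?_⟩
  · intro hp' hpN' v
    exact hS.opTp_spec v
  · intro hd w
    exact hS.opU_spec w

end Fermat.Agent.S59.CaseC.Geom.H13
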