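/-
S59, case C, package PGEOM, leaf P-ALG (helper34), part 1: pure algebra over a complete discrete
valuation ring `𝒪` (no hypothesis on the residue field).

* `exists_unit_root_mod`: for an invertible endomorphism `T` of a finite free `𝒪`-module and
  `p ∈ 𝔪`, the unit root `Uu` of `X² - T X + p` (Hensel in the double centralizer of `T`, a
  commutative finite `𝒪`-algebra, hence complete), which commutes with everything commuting
  with `T`;
* `exists_fitting_mod`: the Fitting decomposition of an endomorphism `U` of a finite free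
  `𝒪`-module: an idempotent `E` commuting with `U` with `E M ⊆ ⋂ Uᵏ M` and
  `U^{nk} (1 - E) M ⊆ 𝔪ᵏ M` (stabilisation of the powers of `U` modulo `𝔪` from an integral
  equation, lifting of the idempotent by Hensel).
-/
import Mathlib
import Fermat.Prelude.Thm_IsAdicComplete_of_module_finite

set_option autoImplicit false
set_option linter.style.haveILetI false
set_option linter.unusedSectionVars false
set_option linter.unusedSimpArgs false

namespace Fermat.Agent.S59.CaseC.Geom.H34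

open IsLocalRing Polynomial

/-- Pure commutative algebra: from `x ^ a = x ^ (a + 1) * b`, an idempotent. -/
theorem idem_of_stab {R : Type*} [CommRing R] (x b : R) (a : ℕ) (h : x ^ a = x ^ (a + 1) * b) :
    (x ^ a * b ^ a) * (x ^ a * b ^ a) = x ^ a * b ^ a ∧ x ^ a * (1 - x ^ a * b ^ a) = 0 ∧
    x ^ a * b ^ a = x * (x ^ a * b ^ (a + 1)) := by
  have h1 : ∀ k : ℕ, x ^ a = x ^ (a + k) * b ^ k := by
    intro k
    induction k with
    | zero => simp
    | succ k ih =>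
      calc x ^ a = x ^ (a + k) * b ^ k := ih
        _ = x ^ k * b ^ k * x ^ a := by ring
        _ = x ^ k * b ^ k * (x ^ (a + 1) * b) := by rw [← h]
        _ = x ^ (a + (k + 1)) * b ^ (k + 1) := by ring
  have h2 := h1 a
  refine ⟨?_, ?_, ?_⟩
  · calc x ^ a * b ^ a * (x ^ a * b ^ a) = (x ^ (a + a) * b ^ a) * b ^ a := by ring
      _ = x ^ a * b ^ a := by rw [← h2]
  · calc x ^ a * (1 - x ^ a * b ^ a) = x ^ a - x ^ (a + a) * b ^ a := by ring
      _ = 0 := by rw [← h2, sub_self]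
  · calc x ^ a * b ^ a = (x ^ (a + 1) * b) * b ^ a := by rw [← h]
      _ = _ := by ring

section CommB

variable {𝒪 : Type} [CommRing 𝒪] [IsDomain 𝒪] [IsDiscreteValuationRing 𝒪]
  [IsAdicComplete (maximalIdeal 𝒪) 𝒪]
variable (B : Type) [CommRing B] [Algebra 𝒪 B]

/-- The ideal `𝔪 B`. -/
abbrev JB : Ideal B := (maximalIdeal 𝒪).map (algebraMap 𝒪 B)

omit [IsAdicComplete (maximalIdeal 𝒪) 𝒪] in
theorem mem_JB_iff {B : Type} [CommRing B] [Algebra 𝒪 B] {ϖ : 𝒪}
    (hϖ : maximalIdeal 𝒪 = Ideal.span {ϖ}) (x : B) :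
    x ∈ JB (𝒪 := 𝒪) B ↔ ∃ y : B, x = ϖ • y := by
  unfold JB
  rw [hϖ, Ideal.map_span, Set.image_singleton, Ideal.mem_span_singleton']
  constructor
  · rintro ⟨y, rfl⟩
    exact ⟨y, by rw [Algebra.smul_def, mul_comm]⟩
  · rintro ⟨y, rfl⟩
    exact ⟨y, by rw [Algebra.smul_def, mul_comm]⟩

variable [Module.Finite 𝒪 B]

theorem isAdicComplete_JB : IsAdicComplete (JB (𝒪 := 𝒪) B) B :=
  (IsAdicComplete.map_algebraMap_iff (maximalIdeal 𝒪) B).2
    (IsAdicComplete.of_module_finite (maximalIdeal 𝒪) B)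

theorem henselian_JB : HenselianRing B (JB (𝒪 := 𝒪) B) :=
  haveI := isAdicComplete_JB (𝒪 := 𝒪) B
  inferInstance

variable {B}

/-- An element congruent to a unit modulo `𝔪 B` is a unit. -/
theorem isUnit_of_sub_mem_JB {u t : B} (ht : IsUnit t) (h : u - t ∈ JB (𝒪 := 𝒪) B) : IsUnit u := by
  haveI := henselian_JB (𝒪 := 𝒪) B
  haveI := isLocalHom_of_le_jacobson_bot (JB (𝒪 := 𝒪) B) HenselianRing.jac
  apply isUnit_of_map_unit (Ideal.Quotient.mk (JB (𝒪 := 𝒪) B))
  have : Ideal.Quotient.mk (JB (𝒪 := 𝒪) B) u = Ideal.Quotient.mk (JB (𝒪 := 𝒪) B) t :=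
    Ideal.Quotient.eq.2 h
  rw [this]
  exact ht.map _


/-- The unit root of `X² - t X + p`. -/
theorem exists_unit_root (t : B) (ht : IsUnit t) (p : 𝒪) (hp : p ∈ maximalIdeal 𝒪) :
    ∃ u : B, IsUnit u ∧ u * u - t * u + algebraMap 𝒪 B p = 0 := by
  haveI := henselian_JB (𝒪 := 𝒪) B
  have hpJ : algebraMap 𝒪 B p ∈ JB (𝒪 := 𝒪) B := Ideal.mem_map_of_mem _ hp
  let f : B[X] := X ^ 2 - C t * X + C (algebraMap 𝒪 B p)
  have hf : f.Monic := by
    have h1 : (X ^ 2 - C t * X + C (algebraMap 𝒪 B p) : B[X]) =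
        X ^ 2 + (C (-t) * X + C (algebraMap 𝒪 B p)) := by
      rw [C_neg]; ring
    show (X ^ 2 - C t * X + C (algebraMap 𝒪 B p) : B[X]).Monic
    rw [h1]
    refine Polynomial.monic_X_pow_add ?_
    refine lt_of_le_of_lt (Polynomial.degree_linear_le) ?_
    norm_num
  have h1 : f.eval t ∈ JB (𝒪 := 𝒪) B := by
    have : f.eval t = algebraMap 𝒪 B p := by
      simp only [f, eval_add, eval_sub, eval_pow, eval_X, eval_mul, eval_C]
      ring
    rw [this]
    exact hpJ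
  have h2 : IsUnit (Ideal.Quotient.mk (JB (𝒪 := 𝒪) B) (f.derivative.eval t)) := by
    have : f.derivative.eval t = t := by
      simp only [f, derivative_add, derivative_sub, derivative_X_pow, derivative_mul,
        derivative_C, derivative_X, eval_add, eval_sub, eval_pow, eval_X, eval_mul, eval_C,
        zero_mul, zero_add, mul_one, eval_zero, add_zero, Nat.cast_ofNat]
      simp
      ring
    rw [this]
    exact ht.map _
  obtain ⟨u, hu, hut⟩ := HenselianRing.is_henselian f hf t h1 h2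
  refine ⟨u, isUnit_of_sub_mem_JB ht hut, ?_⟩
  have := hu
  simp only [f, IsRoot.def, eval_add, eval_sub, eval_pow, eval_X, eval_mul, eval_C] at this
  rw [← this]
  ring

/-- Stabilisation of the powers of `r` modulo `𝔪 B`. -/
theorem exists_stab (r : B) : ∃ (a : ℕ) (b : B), r ^ a - r ^ (a + 1) * b ∈ JB (𝒪 := 𝒪) B := by
  obtain ⟨χ, hχ, hχr⟩ : IsIntegral 𝒪 r := IsIntegral.of_finite 𝒪 r
  let J : Ideal B := JB (𝒪 := 𝒪) B
  let f₀ : ResidueField 𝒪 →+* B ⧸ J :=
    Ideal.Quotient.lift (maximalIdeal 𝒪) ((Ideal.Quotient.mk J).comp (algebraMap 𝒪 B))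
      (fun a ha => Ideal.Quotient.eq_zero_iff_mem.2 (Ideal.mem_map_of_mem _ ha))
  have hf₀ : f₀.comp (residue 𝒪) = (Ideal.Quotient.mk J).comp (algebraMap 𝒪 B) := by
    ext x
    rfl
  set x : B ⧸ J := Ideal.Quotient.mk J r with hx
  have h0 : (χ.map (residue 𝒪)).eval₂ f₀ x = 0 := by
    rw [Polynomial.eval₂_map, hf₀, hx, ← Polynomial.hom_eval₂, hχr, map_zero]
  have hne : χ.map (residue 𝒪) ≠ 0 := (hχ.map _).ne_zero
  obtain ⟨g, hg, hnd⟩ := exists_eq_pow_rootMultiplicity_mul_and_not_dvd (χ.map (residue 𝒪)) hne 0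
  set a := rootMultiplicity 0 (χ.map (residue 𝒪)) with ha
  rw [C_0, sub_zero] at hg hnd
  have hc : g.coeff 0 ≠ 0 := fun h => hnd (Polynomial.X_dvd_iff.2 h)
  have hg2 : g = divX g * X + C (g.coeff 0) := (Polynomial.divX_mul_X_add g).symm
  rw [hg, eval₂_mul, eval₂_pow, eval₂_X, hg2, eval₂_add, eval₂_mul, eval₂_X, eval₂_C] at h0
  set h := (divX g).eval₂ f₀ x with hh
  have hcc : f₀ (g.coeff 0) * f₀ (g.coeff 0)⁻¹ = 1 := by
    rw [← map_mul, mul_inv_cancel₀ hc, map_one]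
  have key : x ^ a = x ^ (a + 1) * (-(h * f₀ (g.coeff 0)⁻¹)) := by
    have e1 : x ^ a * f₀ (g.coeff 0) = -(x ^ (a + 1) * h) := by
      linear_combination h0
    calc x ^ a = x ^ a * f₀ (g.coeff 0) * f₀ (g.coeff 0)⁻¹ := by
          rw [mul_assoc, hcc, mul_one]
      _ = _ := by rw [e1]; ring
  obtain ⟨b, hb⟩ := Ideal.Quotient.mk_surjective (-(h * f₀ (g.coeff 0)⁻¹))
  refine ⟨a, b, ?_⟩
  rw [← Ideal.Quotient.eq_zero_iff_mem, map_sub, map_mul, map_pow, map_pow, hb, ← hx, ← key,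
    sub_self]

/-- The Fitting idempotent of `r`. -/
theorem exists_fitting_idem (r : B) : ∃ (e w : B) (n : ℕ), e * e = e ∧ e * r * w = e ∧
    r ^ n * (1 - e) ∈ JB (𝒪 := 𝒪) B := by
  haveI := henselian_JB (𝒪 := 𝒪) B
  obtain ⟨a, b, hab⟩ := exists_stab (𝒪 := 𝒪) r
  let J : Ideal B := JB (𝒪 := 𝒪) B
  have hab' : (Ideal.Quotient.mk J r) ^ a =
      (Ideal.Quotient.mk J r) ^ (a + 1) * Ideal.Quotient.mk J b := by
    have := Ideal.Quotient.eq_zero_iff_mem.2 hab
    rw [map_sub, map_mul, map_pow, map_pow, sub_eq_zero] at this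
    exact this
  obtain ⟨i1, i2, i3⟩ := idem_of_stab _ _ a hab'
  set e₀ : B := r ^ a * b ^ a with he₀
  set w₀ : B := r ^ a * b ^ (a + 1) with hw₀
  have j1 : e₀ * e₀ - e₀ ∈ J := by
    rw [← Ideal.Quotient.eq_zero_iff_mem, map_sub, map_mul, he₀, map_mul, map_pow, map_pow, i1,
      sub_self]
  have j2 : r ^ a * (1 - e₀) ∈ J := by
    rw [← Ideal.Quotient.eq_zero_iff_mem, map_mul, map_sub, map_one, he₀, map_mul, map_pow,
      map_pow, i2]
  have j3 : e₀ - r * w₀ ∈ J := by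
    rw [← Ideal.Quotient.eq_zero_iff_mem, map_sub, he₀, hw₀, map_mul, map_mul, map_mul, map_pow,
      map_pow, map_pow, ← i3, sub_self]
  let f : B[X] := X ^ 2 - X
  have hf : f.Monic := by
    show (X ^ 2 - X : B[X]).Monic
    exact Polynomial.monic_X_pow_sub (lt_of_le_of_lt degree_X_le (by norm_num))
  have h1 : f.eval e₀ ∈ J := by
    have : f.eval e₀ = e₀ * e₀ - e₀ := by
      simp only [f, eval_sub, eval_pow, eval_X]
      ring
    rw [this]
    exact j1
  have h2 : IsUnit (Ideal.Quotient.mk J (f.derivative.eval e₀)) := by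
    have : f.derivative.eval e₀ = 2 * e₀ - 1 := by
      simp only [f, derivative_sub, derivative_X_pow, derivative_X, eval_sub, eval_mul, eval_pow,
        eval_X, eval_C, eval_one, Nat.cast_ofNat]
      simp
    rw [this]
    refine IsUnit.of_mul_eq_one (Ideal.Quotient.mk J (2 * e₀ - 1)) ?_
    rw [← map_mul, ← map_one (Ideal.Quotient.mk J), Ideal.Quotient.eq]
    have : (2 * e₀ - 1) * (2 * e₀ - 1) - 1 = 4 * (e₀ * e₀ - e₀) := by ring
    rw [this]
    exact J.mul_mem_left _ j1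
  obtain ⟨e, he, hee⟩ := HenselianRing.is_henselian f hf e₀ h1 h2
  have hee2 : e * e = e := by
    have := he
    simp only [f, IsRoot.def, eval_sub, eval_pow, eval_X] at this
    linear_combination this
  have hj : e - r * w₀ ∈ J := by
    have : e - r * w₀ = (e - e₀) + (e₀ - r * w₀) := by ring
    rw [this]
    exact J.add_mem hee j3
  have hu : IsUnit (1 - (e - r * w₀)) := by
    refine isUnit_of_sub_mem_JB (𝒪 := 𝒪) isUnit_one ?_
    have : 1 - (e - r * w₀) - 1 = -(e - r * w₀) := by ring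
    rw [this]
    exact J.neg_mem hj
  obtain ⟨v, hv⟩ := hu.exists_right_inv
  refine ⟨e, w₀ * v, a, hee2, ?_, ?_⟩
  · calc e * r * (w₀ * v) = e * (r * w₀) * v := by ring
      _ = (e * e - e * (e - r * w₀)) * v := by ring
      _ = e * ((1 - (e - r * w₀)) * v) := by rw [hee2]; ring
      _ = e := by rw [hv, mul_one]
  · have : r ^ a * (1 - e) = r ^ a * (1 - e₀) - r ^ a * (e - e₀) := by ring
    rw [this]
    exact J.sub_mem j2 (J.mul_mem_left _ hee)

/-- The Fitting idempotent of `r`, with the powers. -/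
theorem exists_fitting_idem_pow {ϖ : 𝒪} (hϖ : maximalIdeal 𝒪 = Ideal.span {ϖ}) (r : B) :
    ∃ (e w : B) (n : ℕ), e * e = e ∧ (∀ k : ℕ, e = r ^ k * w ^ k * e) ∧
      ∀ k : ℕ, ∃ y : B, r ^ (n * k) * (1 - e) = ϖ ^ k • y := by
  obtain ⟨e, w, n, h1, h2, h3⟩ := exists_fitting_idem (𝒪 := 𝒪) r
  obtain ⟨y₁, hy₁⟩ := (mem_JB_iff hϖ _).1 h3
  refine ⟨e, w, n, h1, ?_, ?_⟩
  · intro k
    induction k with
    | zero => simp
    | succ k ih =>
      calc e = r ^ k * w ^ k * e := ih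
        _ = r ^ k * w ^ k * (e * r * w) := by rw [h2]
        _ = r ^ (k + 1) * w ^ (k + 1) * e := by ring
  · intro k
    induction k with
    | zero => exact ⟨1 - e, by simp⟩
    | succ k ih =>
      obtain ⟨y, hy⟩ := ih
      refine ⟨y * y₁, ?_⟩
      have hsq : (1 - e) * (1 - e) = 1 - e := by linear_combination h1
      calc r ^ (n * (k + 1)) * (1 - e)
          = r ^ (n * k) * r ^ n * ((1 - e) * (1 - e)) := by rw [hsq, mul_add, mul_one, pow_add]
        _ = (r ^ (n * k) * (1 - e)) * (r ^ n * (1 - e)) := by ring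
        _ = ϖ ^ (k + 1) • (y * y₁) := by
          rw [hy, hy₁, Algebra.smul_def, Algebra.smul_def, Algebra.smul_def, map_pow, map_pow]
          ring

end CommB


section RingA

variable {𝒪 : Type} [CommRing 𝒪] [IsDomain 𝒪] [IsDiscreteValuationRing 𝒪]
  [IsAdicComplete (maximalIdeal 𝒪) 𝒪]
variable {A : Type} [Ring A] [Algebra 𝒪 A] [Module.Finite 𝒪 A]

/-- The double centralizer of `t`. -/
def dcent (t : A) : Subalgebra 𝒪 A :=
  Subalgebra.centralizer 𝒪 (Subalgebra.centralizer 𝒪 {t} : Set A)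

theorem mem_dcent_iff (t x : A) :
    x ∈ dcent (𝒪 := 𝒪) t ↔ ∀ X : A, Commute X t → Commute X x := by
  unfold dcent
  rw [Subalgebra.mem_centralizer_iff]
  constructor
  · intro h X hX
    refine h X ?_
    rw [SetLike.mem_coe, Subalgebra.mem_centralizer_iff]
    intro g hg
    rw [Set.mem_singleton_iff] at hg
    subst hg
    exact hX.symm.eq
  · intro h X hX
    rw [SetLike.mem_coe, Subalgebra.mem_centralizer_iff] at hX
    exact (h X (hX t rfl).symm).eq

theorem self_mem_dcent (t : A) : t ∈ dcent (𝒪 := 𝒪) t :=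
  (mem_dcent_iff t t).2 fun _ h => h

theorem commute_of_mem_dcent {t a b : A} (ha : a ∈ dcent (𝒪 := 𝒪) t)
    (hb : b ∈ dcent (𝒪 := 𝒪) t) : Commute a b := by
  have h1 : Commute a t := ((mem_dcent_iff t a).1 ha t (Commute.refl t)).symm
  exact (mem_dcent_iff t b).1 hb a h1

/-- The double centralizer is commutative. -/
@[reducible] noncomputable def dcentCommRing (t : A) : CommRing (dcent (𝒪 := 𝒪) t) :=
  { (inferInstance : Ring (dcent (𝒪 := 𝒪) t)) with
    mul_comm := fun a b => Subtype.ext (commute_of_mem_dcent a.2 b.2).eq }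

theorem mem_smul_top_of_mem_JB (t : A) (x : dcent (𝒪 := 𝒪) t)
    (hx : letI := dcentCommRing (𝒪 := 𝒪) t; x ∈ JB (𝒪 := 𝒪) (dcent (𝒪 := 𝒪) t)) :
    (x : A) ∈ (maximalIdeal 𝒪 • ⊤ : Submodule 𝒪 A) := by
  letI := dcentCommRing (𝒪 := 𝒪) t
  obtain ⟨ϖ, hirr⟩ := IsDiscreteValuationRing.exists_irreducible 𝒪
  have hϖ : maximalIdeal 𝒪 = Ideal.span {ϖ} :=
    (IsDiscreteValuationRing.irreducible_iff_uniformizer ϖ).mp hirr
  obtain ⟨y, rfl⟩ := (mem_JB_iff hϖ x).1 hx
  have : ((ϖ • y : dcent (𝒪 := 𝒪) t) : A) = ϖ • (y : A) := rfl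
  rw [this]
  refine Submodule.smul_mem_smul ?_ Submodule.mem_top
  rw [hϖ]
  exact Ideal.subset_span rfl

/-- The unit root of `X² - t X + p` in a finite `𝒪`-algebra. -/
theorem exists_unit_root_ring (t : A) (ht : IsUnit t) (p : 𝒪) (hp : p ∈ maximalIdeal 𝒪) :
    ∃ u u' : A, u * u' = 1 ∧ u' * u = 1 ∧ u * u - t * u + p • (1 : A) = 0 ∧
      (∀ X : A, Commute X t → Commute X u) ∧ (∀ X : A, Commute X t → Commute X u') := by
  letI := dcentCommRing (𝒪 := 𝒪) t
  haveI : Module.Finite 𝒪 (dcent (𝒪 := 𝒪) t) :=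
    Module.Finite.of_injective (dcent (𝒪 := 𝒪) t).val.toLinearMap Subtype.val_injective
  obtain ⟨t', h1, h2⟩ := isUnit_iff_exists.1 ht
  have ht'mem : t' ∈ dcent (𝒪 := 𝒪) t := by
    rw [mem_dcent_iff]
    intro X hX
    show X * t' = t' * X
    calc X * t' = (t' * t) * X * t' := by rw [h2, one_mul]
      _ = t' * (t * X) * t' := by simp only [mul_assoc]
      _ = t' * (X * t) * t' := by rw [hX.eq]
      _ = t' * X * (t * t') := by simp only [mul_assoc]
      _ = t' * X := by rw [h1, mul_one]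
  have htS : IsUnit (⟨t, self_mem_dcent t⟩ : dcent (𝒪 := 𝒪) t) :=
    isUnit_iff_exists.2 ⟨⟨t', ht'mem⟩, Subtype.ext h1, Subtype.ext h2⟩
  obtain ⟨u, hu, hroot⟩ := exists_unit_root (𝒪 := 𝒪) _ htS p hp
  obtain ⟨u', hu1, hu2⟩ := isUnit_iff_exists.1 hu
  refine ⟨u, u', congrArg Subtype.val hu1, congrArg Subtype.val hu2, ?_,
    (mem_dcent_iff t _).1 u.2, (mem_dcent_iff t _).1 u'.2⟩
  have := congrArg Subtype.val hroot
  rw [Algebra.smul_def, mul_one]
  exact this

/-- The Fitting idempotent in a finite `𝒪`-algebra. -/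
theorem exists_fitting_idem_ring {ϖ : 𝒪} (hϖ : maximalIdeal 𝒪 = Ideal.span {ϖ}) (r : A) :
    ∃ (e w : A) (n : ℕ), e * e = e ∧ Commute e r ∧ (∀ k : ℕ, e = r ^ k * w ^ k * e) ∧
      ∀ k : ℕ, ∃ y : A, r ^ (n * k) * (1 - e) = ϖ ^ k • y := by
  letI := dcentCommRing (𝒪 := 𝒪) r
  haveI : Module.Finite 𝒪 (dcent (𝒪 := 𝒪) r) :=
    Module.Finite.of_injective (dcent (𝒪 := 𝒪) r).val.toLinearMap Subtype.val_injective
  obtain ⟨e, w, n, h1, h2, h3⟩ :=
    exists_fitting_idem_pow hϖ (⟨r, self_mem_dcent r⟩ : dcent (𝒪 := 𝒪) r)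
  refine ⟨e, w, n, congrArg Subtype.val h1, commute_of_mem_dcent e.2 (self_mem_dcent r), ?_, ?_⟩
  · intro k
    exact congrArg Subtype.val (h2 k)
  · intro k
    obtain ⟨y, hy⟩ := h3 k
    exact ⟨y, congrArg Subtype.val hy⟩

end RingA

section Mod

variable {𝒪 : Type} [CommRing 𝒪] [IsDomain 𝒪] [IsDiscreteValuationRing 𝒪]
  [IsAdicComplete (maximalIdeal 𝒪) 𝒪]
variable {M : Type} [AddCommGroup M] [Module 𝒪 M] [Module.Finite 𝒪 M] [Module.Free 𝒪 M]

omit [IsAdicComplete (maximalIdeal 𝒪) 𝒪] [Module.Finite 𝒪 M] [Module.Free 𝒪 M] in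
/-- A linear map preserves `I M`. -/
theorem map_mem_smul_top {N : Type} [AddCommGroup N] [Module 𝒪 N] (f : M →ₗ[𝒪] N) (I : Ideal 𝒪)
    {x : M} (hx : x ∈ (I • ⊤ : Submodule 𝒪 M)) : f x ∈ (I • ⊤ : Submodule 𝒪 N) := by
  refine Submodule.smul_induction_on hx (fun r hr n _ => ?_) (fun x y hx hy => ?_)
  · rw [map_smul]
    exact Submodule.smul_mem_smul hr Submodule.mem_top
  · rw [map_add]
    exact add_mem hx hy

omit [IsAdicComplete (maximalIdeal 𝒪) 𝒪] [Module.Free 𝒪 M] in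
/-- Krull's intersection theorem. -/
theorem eq_zero_of_forall_mem_pow {x : M}
    (h : ∀ k : ℕ, x ∈ (maximalIdeal 𝒪 ^ k • ⊤ : Submodule 𝒪 M)) : x = 0 := by
  have hk := Ideal.iInf_pow_smul_eq_bot_of_isLocalRing (M := M) (maximalIdeal 𝒪)
    (maximalIdeal.isMaximal 𝒪).ne_top
  have hmem : x ∈ ⨅ i : ℕ, (maximalIdeal 𝒪 ^ i • ⊤ : Submodule 𝒪 M) := by
    rw [Submodule.mem_iInf]
    exact h
  rw [hk] at hmem
  exact (Submodule.mem_bot 𝒪).1 hmem

/-- The Fitting decomposition of an endomorphism of a finite free module over a complete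
discrete valuation ring. -/
theorem exists_fitting_mod (U : Module.End 𝒪 M) :
    ∃ (E : Module.End 𝒪 M) (n : ℕ), (∀ w, E (E w) = E w) ∧ (∀ w, E (U w) = U (E w)) ∧
      (∀ (k : ℕ) (w : M), ∃ w', E w = (U ^ k) w') ∧
      (∀ (k : ℕ) (w : M),
        (U ^ (n * k)) (w - E w) ∈ (maximalIdeal 𝒪 ^ k • ⊤ : Submodule 𝒪 M)) := by
  obtain ⟨ϖ, hirr⟩ := IsDiscreteValuationRing.exists_irreducible 𝒪
  have hϖ : maximalIdeal 𝒪 = Ideal.span {ϖ} :=
    (IsDiscreteValuationRing.irreducible_iff_uniformizer ϖ).mp hirr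
  obtain ⟨E, W, n, h1, h2, h3, h4⟩ := exists_fitting_idem_ring hϖ U
  refine ⟨E, n, fun w => LinearMap.congr_fun h1 w, fun w => LinearMap.congr_fun h2.eq w, ?_, ?_⟩
  · intro k w
    refine ⟨(W ^ k) (E w), ?_⟩
    exact LinearMap.congr_fun (h3 k) w
  · intro k w
    obtain ⟨y, hy⟩ := h4 k
    have : (U ^ (n * k)) (w - E w) = ϖ ^ k • y w := by
      have := LinearMap.congr_fun hy w
      simpa using this
    rw [this]
    refine Submodule.smul_mem_smul ?_ Submodule.mem_top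
    rw [hϖ, Ideal.span_singleton_pow]
    exact Ideal.subset_span rfl

/-- The unit root of `X² - T X + p`. -/
theorem exists_unit_root_mod (T : Module.End 𝒪 M) (hT : IsUnit T) (p : 𝒪)
    (hp : p ∈ maximalIdeal 𝒪) :
    ∃ Uu Ui : Module.End 𝒪 M, Uu * Ui = 1 ∧ Ui * Uu = 1 ∧
      Uu * Uu - T * Uu + p • (1 : Module.End 𝒪 M) = 0 ∧
      (∀ X : Module.End 𝒪 M, Commute X T → Commute X Uu) ∧
      (∀ X : Module.End 𝒪 M, Commute X T → Commute X Ui) :=
  exists_unit_root_ring T hT p hp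

end Mod

end Fermat.Agent.S59.CaseC.Geom.H34
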