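/-
S59, case C, package PGEOM, leaf P-ALG (helper34), part 2: `stmt_PALG : Stmt_PALG`.

Pure algebra: from the abstract two-degeneracy-maps package `Deg2` to `Deg2Out`.
`Uu` = the unit root of `X² - T_p X + p` on `L` (`H34_Fitting.exists_unit_root_mod`), so
`T_p = Uu + p Uu⁻¹`; `V := ⋂ Uᵏ L' = E L'` for the Fitting idempotent `E` of `U`
(`H34_Fitting.exists_fitting_mod`), a direct summand, so saturated;
`U (r₁ - r₂ Ui) = (r₁ - r₂ Ui) Uu` by `R1`, so `α` lands in `V`;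
`(c₂ - Ui c₁) U = Uu (c₂ - Ui c₁)` by `R2`, so `α'` kills `(1 - E) L'` (Krull), and it is onto by
`dual` + Nakayama; `α` is injective with saturated image by `ihara`; `comp` by `R3`.
-/
import Fermat.Agent.S59.CaseC.Geom.Defs
import Fermat.Agent.S59.CaseC.Geom.H34_Fitting

set_option autoImplicit false
set_option linter.style.haveILetI false
set_option linter.unusedSectionVars false
set_option linter.unusedSimpArgs false

namespace Fermat.Agent.S59.CaseC.Geom.H34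

open IsLocalRing

section General

variable {𝒪 : Type} [CommRing 𝒪] [IsDomain 𝒪] [IsDiscreteValuationRing 𝒪]

/-- `𝔪 M = ϖ M`. -/
theorem mem_max_smul_top_iff' {M : Type*} [AddCommGroup M] [Module 𝒪 M] {ϖ : 𝒪}
    (hϖ : maximalIdeal 𝒪 = Ideal.span {ϖ}) (x : M) :
    x ∈ (maximalIdeal 𝒪 • ⊤ : Submodule 𝒪 M) ↔ ∃ y : M, x = ϖ • y := by
  rw [hϖ, Submodule.ideal_span_singleton_smul, Submodule.mem_smul_pointwise_iff_exists]
  constructor
  · rintro ⟨y, -, rfl⟩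
    exact ⟨y, rfl⟩
  · rintro ⟨y, rfl⟩
    exact ⟨y, Submodule.mem_top, rfl⟩

/-- A saturated submodule: `𝔪 L' ∩ V = 𝔪 V`. -/
theorem mem_max_smul_top_of_saturated' {M : Type*} [AddCommGroup M] [Module 𝒪 M]
    (V : Submodule 𝒪 M) (hsat : ∀ (a : 𝒪) (w : M), a ≠ 0 → a • w ∈ V → w ∈ V) (x : V)
    (hx : (x : M) ∈ (maximalIdeal 𝒪 • ⊤ : Submodule 𝒪 M)) :
    x ∈ (maximalIdeal 𝒪 • ⊤ : Submodule 𝒪 V) := by
  obtain ⟨ϖ, hirr⟩ := IsDiscreteValuationRing.exists_irreducible 𝒪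
  have hϖ : maximalIdeal 𝒪 = Ideal.span {ϖ} :=
    (IsDiscreteValuationRing.irreducible_iff_uniformizer ϖ).mp hirr
  obtain ⟨y, hy⟩ := (mem_max_smul_top_iff' hϖ _).1 hx
  have hyV : y ∈ V := hsat ϖ y hirr.ne_zero (hy ▸ x.2)
  exact (mem_max_smul_top_iff' hϖ _).2 ⟨⟨y, hyV⟩, Subtype.ext hy⟩

end General

section Main

variable {𝒪 : Type} [CommRing 𝒪] [IsDomain 𝒪] [IsDiscreteValuationRing 𝒪]
  {H H' : Type} [CommRing H] [CommRing H'] {rest : H' →+* H} {θ : H →+* ResidueField 𝒪}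
  (D : Deg2 𝒪 rest θ)

/-- The ordinary part `V = ⋂ Uᵏ L'`. -/
def ordV : Submodule 𝒪 D.L' := ⨅ k : ℕ, LinearMap.range (D.U ^ k)

theorem mem_ordV (w : D.L') : w ∈ ordV D ↔ ∀ k : ℕ, ∃ w' : D.L', (D.U ^ k) w' = w := by
  unfold ordV
  rw [Submodule.mem_iInf]
  exact Iff.rfl

/-- The properties of the unit root. -/
structure UnitRoot (Uu Ui : Module.End 𝒪 D.L) : Prop where
  Uu_Ui : Uu * Ui = 1
  Ui_Uu : Ui * Uu = 1
  root : Uu * Uu - D.Tp * Uu + (D.p : 𝒪) • (1 : Module.End 𝒪 D.L) = 0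
  commU : ∀ X : Module.End 𝒪 D.L, Commute X D.Tp → Commute X Uu
  commI : ∀ X : Module.End 𝒪 D.L, Commute X D.Tp → Commute X Ui

/-- The properties of the Fitting idempotent. -/
structure Fit (E : Module.End 𝒪 D.L') (n : ℕ) : Prop where
  idem : ∀ w, E (E w) = E w
  comm : ∀ w, E (D.U w) = D.U (E w)
  ran : ∀ (k : ℕ) (w : D.L'), ∃ w', E w = (D.U ^ k) w'
  nil : ∀ (k : ℕ) (w : D.L'),
    (D.U ^ (n * k)) (w - E w) ∈ (maximalIdeal 𝒪 ^ k • ⊤ : Submodule 𝒪 D.L')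

variable {D} {Uu Ui : Module.End 𝒪 D.L} {E : Module.End 𝒪 D.L'} {n : ℕ}

theorem UnitRoot.Uu_Ui_apply (h : UnitRoot D Uu Ui) (v : D.L) : Uu (Ui v) = v :=
  LinearMap.congr_fun h.Uu_Ui v

theorem UnitRoot.Ui_Uu_apply (h : UnitRoot D Uu Ui) (v : D.L) : Ui (Uu v) = v :=
  LinearMap.congr_fun h.Ui_Uu v

theorem UnitRoot.Tp_apply (h : UnitRoot D Uu Ui) (v : D.L) :
    D.Tp v = Uu v + (D.p : 𝒪) • Ui v := by
  have h1 := LinearMap.congr_fun h.root (Ui v)
  simp only [LinearMap.add_apply, LinearMap.sub_apply, Module.End.mul_apply,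
    LinearMap.smul_apply, Module.End.one_apply, LinearMap.zero_apply, h.Uu_Ui_apply] at h1
  have h2 : D.Tp v = Uu v + (D.p : 𝒪) • Ui v - (Uu v - D.Tp v + (D.p : 𝒪) • Ui v) := by abel
  rw [h2, h1, sub_zero]

theorem UnitRoot.Uu_pow_Ui_pow (h : UnitRoot D Uu Ui) (k : ℕ) (v : D.L) :
    (Uu ^ k) ((Ui ^ k) v) = v := by
  have hc : Commute Uu Ui := by
    show Uu * Ui = Ui * Uu
    rw [h.Uu_Ui, h.Ui_Uu]
  have : Uu ^ k * Ui ^ k = 1 := by rw [← hc.mul_pow, h.Uu_Ui, one_pow]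
  exact LinearMap.congr_fun this v

theorem UnitRoot.Ui_pow_Uu_pow (h : UnitRoot D Uu Ui) (k : ℕ) (v : D.L) :
    (Ui ^ k) ((Uu ^ k) v) = v := by
  have hc : Commute Ui Uu := by
    show Ui * Uu = Uu * Ui
    rw [h.Uu_Ui, h.Ui_Uu]
  have : Ui ^ k * Uu ^ k = 1 := by rw [← hc.mul_pow, h.Ui_Uu, one_pow]
  exact LinearMap.congr_fun this v

variable (D Ui)

/-- `α = r₁ - r₂ Uu⁻¹ : L → L'`. -/
def aFull : D.L →ₗ[𝒪] D.L' := D.r₁ - D.r₂ ∘ₗ Ui

/-- `α' = c₂ - Uu⁻¹ c₁ : L' → L`. -/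
def aFull' : D.L' →ₗ[𝒪] D.L := D.c₂ - Ui ∘ₗ D.c₁

theorem aFull_apply (v : D.L) : aFull D Ui v = D.r₁ v - D.r₂ (Ui v) := rfl

theorem aFull'_apply (w : D.L') : aFull' D Ui w = D.c₂ w - Ui (D.c₁ w) := rfl

variable {D Ui}

theorem UnitRoot.U_aFull (h : UnitRoot D Uu Ui) (v : D.L) :
    D.U (aFull D Ui v) = aFull D Ui (Uu v) := by
  rw [aFull_apply, aFull_apply, map_sub, D.R1a, D.R1b, h.Ui_Uu_apply, h.Tp_apply, map_add,
    map_smul, ← Nat.cast_smul_eq_nsmul 𝒪]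
  abel

theorem UnitRoot.U_pow_aFull (h : UnitRoot D Uu Ui) (k : ℕ) (v : D.L) :
    (D.U ^ k) (aFull D Ui v) = aFull D Ui ((Uu ^ k) v) := by
  induction k generalizing v with
  | zero => rfl
  | succ k ih =>
    rw [pow_succ, pow_succ, Module.End.mul_apply, Module.End.mul_apply, h.U_aFull, ih]

theorem UnitRoot.aFull_mem (h : UnitRoot D Uu Ui) (v : D.L) : aFull D Ui v ∈ ordV D := by
  rw [mem_ordV]
  intro k
  exact ⟨aFull D Ui ((Ui ^ k) v), by rw [h.U_pow_aFull, h.Uu_pow_Ui_pow]⟩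

theorem UnitRoot.aFull'_U (h : UnitRoot D Uu Ui) (w : D.L') :
    aFull' D Ui (D.U w) = Uu (aFull' D Ui w) := by
  rw [aFull'_apply, aFull'_apply, D.R2a, D.R2b, map_sub, h.Uu_Ui_apply, h.Tp_apply,
    ← Nat.cast_smul_eq_nsmul 𝒪, map_smul]
  abel

theorem UnitRoot.aFull'_U_pow (h : UnitRoot D Uu Ui) (k : ℕ) (w : D.L') :
    aFull' D Ui ((D.U ^ k) w) = (Uu ^ k) (aFull' D Ui w) := by
  induction k generalizing w with
  | zero => rfl
  | succ k ih =>
    rw [pow_succ', pow_succ', Module.End.mul_apply, Module.End.mul_apply, h.aFull'_U, ih]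

/-! ### The Fitting idempotent -/

theorem Fit.comm_pow (hF : Fit D E n) (k : ℕ) (w : D.L') :
    E ((D.U ^ k) w) = (D.U ^ k) (E w) := by
  induction k generalizing w with
  | zero => rfl
  | succ k ih =>
    rw [pow_succ, Module.End.mul_apply, Module.End.mul_apply, ih, hF.comm]

theorem Fit.E_mem (hF : Fit D E n) (w : D.L') : E w ∈ ordV D := by
  rw [mem_ordV]
  intro k
  obtain ⟨w', hw'⟩ := hF.ran k w
  exact ⟨w', hw'.symm⟩

theorem Fit.E_of_mem (hF : Fit D E n) {w : D.L'} (hw : w ∈ ordV D) : E w = w := by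
  rw [mem_ordV] at hw
  have h0 : w - E w = 0 := by
    refine eq_zero_of_forall_mem_pow (𝒪 := 𝒪) fun k => ?_
    obtain ⟨w', hw'⟩ := hw (n * k)
    have : w - E w = (D.U ^ (n * k)) (w' - E w') := by
      rw [map_sub, ← hF.comm_pow, hw']
    rw [this]
    exact hF.nil k w'
  exact (sub_eq_zero.1 h0).symm

/-- `V` is saturated. -/
theorem Fit.ordV_sat (hF : Fit D E n) (a : 𝒪) (w : D.L') (ha : a ≠ 0) (h : a • w ∈ ordV D) :
    w ∈ ordV D := by
  have h1 := hF.E_of_mem h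
  rw [map_smul] at h1
  have h2 : E w = w := smul_right_injective _ ha h1
  rw [← h2]
  exact hF.E_mem w

/-- `α'` kills the topologically nilpotent part. -/
theorem aFull'_sub_E (h : UnitRoot D Uu Ui) (hF : Fit D E n) (w : D.L') :
    aFull' D Ui (w - E w) = 0 := by
  refine eq_zero_of_forall_mem_pow (𝒪 := 𝒪) fun k => ?_
  have h1 : aFull' D Ui (w - E w) =
      (Ui ^ (n * k)) (aFull' D Ui ((D.U ^ (n * k)) (w - E w))) := by
    rw [h.aFull'_U_pow, h.Ui_pow_Uu_pow]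
  rw [h1]
  exact map_mem_smul_top _ _ (map_mem_smul_top _ _ (hF.nil k w))

/-! ### The Hecke action on `V` -/

variable (D)

theorem U_η'_apply (t : H') (w : D.L') : D.U (D.η' t w) = D.η' t (D.U w) :=
  LinearMap.congr_fun (D.U_η' t).eq w

theorem U_pow_η'_apply (k : ℕ) (t : H') (w : D.L') :
    (D.U ^ k) (D.η' t w) = D.η' t ((D.U ^ k) w) :=
  LinearMap.congr_fun ((D.U_η' t).pow_left k).eq w

theorem η'_mem_ordV (t : H') (w : D.L') (hw : w ∈ ordV D) : D.η' t w ∈ ordV D := by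
  rw [mem_ordV] at hw ⊢
  intro k
  obtain ⟨w', hw'⟩ := hw k
  exact ⟨D.η' t w', by rw [U_pow_η'_apply, hw']⟩

/-- The Hecke action on `V`. -/
def etaV : H' →+* Module.End 𝒪 (ordV D) where
  toFun t := (D.η' t).restrict fun w hw => η'_mem_ordV D t w hw
  map_one' := by
    ext w
    simp
  map_mul' s t := by
    ext w
    simp
  map_zero' := by
    ext w
    simp
  map_add' s t := by
    ext w
    simp

theorem coe_etaV (t : H') (v : ordV D) : ((etaV D t v : ordV D) : D.L') = D.η' t v := rfl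

variable {D}

/-- The Hecke action on `V` is `θ`-local. -/
theorem etaV_local (hF : Fit D E n) (t : H') (a : 𝒪) (ha : residue 𝒪 a = θ (rest t)) :
    ∃ m : ℕ, ∀ v : ordV D,
      ((etaV D t - a • (1 : Module.End 𝒪 (ordV D))) ^ m) v ∈
        (maximalIdeal 𝒪 • ⊤ : Submodule 𝒪 (ordV D)) := by
  obtain ⟨m, hm⟩ := D.η'_local t a ha
  refine ⟨m, fun v => ?_⟩
  refine mem_max_smul_top_of_saturated' _ hF.ordV_sat _ ?_
  have key : ∀ (k : ℕ) (v : ordV D),
      ((((etaV D t - a • (1 : Module.End 𝒪 (ordV D))) ^ k) v : ordV D) : D.L') =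
      ((D.η' t - a • (1 : Module.End 𝒪 D.L')) ^ k) (v : D.L') := by
    intro k
    induction k with
    | zero => intro v; rfl
    | succ k ih =>
      intro v
      rw [pow_succ, pow_succ, Module.End.mul_apply, Module.End.mul_apply, ih]
      rfl
  rw [key]
  exact hm _

/-! ### The maps `α`, `α'` -/

/-- `α : L → V`. -/
def alphaV (h : UnitRoot D Uu Ui) : D.L →ₗ[𝒪] ordV D :=
  LinearMap.codRestrict (ordV D) (aFull D Ui) fun v => h.aFull_mem v

theorem coe_alphaV (h : UnitRoot D Uu Ui) (v : D.L) :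
    ((alphaV h v : ordV D) : D.L') = aFull D Ui v := rfl

variable (D Ui) in
/-- `α' : V → L`. -/
def alphaV' : ordV D →ₗ[𝒪] D.L := aFull' D Ui ∘ₗ (ordV D).subtype

theorem alphaV'_apply (w : ordV D) : alphaV' D Ui w = aFull' D Ui (w : D.L') := rfl

theorem UnitRoot.Ui_η_apply (h : UnitRoot D Uu Ui) (t : H) (v : D.L) :
    Ui (D.η t v) = D.η t (Ui v) :=
  (LinearMap.congr_fun (h.commI (D.η t) (D.Tp_η t).symm).eq v).symm

theorem alphaV_η (h : UnitRoot D Uu Ui) (t : H') (v : D.L) :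
    alphaV h (D.η (rest t) v) = etaV D t (alphaV h v) := by
  apply Subtype.ext
  rw [coe_etaV, coe_alphaV, coe_alphaV, aFull_apply, aFull_apply, D.r₁_η, h.Ui_η_apply,
    D.r₂_η, map_sub]

theorem alphaV'_η (h : UnitRoot D Uu Ui) (t : H') (w : ordV D) :
    alphaV' D Ui (etaV D t w) = D.η (rest t) (alphaV' D Ui w) := by
  rw [alphaV'_apply, alphaV'_apply, coe_etaV, aFull'_apply, aFull'_apply, D.c₁_η, D.c₂_η,
    h.Ui_η_apply, map_sub]

/-- Krull: an element of `L` divisible by all powers of `ϖ` is zero; hence every nonzero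
element is `ϖ ^ n • v₁` with `v₁ ∉ 𝔪 L`. -/
theorem exists_eq_pow_smul' {ϖ : 𝒪} (hϖ : maximalIdeal 𝒪 = Ideal.span {ϖ}) (v : D.L)
    (hv : v ≠ 0) :
    ∃ (n : ℕ) (v₁ : D.L), v = ϖ ^ n • v₁ ∧ v₁ ∉ (maximalIdeal 𝒪 • ⊤ : Submodule 𝒪 D.L) := by
  by_contra hcon
  simp only [not_exists, not_and, not_not] at hcon
  have hall : ∀ n : ℕ, ∃ v₁ : D.L, v = ϖ ^ n • v₁ := by
    intro n
    induction n with
    | zero => exact ⟨v, by rw [pow_zero, one_smul]⟩
    | succ n ih =>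
      obtain ⟨v₁, hv₁⟩ := ih
      obtain ⟨y, hy⟩ := (mem_max_smul_top_iff' hϖ _).1 (hcon n v₁ hv₁)
      exact ⟨y, by rw [hv₁, hy, smul_smul, pow_succ]⟩
  refine hv (eq_zero_of_forall_mem_pow (𝒪 := 𝒪) fun k => ?_)
  obtain ⟨v₁, hv₁⟩ := hall k
  rw [hv₁]
  refine Submodule.smul_mem_smul ?_ Submodule.mem_top
  rw [hϖ, Ideal.span_singleton_pow]
  exact Ideal.subset_span rfl

/-- Ihara's lemma for `α`. -/
theorem ihara_alpha (v : D.L)
    (h : aFull D Ui v ∈ (maximalIdeal 𝒪 • ⊤ : Submodule 𝒪 D.L')) :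
    v ∈ (maximalIdeal 𝒪 • ⊤ : Submodule 𝒪 D.L) := by
  have h1 : D.r₁ v + D.r₂ (-(Ui v)) ∈ (maximalIdeal 𝒪 • ⊤ : Submodule 𝒪 D.L') := by
    rw [map_neg, ← sub_eq_add_neg]
    exact h
  exact (D.ihara v _ h1).1

theorem aFull_injective : Function.Injective (aFull D Ui) := by
  rw [injective_iff_map_eq_zero]
  intro v hv
  by_contra hv0
  obtain ⟨ϖ, hirr⟩ := IsDiscreteValuationRing.exists_irreducible 𝒪
  have hϖ : maximalIdeal 𝒪 = Ideal.span {ϖ} :=
    (IsDiscreteValuationRing.irreducible_iff_uniformizer ϖ).mp hirr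
  obtain ⟨n, v₁, hv₁, hnot⟩ := exists_eq_pow_smul' hϖ v hv0
  rw [hv₁, map_smul] at hv
  have h0 : aFull D Ui v₁ = 0 :=
    (smul_eq_zero.1 hv).resolve_left (pow_ne_zero n hirr.ne_zero)
  exact hnot (ihara_alpha v₁ (h0 ▸ Submodule.zero_mem _))

theorem alphaV_injective (h : UnitRoot D Uu Ui) : Function.Injective (alphaV h) :=
  fun _ _ h' => aFull_injective (congrArg Subtype.val h')

/-- The image of `α` is saturated. -/
theorem alphaV_sat (h : UnitRoot D Uu Ui) (a : 𝒪) (w : ordV D) (ha : a ≠ 0)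
    (hw : a • w ∈ LinearMap.range (alphaV h)) : w ∈ LinearMap.range (alphaV h) := by
  obtain ⟨ϖ, hirr⟩ := IsDiscreteValuationRing.exists_irreducible 𝒪
  have hϖ : maximalIdeal 𝒪 = Ideal.span {ϖ} :=
    (IsDiscreteValuationRing.irreducible_iff_uniformizer ϖ).mp hirr
  -- the case `a = ϖ`
  have hstep : ∀ w : ordV D, ϖ • w ∈ LinearMap.range (alphaV h) →
      w ∈ LinearMap.range (alphaV h) := by
    rintro w ⟨v, hv⟩
    have h1 : aFull D Ui v ∈ (maximalIdeal 𝒪 • ⊤ : Submodule 𝒪 D.L') := by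
      rw [mem_max_smul_top_iff' hϖ]
      refine ⟨(w : D.L'), ?_⟩
      rw [← coe_alphaV h, hv]
      rfl
    obtain ⟨v₁, hv₁⟩ := (mem_max_smul_top_iff' hϖ _).1 (ihara_alpha v h1)
    refine ⟨v₁, ?_⟩
    rw [hv₁, map_smul] at hv
    exact smul_right_injective _ hirr.ne_zero hv
  have hpow : ∀ (n : ℕ) (w : ordV D), ϖ ^ n • w ∈ LinearMap.range (alphaV h) →
      w ∈ LinearMap.range (alphaV h) := by
    intro n
    induction n with
    | zero => intro w hw; rwa [pow_zero, one_smul] at hw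
    | succ n ih =>
      intro w hw
      rw [pow_succ, mul_smul] at hw
      exact hstep w (ih _ hw)
  obtain ⟨n, u, hu⟩ := IsDiscreteValuationRing.eq_unit_mul_pow_irreducible ha hirr
  refine hpow n w ?_
  have h2 : ϖ ^ n • w = (↑u⁻¹ : 𝒪) • (a • w) := by
    rw [hu, smul_smul, ← mul_assoc, Units.inv_mul, one_mul]
  rw [h2]
  exact Submodule.smul_mem _ _ hw

/-- `α'` is onto (dual Ihara + Fitting + Nakayama). -/
theorem alphaV'_surjective (h : UnitRoot D Uu Ui) (hF : Fit D E n) :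
    Function.Surjective (alphaV' D Ui) := by
  rw [← LinearMap.range_eq_top]
  refine top_le_iff.1 ?_
  refine Submodule.le_of_le_smul_of_le_jacobson_bot (I := maximalIdeal 𝒪)
    (Module.Finite.fg_top) (IsLocalRing.maximalIdeal_le_jacobson _) ?_
  intro v _
  obtain ⟨w, hw1, hw2⟩ := D.dual 0 v
  rw [sub_zero] at hw1
  have h1 : aFull' D Ui w = alphaV' D Ui ⟨E w, hF.E_mem w⟩ := by
    rw [alphaV'_apply]
    have := aFull'_sub_E h hF w
    rw [map_sub, sub_eq_zero] at this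
    exact this
  have h2 : v = alphaV' D Ui ⟨E w, hF.E_mem w⟩ - (aFull' D Ui w - v) := by
    rw [h1]
    abel
  rw [h2]
  refine Submodule.sub_mem _ (Submodule.mem_sup_left ⟨_, rfl⟩) (Submodule.mem_sup_right ?_)
  rw [aFull'_apply]
  have h3 : D.c₂ w - Ui (D.c₁ w) - v = (D.c₂ w - v) - Ui (D.c₁ w) := by abel
  rw [h3]
  exact Submodule.sub_mem _ hw2 (map_mem_smul_top Ui _ hw1)

/-- `α' α = Uu⁻¹ (1 - p Uu⁻²) (Uu² - 1)`. -/
theorem alphaV'_alphaV (h : UnitRoot D Uu Ui) (v : D.L) :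
    alphaV' D Ui (alphaV h v) =
      Ui (Uu (Uu v) - v) - (D.p : 𝒪) • Ui (Ui (Ui (Uu (Uu v) - v))) := by
  rw [alphaV'_apply, coe_alphaV, aFull'_apply, aFull_apply, map_sub, map_sub, D.R3a, D.R3b,
    D.R3c, D.R3d, h.Tp_apply, h.Tp_apply, h.Uu_Ui_apply]
  simp only [map_sub, map_add, map_smul, map_nsmul, h.Ui_Uu_apply, h.Uu_Ui_apply,
    ← Nat.cast_smul_eq_nsmul 𝒪, Nat.cast_add, Nat.cast_one]
  module

end Main

/-- **P-ALG.** -/
theorem stmt_PALG : Stmt_PALG := by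
  intro 𝒪 _ _ _ _ H H' _ _ rest θ D
  obtain ⟨Uu, Ui, h1, h2, h3, h4, h5⟩ := exists_unit_root_mod D.Tp D.Tp_unit (D.p : 𝒪) D.p_mem
  have hR : UnitRoot D Uu Ui := ⟨h1, h2, h3, h4, h5⟩
  obtain ⟨E, n, f1, f2, f3, f4⟩ := exists_fitting_mod D.U
  have hF : Fit D E n := ⟨f1, f2, f3, f4⟩
  exact ⟨{
    V := ordV D
    ι := (ordV D).subtype
    ι_inj := Subtype.val_injective
    range_ι := fun w => by
      rw [← mem_ordV]
      constructor
      · rintro ⟨v, rfl⟩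
        exact v.2
      · intro hw
        exact ⟨⟨w, hw⟩, rfl⟩
    η'' := etaV D
    ι_η := fun _ _ => rfl
    η''_local := etaV_local hF
    Uu := Uu
    Ui := Ui
    Uu_Ui := h1
    Ui_Uu := h2
    Uu_root := h3
    Uu_comm := h4
    α := alphaV hR
    α' := alphaV' D Ui
    ι_α := fun _ => rfl
    α'_eq := fun _ => rfl
    α_η := alphaV_η hR
    α'_η := alphaV'_η hR
    α_inj := alphaV_injective hR
    α_sat := alphaV_sat hR
    α'_surj := alphaV'_surjective hR hF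
    comp := alphaV'_alphaV hR }⟩

end Fermat.Agent.S59.CaseC.Geom.H34
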