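import Mathlib
import Fermat.Agent.S59.CaseC.Geom.Defs
import Fermat.Agent.S59.CaseC.H47_StepP
import Fermat.Agent.S59.Datum.Final
import Fermat.Agent.S59.Asm.H7_CondFinal

/-!
# S59, case C, package PGEOM (helper47): the wiring of the step at `p`

* `stmt_STEPPptWIRE : Geom.Stmt_STEPPptWIRE`, i.e.
  `Stmt_S33 → Stmt_DEFord → Stmt_ORDT → Stmt_TAUP → Stmt_SELMERp → Stmt_CPNE → Stmt_STEPPpt`
  (pointwise form of the constant), from `CaseC.H47.stepP_core`;
* `stmt_STEPPWIRE : CaseC.Stmt_STEPPWIRE` (the form of `CaseC/Defs.lean`).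

`Datum.stmt_DATUM` and the frozen S31, S34 (`Asm.H7.stmt_UnrDatum`, `Asm.H7.stmt_UnipDatum`) are
plugged in here.
-/

set_option autoImplicit false
set_option linter.unusedSectionVars false
set_option linter.style.haveILetI false
set_option linter.unusedVariables false
set_option maxHeartbeats 1000000

open Polynomial CuspForm CongruenceSubgroup ModularFormClass IsLocalRing

namespace Fermat.Agent.S59.CaseC.Geom.H47

open Fermat.Agent.S59 Fermat.Agent.S59.Asm Fermat.Agent.S59.NonMin Fermat.Agent.S59.CaseC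

/-- **STEP-p, pointwise form**, from DATUM and the frozen S31, S34. -/
theorem stepppt_of (hDATUM : Fermat.Agent.S59.Datum.Stmt_DATUM)
    (hUnr : Fermat.Agent.S59.Asm.H7.Stmt_UnrDatum)
    (hUnip : Fermat.Agent.S59.Asm.H7.Stmt_UnipDatum) :
    Fermat.Agent.S59.CaseC.Geom.Stmt_STEPPptWIRE := by
  intro hS33 hDEF hORDT hTAUP hSEL hCPNE
  intro 𝒪 _ _ _ _ _ _ p _ hp2 hp𝒪 ρbar Smin hyp hbar hord Sig s _ hLev hF x hx d hd hRT _ _
    hgeom ρ hρ hres a hfrob
  obtain ⟨c, st, hc⟩ := hgeom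
  refine Fermat.Agent.S59.CaseC.H47.stepP_core hDATUM hUnr hUnip hS33 hDEF hORDT hTAUP hSEL
    hCPNE 𝒪 p hp2 hp𝒪 ρbar Smin hyp hbar hord Sig s hLev hF x hx d hd hRT ?_ ρ hρ hres a hfrob
  intro H ηhat hHπ hηhat hHdet hHres P hP ℒ g hg z hz πx
  obtain ⟨w, hw⟩ := hc H ηhat hHπ hηhat hHdet hHres P hP ℒ g hg z hz πx
  exact ⟨c, st, w, hw⟩

/-- **STEP-p, pointwise form**: the wiring. -/
theorem stmt_STEPPptWIRE : Fermat.Agent.S59.CaseC.Geom.Stmt_STEPPptWIRE :=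
  stepppt_of Fermat.Agent.S59.Datum.stmt_DATUM Fermat.Agent.S59.Asm.H7.stmt_UnrDatum
    Fermat.Agent.S59.Asm.H7.stmt_UnipDatum

/-- **STEP-p**, the wiring in the form of `CaseC/Defs.lean`. -/
theorem stmt_STEPPWIRE : Fermat.Agent.S59.CaseC.Stmt_STEPPWIRE :=
  Fermat.Agent.S59.CaseC.H47.steppwire_of Fermat.Agent.S59.Datum.stmt_DATUM
    Fermat.Agent.S59.Asm.H7.stmt_UnrDatum Fermat.Agent.S59.Asm.H7.stmt_UnipDatum

end Fermat.Agent.S59.CaseC.Geom.H47
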