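import Mathlib
import Fermat.Agent.S59.CaseC.Geom.H47_StepPpt
import Fermat.Agent.S59.CaseC.H47_Bridge
import Fermat.Agent.S59.NonMin.H7_CondOrdFinal
import Fermat.Agent.S59.CaseC.H85_SelmerP
import Fermat.Agent.S59.CaseC.H12_CPNEBridge
import Fermat.Agent.S33

/-!
# S59, case C, package PGEOM (helper47): the step at `p` from LGC-pt ALONE

All inputs of the wiring `Geom.Stmt_STEPPptWIRE` except CP-NE are landed and unconditional:
the frozen S33 (`Fermat.Agent.S33.result`), DEF-ord and TAU-p (`CaseC.H47`), ORD-T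
(`NonMin.H7.stmt_ORDT`), SELMER-p (`CaseC.H85.stmt_SELMERp`); CP-NE follows from the pointwise
local–global compatibility at `p` (`CaseC.H12.cpne_of_geom`).  Hence

* `stmt_S33_caseC : CaseC.Stmt_S33`;
* `stmt_STEPPpt_of : Geom.Stmt_LGCpt → Geom.Stmt_STEPPpt`;
* `stmt_STEPP_of   : Geom.Stmt_LGCpt → CaseC.Stmt_STEPP`.
-/

set_option autoImplicit false
set_option linter.unusedSectionVars false
set_option linter.unusedVariables false

namespace Fermat.Agent.S59.CaseC.Geom.H47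

/-- The frozen S33, in the form of `CaseC/Defs.lean`. -/
theorem stmt_S33_caseC : Fermat.Agent.S59.CaseC.Stmt_S33 :=
  fun hp hp2 hp𝒪 hN hNS H hres => Fermat.Agent.S33.result hp hp2 hp𝒪 hN hNS H hres

/-- **STEP-p, pointwise form**, from the pointwise local–global compatibility at `p` alone. -/
theorem stmt_STEPPpt_of (hL : Fermat.Agent.S59.CaseC.Geom.Stmt_LGCpt) :
    Fermat.Agent.S59.CaseC.Geom.Stmt_STEPPpt :=
  stmt_STEPPptWIRE stmt_S33_caseC Fermat.Agent.S59.CaseC.H47.stmt_DEFord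
    Fermat.Agent.S59.NonMin.H7.stmt_ORDT Fermat.Agent.S59.CaseC.H47.stmt_TAUP
    Fermat.Agent.S59.CaseC.H85.stmt_SELMERp (Fermat.Agent.S59.CaseC.H12.cpne_of_geom hL)

/-- **STEP-p** (form of `CaseC/Defs.lean`), from the pointwise local–global compatibility at
`p` alone. -/
theorem stmt_STEPP_of (hL : Fermat.Agent.S59.CaseC.Geom.Stmt_LGCpt) :
    Fermat.Agent.S59.CaseC.Stmt_STEPP :=
  stmt_STEPPWIRE stmt_S33_caseC Fermat.Agent.S59.CaseC.H47.stmt_DEFord
    Fermat.Agent.S59.NonMin.H7.stmt_ORDT Fermat.Agent.S59.CaseC.H47.stmt_TAUP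
    Fermat.Agent.S59.CaseC.H85.stmt_SELMERp (Fermat.Agent.S59.CaseC.H12.cpne_of_geom hL)

end Fermat.Agent.S59.CaseC.Geom.H47
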