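import Mathlib
import Fermat.Agent.S59.CaseC.Geom.H47_StepPptFinal
import Fermat.Agent.S59.LGC.H54_Final

/-!
# S59, case C, package PGEOM (helper47): the step at `p`, UNCONDITIONALLY

With the pointwise local–global compatibility at `p` (`S59.LGC.H54.stmt_LGCpt`, helper54 and
team) every input of the wiring is landed:

* `stmt_CPNE    : CaseC.Stmt_CPNE`;
* `stmt_STEPPpt : Geom.Stmt_STEPPpt` (the input of `Geom.Stmt_CWIREp`);
* `stmt_STEPP   : CaseC.Stmt_STEPP`.
-/

set_option autoImplicit false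

namespace Fermat.Agent.S59.CaseC.Geom.H47

/-- **CP-NE**, unconditionally. -/
theorem stmt_CPNE : Fermat.Agent.S59.CaseC.Stmt_CPNE :=
  Fermat.Agent.S59.CaseC.H12.cpne_of_geom Fermat.Agent.S59.LGC.H54.stmt_LGCpt

/-- **STEP-p, pointwise form**, unconditionally. -/
theorem stmt_STEPPpt : Fermat.Agent.S59.CaseC.Geom.Stmt_STEPPpt :=
  stmt_STEPPpt_of Fermat.Agent.S59.LGC.H54.stmt_LGCpt

/-- **STEP-p** (form of `CaseC/Defs.lean`), unconditionally. -/
theorem stmt_STEPP : Fermat.Agent.S59.CaseC.Stmt_STEPP :=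
  stmt_STEPP_of Fermat.Agent.S59.LGC.H54.stmt_LGCpt

end Fermat.Agent.S59.CaseC.Geom.H47
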