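import Mathlib
import Fermat.Agent.S59.CaseC.Geom.H53_PAsmDefs
import Fermat.Agent.S59.Asm.H41_Rest

/-!
# S59 / case C / PGEOM, assembly P-ASM, second half P-FIN (helper53)

`stmt_PFIN : Stmt_PFIN` : from the package `Deg2Data` (`Stmt_PDEG2`), the algebra (`Stmt_PALG`),
the link with the Galois side (`Stmt_PLINK`) and multiplicity one (`Stmt_PRANK`) to the clause at
`p` (`Stmt_PSTEPB`).

No `sorry`.
-/

set_option autoImplicit false

open Polynomial CuspForm CongruenceSubgroup IsLocalRing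
open scoped MatrixGroups

namespace Fermat.Agent.S59.CaseC.Geom.H53

open Fermat.Agent.S41 Fermat.Agent.Betti Fermat.Agent.S59 Fermat.Agent.S59.Asm
  Fermat.Agent.S59.NonMin Fermat.Agent.S59.NonMin.Geom Fermat.Agent.S59.CaseC
  Fermat.Agent.S59.CaseC.Geom
open ModularCurve.Period

/-- The Galois group of `ℚ`. -/
local notation "Γℚ" => AlgebraicClosure ℚ ≃ₐ[ℚ] AlgebraicClosure ℚ

/-! ## 1. The eigenvalue on the quotient by the ordinary line is a unit -/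

/-- The eigenvalue of `ρ(g)` on the quotient by a line is a unit. -/
theorem isUnit_of_isQuotEigen {A : Type} [CommRing A] [IsLocalRing A] {ρ : GaloisRepAdic A}
    {P : ValuationSubring (AlgebraicClosure ℚ)} (ℒ : OrdLine ρ P) {g : Γℚ} {z : A}
    (hz : ℒ.IsQuotEigen g z) : IsUnit z := by
  obtain ⟨b, hb⟩ := ℒ.isLine
  have h1 := hz (ρ.ρ g⁻¹ (b 1))
  have h2 : ρ.ρ g (ρ.ρ g⁻¹ (b 1)) = b 1 := by
    rw [← Module.End.mul_apply, ← map_mul, mul_inv_cancel, map_one, Module.End.one_apply]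
  rw [h2, hb, Submodule.mem_span_singleton] at h1
  obtain ⟨a, ha⟩ := h1
  have h3 := congrArg (fun v => b.repr v 1) ha
  simp only [map_smul, map_sub, Module.Basis.repr_self, Finsupp.smul_apply, Finsupp.sub_apply,
    Finsupp.single_apply, smul_eq_mul] at h3
  simp only [Fin.isValue, zero_ne_one, ↓reduceIte, mul_zero] at h3
  refine IsUnit.of_mul_eq_one (b.repr (ρ.ρ g⁻¹ (b 1)) 1) ?_
  linear_combination h3

/-! ## 2. Two lemmas of linear algebra over a local ring -/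

section Alg

variable {𝒪 : Type} [CommRing 𝒪] [IsLocalRing 𝒪] {L : Type} [AddCommGroup L] [Module 𝒪 L]
  [Module.Finite 𝒪 L]

/-- `1 - a X` is injective for `a` in the maximal ideal. -/
theorem injective_one_sub_smul (X : Module.End 𝒪 L) {a : 𝒪} (ha : a ∈ maximalIdeal 𝒪) :
    Function.Injective ((1 : Module.End 𝒪 L) - a • X) := by
  have hsurj : Function.Surjective ((1 : Module.End 𝒪 L) - a • X) := by
    rw [← LinearMap.range_eq_top]
    apply top_le_iff.mp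
    refine Submodule.le_of_le_smul_of_le_jacobson_bot (I := maximalIdeal 𝒪)
      (Module.Finite.fg_top) ?_ ?_
    · rw [IsLocalRing.jacobson_eq_maximalIdeal ⊥ bot_ne_top]
    · intro v _
      have : v = ((1 : Module.End 𝒪 L) - a • X) v + a • X v := by
        simp
      rw [this]
      exact Submodule.add_mem _ (Submodule.mem_sup_left ⟨v, rfl⟩)
        (Submodule.mem_sup_right (Submodule.smul_mem_smul ha Submodule.mem_top))
  exact OrzechProperty.injective_of_surjective_endomorphism _ hsurj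

end Alg

/-! ## 3. The arithmetic of the level -/

/-- The primes of the level of a state of the class `G` are in `S`. -/
theorem prime_dvd_mem {p : ℕ} {Smin : Finset ℕ} {N₀ : ℕ} {Sig : Finset ℕ} {N : ℕ} {S : Finset ℕ}
    (hG : GeomHyp p Smin N₀ Sig N S) {r : ℕ} (hr : r.Prime) (hrN : r ∣ N) : r ∈ S := by
  rw [hG.hS, Finset.mem_union]
  rw [hG.hN] at hrN
  rcases (Nat.Prime.dvd_mul hr).mp hrN with h | h
  · exact Or.inl (hG.hN₀S r hr h)
  · obtain ⟨r', hr', hd⟩ := (Prime.dvd_finsetProd_iff hr.prime _).mp h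
    have h1 : r ∣ r' := hr.dvd_of_dvd_pow hd
    have h2 : r = r' := (Nat.prime_dvd_prime_iff_eq hr (hG.hSig r' hr').1).mp h1
    exact Or.inr (h2 ▸ hr')

/-! ## 4. The second half of the assembly -/

section Main

variable {𝒪 : Type} [CommRing 𝒪] [IsDomain 𝒪] [IsDiscreteValuationRing 𝒪]

/-- The computation of the unit root at a point: if `u T_p v = (u² + p) v` with `u` a unit, then
the unit root `Uu` of `X² - T_p X + p` acts on `v` by `u`. -/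
theorem unitRoot_at_point {L : Type} [AddCommGroup L] [Module 𝒪 L] [Module.Finite 𝒪 L]
    {p : ℕ} (hp𝒪 : (p : 𝒪) ∈ maximalIdeal 𝒪)
    (Tp Uu Ui : Module.End 𝒪 L) (hUiUu : Ui * Uu = 1)
    (hroot : Uu * Uu - Tp * Uu + (p : 𝒪) • (1 : Module.End 𝒪 L) = 0)
    (hcomm : Commute Tp Uu) (u : 𝒪ˣ) (v : L)
    (hv : (u : 𝒪) • Tp v = ((u : 𝒪) ^ 2 + (p : 𝒪)) • v) :
    Uu v = (u : 𝒪) • v ∧ Ui v = ((u⁻¹ : 𝒪ˣ) : 𝒪) • v := by
  have hUi : ∀ x : L, Ui (Uu x) = x := fun x => by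
    have := congrArg (fun f : Module.End 𝒪 L => f x) hUiUu
    simpa [Module.End.mul_apply] using this
  have h1 : Uu (Uu v) - Tp (Uu v) + (p : 𝒪) • v = 0 := by
    have := congrArg (fun f : Module.End 𝒪 L => f v) hroot
    simpa [Module.End.mul_apply] using this
  have h2 : Tp (Uu v) = Uu (Tp v) := by
    have := congrArg (fun f : Module.End 𝒪 L => f v) hcomm.eq
    simpa [Module.End.mul_apply] using this
  rw [h2] at h1
  have h4 : (u : 𝒪) • Uu (Tp v) = ((u : 𝒪) ^ 2 + (p : 𝒪)) • Uu v := by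
    rw [← map_smul, hv, map_smul]
  have h3 : (u : 𝒪) • Uu (Uu v - (u : 𝒪) • v) = (p : 𝒪) • (Uu v - (u : 𝒪) • v) := by
    rw [map_sub, map_smul]
    linear_combination (norm := module) (u : 𝒪) • h1 + h4
  -- `y = a Ui y`, `a = u⁻¹ p`
  set y : L := Uu v - (u : 𝒪) • v with hy
  have ha : ((u⁻¹ : 𝒪ˣ) : 𝒪) * (p : 𝒪) ∈ maximalIdeal 𝒪 := Ideal.mul_mem_left _ _ hp𝒪
  have h5 : Uu y = (((u⁻¹ : 𝒪ˣ) : 𝒪) * (p : 𝒪)) • y := by
    have := congrArg (fun x : L => ((u⁻¹ : 𝒪ˣ) : 𝒪) • x) h3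
    simp only [smul_smul] at this
    rwa [Units.inv_mul, one_smul] at this
  have h6 : ((1 : Module.End 𝒪 L) - (((u⁻¹ : 𝒪ˣ) : 𝒪) * (p : 𝒪)) • Ui) y = 0 := by
    rw [LinearMap.sub_apply, Module.End.one_apply, LinearMap.smul_apply, ← map_smul, ← h5, hUi,
      sub_self]
  have hy0 : y = 0 := injective_one_sub_smul Ui ha (by rw [h6, map_zero])
  have hUv : Uu v = (u : 𝒪) • v := sub_eq_zero.mp hy0
  refine ⟨hUv, ?_⟩
  have h7 : v = (u : 𝒪) • Ui v := by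
    conv_lhs => rw [← hUi v, hUv, map_smul]
  calc Ui v = ((u⁻¹ : 𝒪ˣ) : 𝒪) • ((u : 𝒪) • Ui v) := by
        rw [smul_smul, Units.inv_mul, one_smul]
    _ = ((u⁻¹ : 𝒪ˣ) : 𝒪) • v := by rw [← h7]

end Main

set_option maxHeartbeats 1600000 in
/-- **P-FIN**: the second half of the assembly of the step at `p`. -/
theorem stmt_PFIN : Stmt_PFIN := by
  intro hDEG hBM hALG hLINK hRANK 𝒪 _ _ _ _ _ _ p hpF hp2 hp𝒪 ρbar Smin hyp hfl hord N₀ Sig s hG hF hB hpN _ _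
  have hp : p.Prime := hpF.out
  have hpS : p ∈ s.S := by rw [hG.hS]; exact Finset.mem_union_left _ hyp.hpSmin
  have hnew : ∀ q : ℕ, q.Prime → q ∣ s.N * p → ¬ q ∣ s.N → q ∈ (↑s.S : Set ℕ) := by
    intro q hq hqd hqN
    rcases (Nat.Prime.dvd_mul hq).mp hqd with h | h
    · exact absurd h hqN
    · rw [(Nat.prime_dvd_prime_iff_eq hq hp).mp h]; exact hpS
  obtain ⟨rest, hrest⟩ := Asm.H41.stmt_REST' s.N (s.N * p) (↑s.S : Set ℕ) (↑s.S : Set ℕ)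
    (dvd_mul_right s.N p) (subset_refl _) hnew
  have hrest_T : ∀ (ℓ : ℕ) (hℓ : ℓ.Prime) (hℓN' : ¬ ℓ ∣ s.N * p) (hℓS : ℓ ∉ (↑s.S : Set ℕ))
      (hℓN : ¬ ℓ ∣ s.N),
      rest (CuspForm.heckeAlgebra.T hℓ hℓN' hℓS) = CuspForm.heckeAlgebra.T hℓ hℓN hℓS :=
    fun ℓ hℓ hℓN' hℓS hℓN => hrest ℓ hℓ hℓN' hℓS hℓN hℓS
  obtain ⟨ι, hι⟩ := hB
  have hNpS : ∀ r : ℕ, r.Prime → r ∣ s.N * p → r ∈ s.S := by
    intro r hr hrd
    by_cases h : r ∣ s.N
    · exact prime_dvd_mem hG hr h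
    · exact hnew r hr hrd h
  obtain ⟨M₀, ι', hι'⟩ :=
    hBM 𝒪 (s.N * p) s.S hNpS (s.θ.comp rest) Sig (fun r hr => (hG.hSig r hr).1)
  have hh := hDEG 𝒪 p hp2 hp𝒪 ρbar Smin hyp hfl hord N₀ Sig s hG hF ι hι hpN
    rest hrest_T M₀ ι'
  have hh2 := hh hι'
  obtain ⟨d, hd12⟩ := hh2
  have hdT := hd12.1
  have hdU := hd12.2
  obtain ⟨Out⟩ := hALG 𝒪 rest s.θ d.toDeg2
  let _i1 := Out.iV1
  let _i2 := Out.iV2
  let _i3 := Out.iV3
  let _i4 := Out.iV4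
  -- the ordinary part as a Hecke module
  let M' : HMod 𝒪 (s.N * p) (↑s.S : Set ℕ) (s.θ.comp rest) :=
    { V := Out.V
      instAddCommGroup := Out.iV1
      instModule := Out.iV2
      instFinite := Out.iV3
      instFree := Out.iV4
      η := Out.η''
      η_local := Out.η''_local }
  let Uu : Module.End 𝒪 s.M.V := Out.Uu
  let Ui : Module.End 𝒪 s.M.V := Out.Ui
  let c : Module.End 𝒪 s.M.V :=
    Ui ∘ₗ (Uu ∘ₗ Uu - LinearMap.id) - (p : 𝒪) • (Ui ∘ₗ Ui ∘ₗ Ui ∘ₗ (Uu ∘ₗ Uu - LinearMap.id))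
  have hd : p ∣ s.N * p := dvd_mul_left p s.N
  have hUpow : ∀ (n : ℕ) (w : M₀.V),
      ι' ((d.U ^ n) w) = (UB (s.N * p) 𝒪 hd)^[n] (ι' w) := by
    intro n
    induction n with
    | zero => intro w; rfl
    | succ n ih =>
      intro w
      rw [pow_succ, Module.End.mul_apply, ih, hdU hd, Function.iterate_succ_apply]
  let ι'' : M'.V →ₗ[𝒪] (Additive (Gamma0 (s.N * p)) →+ 𝒪) := ι' ∘ₗ Out.ι
  have hinj : Function.Injective ι'' := hι'.1.comp Out.ι_inj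
  have hrg : ∀ ψ, ψ ∈ Set.range ι'' ↔
      (InBetti 𝒪 (s.N * p) (↑s.S : Set ℕ) (s.θ.comp rest) Sig ψ ∧
        ∀ n : ℕ, ∃ ψ', InBetti 𝒪 (s.N * p) (↑s.S : Set ℕ) (s.θ.comp rest) Sig ψ' ∧
          (UB (s.N * p) 𝒪 hd)^[n] ψ' = ψ) := by
    intro ψ
    constructor
    · rintro ⟨v, rfl⟩
      refine ⟨(hι'.2.1 _).mp ⟨Out.ι v, rfl⟩, fun n => ?_⟩
      obtain ⟨w', hw'⟩ := (Out.range_ι (Out.ι v)).mp ⟨v, rfl⟩ n
      exact ⟨ι' w', (hι'.2.1 _).mp ⟨w', rfl⟩, (hUpow n w').symm.trans (congrArg ι' hw')⟩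
    · rintro ⟨h1, h2⟩
      obtain ⟨w, rfl⟩ := (hι'.2.1 _).mpr h1
      have h3 : w ∈ Set.range Out.ι := by
        refine (Out.range_ι w).mpr fun n => ?_
        obtain ⟨ψ', hψ', hn⟩ := h2 n
        obtain ⟨w', rfl⟩ := (hι'.2.1 _).mpr hψ'
        exact ⟨w', hι'.1 ((hUpow n w').trans hn)⟩
      obtain ⟨v, rfl⟩ := h3
      exact ⟨v, rfl⟩
  have hT : ∀ (ℓ : ℕ) (hℓ : ℓ.Prime) (hℓN' : ¬ ℓ ∣ s.N * p) (hℓS : ℓ ∉ (↑s.S : Set ℕ))
      (w : M'.V), ι'' (M'.η (CuspForm.heckeAlgebra.T hℓ hℓN' hℓS) w)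
        = TB (s.N * p) 𝒪 hℓ hℓN' (ι'' w) := by
    intro ℓ hℓ hℓN' hℓS w
    show ι' (Out.ι (Out.η'' (CuspForm.heckeAlgebra.T hℓ hℓN' hℓS) w)) = _
    rw [Out.ι_η]
    exact hι'.2.2 ℓ hℓ hℓN' hℓS (Out.ι w)
  refine ⟨c, { rest := rest
               rest_T := hrest_T
               M' := M'
               α := Out.α
               α' := Out.α'
               α_η := Out.α_η
               α'_η := Out.α'_η
               α_inj := Out.α_inj
               α_sat := Out.α_sat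
               α'_surj := Out.α'_surj
               comp := fun v => Out.comp v
               rank := fun x hx => hRANK 𝒪 p hp2 hp𝒪 ρbar Smin hyp N₀ Sig s hG hF ⟨ι, hι⟩ hpN hd
                 rest hrest_T M' ι'' hinj hrg hT x hx }, ?_⟩
  -- the constant at a point
  intro H ηhat hπ hη hdet hres P hP ℒ g hg z hz πx
  obtain ⟨u, hu⟩ := (isUnit_of_isQuotEigen ℒ hz).map πx
  have hpu : ((u⁻¹ : 𝒪ˣ) : 𝒪) ^ 2 * (p : 𝒪) ∈ maximalIdeal 𝒪 := Ideal.mul_mem_left _ _ hp𝒪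
  have hw : IsUnit (((u⁻¹ : 𝒪ˣ) : 𝒪) * (1 - ((u⁻¹ : 𝒪ˣ) : 𝒪) ^ 2 * (p : 𝒪))) :=
    (u⁻¹).isUnit.mul (IsLocalRing.isUnit_one_sub_self_of_mem_nonunits _ hpu)
  obtain ⟨w, hw⟩ := hw
  refine ⟨w, fun v hv => ?_⟩
  have hlink := hLINK 𝒪 p hp2 hp𝒪 ρbar Smin hyp N₀ Sig s hG hF hp hpN ι hι.1 hι.2.1 hι.2.2
    H ηhat hπ hη hdet hres P hP ℒ g hg z hz πx v hv
  rw [← hu] at hlink ⊢
  have h1 : (u : 𝒪) • d.Tp v = ((u : 𝒪) ^ 2 + (p : 𝒪)) • v := by
    apply hι.1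
    rw [map_smul, hdT hp hpN, hlink, map_smul]
  obtain ⟨hUu, hUi⟩ := unitRoot_at_point hp𝒪 d.Tp Uu Ui Out.Ui_Uu Out.Uu_root
    (Out.Uu_comm d.Tp (Commute.refl _)) u v h1
  have e1 : Uu (Uu v) - v = ((u : 𝒪) ^ 2 - 1) • v := by
    rw [hUu, map_smul, hUu]
    module
  have e3 : ∀ a : 𝒪, Ui (a • v) = (a * ((u⁻¹ : 𝒪ˣ) : 𝒪)) • v := fun a => by
    rw [map_smul, hUi, smul_smul]
  show Ui (Uu (Uu v) - v) - (p : 𝒪) • Ui (Ui (Ui (Uu (Uu v) - v))) = _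
  rw [e1, e3, e3, e3, smul_smul, ← sub_smul, hw]
  congr 1
  ring

end Fermat.Agent.S59.CaseC.Geom.H53
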