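import Mathlib
import Fermat.Agent.S59.CaseC.Geom.Defs
import Fermat.Agent.S59.NonMin.Geom.H61_CHEBk

/-!
# S59, case C, PGEOM leaf CHEB-kp (helper61)

`stmt_CHEBkp : Stmt_CHEBkp` : the auxiliary primes of Ihara's lemma for `q = p`
(`Geom.H61.chebk_core` with `q := p`; its proof never uses `q ≠ p`).
-/

set_option autoImplicit false

namespace Fermat.Agent.S59.CaseC.Geom.H61

/-- **CHEB-kp**. -/
theorem stmt_CHEBkp : Stmt_CHEBkp := by
  intro 𝒪 _ _ _ _ p _ hp2 _ ρbar Smin hres N _ S θ hθ M hM hpM S'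
  exact Fermat.Agent.S59.NonMin.Geom.H61.chebk_core 𝒪 p hp2 ρbar Smin hres N S θ hθ p
    Fact.out M hM hpM S'

end Fermat.Agent.S59.CaseC.Geom.H61
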