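import Fermat.Agent.S59.CaseC.Geom.Defs
import Fermat.Agent.S59.NonMin.Geom.H78_Ihara3v

/-!
# S59 / PGEOM, leaf IHARA2k (helper78)

`stmt_IHARA2k : Geom.Stmt_IHARA2k` — Ihara's lemma for two degeneracy maps over a field of
characteristic `p`, at any prime `q ∤ N` (`q = p` allowed): a corollary of
`NonMin.Geom.H78.ihara2_gen` (period functions; only `x₁` is used as an eigenvector).
This file contains no `sorry`.
-/

set_option autoImplicit false

namespace Fermat.Agent.S59.CaseC.Geom.H78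

/-- **IHARA2k.** -/
theorem stmt_IHARA2k : Fermat.Agent.S59.CaseC.Geom.Stmt_IHARA2k := by
  intro k _ p _ _ _ N q hN hq hqN P a hP hex x₁ x₂ hx₁ hx₂ heig hrel
  exact Fermat.Agent.S59.NonMin.Geom.H78.ihara2_gen k p N q hN hq hqN P a hP hex x₁ x₂ hx₁ hx₂
    heig hrel

end Fermat.Agent.S59.CaseC.Geom.H78
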