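/-
S59, case C, package PGEOM, leaf P-ORD (helper7), part 2: the algebra (no Hecke algebra here).

Let `𝒪` be a complete discrete valuation ring (characteristic `0`, finite residue field), `L` a
finite free `𝒪`-module and `ρ : 𝕋 → End_𝒪 L` an action of a commutative finite `𝒪`-algebra.

* `exists_point_of_not_surjective` : if `ρ u` is not surjective, there are a complete discrete
  valuation ring `𝒪'`, finite over `𝒪`, and a point `x : 𝕋 →ₐ[𝒪] 𝒪'` which kills `ker ρ`, with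
  `x u` in the maximal ideal.
* `point_mem_of_range_le` : such a point maps every `s` with `ρ s L ⊆ 𝔪 L` into the maximal
  ideal (Cayley–Hamilton).
* `point_sub_mem_of_nilp` : if `ρ t - a` is topologically nilpotent on `L`, `x t ≡ a`.
-/
import Mathlib
import Fermat.Agent.R.H2_PDVR

set_option autoImplicit false
set_option linter.style.haveILetI false
set_option linter.unusedSectionVars false

open IsLocalRing Polynomial
open scoped TensorProduct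

namespace Fermat.Agent.S59.CaseC.Geom.H7

section Charpoly

variable {𝒪 : Type} [CommRing 𝒪] [IsLocalRing 𝒪]
  {L : Type} [AddCommGroup L] [Module 𝒪 L] [Module.Finite 𝒪 L] [Module.Free 𝒪 L]

/-- The base change to the residue field of an endomorphism with image in `𝔪 L` is zero. -/
theorem baseChange_residue_eq_zero (f : Module.End 𝒪 L)
    (hf : ∀ v : L, f v ∈ (maximalIdeal 𝒪 • ⊤ : Submodule 𝒪 L)) :
    f.baseChange (ResidueField 𝒪) = 0 := by
  apply TensorProduct.AlgebraTensorModule.ext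
  intro c v
  rw [LinearMap.baseChange_tmul, LinearMap.zero_apply]
  have key : ∀ w ∈ (maximalIdeal 𝒪 • ⊤ : Submodule 𝒪 L),
      (c ⊗ₜ[𝒪] w : ResidueField 𝒪 ⊗[𝒪] L) = 0 := by
    intro w hw
    induction hw using Submodule.smul_induction_on' with
    | smul a ha y _ =>
      rw [← TensorProduct.smul_tmul, Algebra.smul_def]
      have : algebraMap 𝒪 (ResidueField 𝒪) a = 0 := (residue_eq_zero_iff a).2 ha
      rw [this, zero_mul, TensorProduct.zero_tmul]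
    | add y _ z _ hy hz => rw [TensorProduct.tmul_add, hy, hz, add_zero]
  exact key _ (hf v)

/-- The characteristic polynomial of an endomorphism with image in `𝔪 L` is a power of `X`
modulo `𝔪`. -/
theorem charpoly_map_residue (f : Module.End 𝒪 L)
    (hf : ∀ v : L, f v ∈ (maximalIdeal 𝒪 • ⊤ : Submodule 𝒪 L)) :
    ∃ d : ℕ, f.charpoly.map (residue 𝒪) = X ^ d := by
  refine ⟨Module.finrank (ResidueField 𝒪) (ResidueField 𝒪 ⊗[𝒪] L), ?_⟩
  have h1 := LinearMap.charpoly_baseChange (A := ResidueField 𝒪) f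
  rw [baseChange_residue_eq_zero f hf, LinearMap.charpoly_zero] at h1
  exact h1.symm

end Charpoly

section Point

variable {𝒪 : Type} [CommRing 𝒪] [IsLocalRing 𝒪]
  {L : Type} [AddCommGroup L] [Module 𝒪 L] [Module.Finite 𝒪 L] [Module.Free 𝒪 L]
  {𝕋 : Type} [CommRing 𝕋] [Algebra 𝒪 𝕋]
  (ρ : 𝕋 →ₐ[𝒪] Module.End 𝒪 L)
  {𝒪' : Type} [CommRing 𝒪'] [IsLocalRing 𝒪'] [Algebra 𝒪 𝒪'] [IsLocalHom (algebraMap 𝒪 𝒪')]
  (x : 𝕋 →ₐ[𝒪] 𝒪')

/-- A point which kills `ker ρ` maps every `s` with `ρ s L ⊆ 𝔪 L` into the maximal ideal. -/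
theorem point_mem_of_range_le (hx : ∀ s : 𝕋, ρ s = 0 → x s = 0) (s : 𝕋)
    (hs : ∀ v : L, ρ s v ∈ (maximalIdeal 𝒪 • ⊤ : Submodule 𝒪 L)) :
    x s ∈ maximalIdeal 𝒪' := by
  obtain ⟨d, hd⟩ := charpoly_map_residue (ρ s) hs
  have h1 : ρ (aeval s (ρ s).charpoly) = 0 := by
    rw [← Polynomial.aeval_algHom_apply]
    exact LinearMap.aeval_self_charpoly (ρ s)
  have h2 : aeval (x s) (ρ s).charpoly = 0 := by
    rw [Polynomial.aeval_algHom_apply]
    exact hx _ h1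
  have h3 : residue 𝒪' (aeval (x s) (ρ s).charpoly) = 0 := by rw [h2, map_zero]
  rw [Polynomial.aeval_def, Polynomial.hom_eval₂] at h3
  have h4 : (residue 𝒪').comp (algebraMap 𝒪 𝒪') =
      (ResidueField.map (algebraMap 𝒪 𝒪')).comp (residue 𝒪) := rfl
  rw [h4, ← Polynomial.eval₂_map, hd, Polynomial.eval₂_X_pow] at h3
  have h5 : residue 𝒪' (x s) = 0 := IsNilpotent.eq_zero ⟨d, h3⟩
  exact (residue_eq_zero_iff _).1 h5

/-- If `ρ t - a` is topologically nilpotent on `L` (pointwise), then `x t ≡ a`. -/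
theorem point_sub_mem_of_nilp (hx : ∀ s : 𝕋, ρ s = 0 → x s = 0) (t : 𝕋) (a : 𝒪)
    (ht : ∀ v : L, ∃ n : ℕ,
      ((ρ t - algebraMap 𝒪 (Module.End 𝒪 L) a) ^ n) v ∈ (maximalIdeal 𝒪 • ⊤ : Submodule 𝒪 L)) :
    x t - algebraMap 𝒪 𝒪' a ∈ maximalIdeal 𝒪' := by
  classical
  set f : Module.End 𝒪 L := ρ t - algebraMap 𝒪 (Module.End 𝒪 L) a with hf
  -- `𝔪 L` is stable under endomorphisms
  have hstab : ∀ (g : Module.End 𝒪 L) (w : L), w ∈ (maximalIdeal 𝒪 • ⊤ : Submodule 𝒪 L) →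
      g w ∈ (maximalIdeal 𝒪 • ⊤ : Submodule 𝒪 L) := by
    intro g w hw
    induction hw using Submodule.smul_induction_on' with
    | smul c hc y _ =>
      rw [map_smul]
      exact Submodule.smul_mem_smul hc Submodule.mem_top
    | add y _ z _ hy hz =>
      rw [map_add]
      exact Submodule.add_mem _ hy hz
  have hmono : ∀ (v : L) (n m : ℕ), n ≤ m → (f ^ n) v ∈ (maximalIdeal 𝒪 • ⊤ : Submodule 𝒪 L) →
      (f ^ m) v ∈ (maximalIdeal 𝒪 • ⊤ : Submodule 𝒪 L) := by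
    intro v n m hnm hv
    obtain ⟨k, rfl⟩ := Nat.exists_eq_add_of_le hnm
    rw [add_comm, pow_add, Module.End.mul_apply]
    exact hstab _ _ hv
  -- a uniform exponent
  obtain ⟨G, hG⟩ := (Module.Finite.fg_top : (⊤ : Submodule 𝒪 L).FG)
  choose nv hnv using ht
  set n : ℕ := G.sup nv with hn
  have hall : ∀ v : L, (f ^ n) v ∈ (maximalIdeal 𝒪 • ⊤ : Submodule 𝒪 L) := by
    intro v
    have hv : v ∈ Submodule.span 𝒪 (G : Set L) := by rw [hG]; exact Submodule.mem_top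
    induction hv using Submodule.span_induction with
    | mem y hy => exact hmono y (nv y) n (Finset.le_sup (Finset.mem_coe.1 hy)) (hnv y)
    | zero => rw [map_zero]; exact Submodule.zero_mem _
    | add y z _ _ hy hz => rw [map_add]; exact Submodule.add_mem _ hy hz
    | smul c y _ hy => rw [map_smul]; exact Submodule.smul_mem _ _ hy
  have hρ : ρ ((t - algebraMap 𝒪 𝕋 a) ^ n) = f ^ n := by
    rw [map_pow, map_sub, AlgHom.commutes]
  have h1 : x ((t - algebraMap 𝒪 𝕋 a) ^ n) ∈ maximalIdeal 𝒪' :=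
    point_mem_of_range_le ρ x hx _ (fun v => by rw [hρ]; exact hall v)
  rw [map_pow, map_sub, AlgHom.commutes] at h1
  exact (maximalIdeal.isMaximal 𝒪').isPrime.mem_of_pow_mem n h1

end Point

section Exists

variable (𝒪 : Type) [CommRing 𝒪] [IsDomain 𝒪] [IsDiscreteValuationRing 𝒪]
  [IsAdicComplete (maximalIdeal 𝒪) 𝒪] [Finite (ResidueField 𝒪)] [CharZero 𝒪]
  {L : Type} [AddCommGroup L] [Module 𝒪 L] [Module.Finite 𝒪 L] [Module.Free 𝒪 L]
  {𝕋 : Type} [CommRing 𝕋] [Algebra 𝒪 𝕋] [Module.Finite 𝒪 𝕋]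
  (ρ : 𝕋 →ₐ[𝒪] Module.End 𝒪 L)

/-- **Existence of a point**: if `ρ u` is not surjective, there is a point `x` of `𝕋` in a
complete discrete valuation ring `𝒪'`, finite over `𝒪`, which kills `ker ρ` and maps `u` into
the maximal ideal. -/
theorem exists_point_of_not_surjective (u : 𝕋) (hu : ¬ Function.Surjective (ρ u)) :
    ∃ (𝒪' : Type) (_ : CommRing 𝒪') (_ : IsDomain 𝒪') (_ : IsDiscreteValuationRing 𝒪')
      (_ : IsAdicComplete (maximalIdeal 𝒪') 𝒪') (_ : Finite (ResidueField 𝒪'))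
      (_ : CharZero 𝒪') (_ : Algebra 𝒪 𝒪') (_ : IsLocalHom (algebraMap 𝒪 𝒪'))
      (x : 𝕋 →ₐ[𝒪] 𝒪'),
      x u ∈ maximalIdeal 𝒪' ∧ ∀ s : 𝕋, ρ s = 0 → x s = 0 := by
  classical
  set I : Ideal 𝕋 := RingHom.ker (ρ : 𝕋 →+* Module.End 𝒪 L) with hI
  have hmemI : ∀ s : 𝕋, s ∈ I ↔ ρ s = 0 := fun s => RingHom.mem_ker
  -- `u` is not a unit modulo `I`
  have hnu : Ideal.Quotient.mk I u ∈ nonunits (𝕋 ⧸ I) := by
    intro h
    obtain ⟨w, hw⟩ := h.exists_right_inv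
    obtain ⟨w', rfl⟩ := Ideal.Quotient.mk_surjective w
    rw [← map_mul, ← map_one (Ideal.Quotient.mk I), Ideal.Quotient.eq, hmemI, map_sub, map_mul,
      map_one, sub_eq_zero] at hw
    apply hu
    intro v
    refine ⟨ρ w' v, ?_⟩
    rw [← Module.End.mul_apply, hw, Module.End.one_apply]
  obtain ⟨𝔫, h𝔫max, hu𝔫⟩ := exists_max_ideal_of_mem_nonunits hnu
  obtain ⟨𝔮, h𝔮min, h𝔮le⟩ := Ideal.exists_minimalPrimes_le (bot_le : (⊥ : Ideal (𝕋 ⧸ I)) ≤ 𝔫)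
  haveI h𝔮prime : 𝔮.IsPrime := h𝔮min.1.1
  -- `𝒪` injects into `(𝕋 ⧸ I) ⧸ 𝔮`
  have hinj : Function.Injective (algebraMap 𝒪 ((𝕋 ⧸ I) ⧸ 𝔮)) := by
    rw [injective_iff_map_eq_zero]
    intro a ha
    by_contra ha0
    have hnzd : algebraMap 𝒪 (𝕋 ⧸ I) a ∈ nonZeroDivisors (𝕋 ⧸ I) := by
      rw [mem_nonZeroDivisors_iff_right]
      intro y hy
      obtain ⟨t, rfl⟩ := Ideal.Quotient.mk_surjective y
      have e : algebraMap 𝒪 (𝕋 ⧸ I) a = Ideal.Quotient.mk I (algebraMap 𝒪 𝕋 a) := rfl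
      rw [e, ← map_mul, Ideal.Quotient.eq_zero_iff_mem, hmemI, map_mul, AlgHom.commutes] at hy
      rw [Ideal.Quotient.eq_zero_iff_mem, hmemI]
      ext v
      have h1 := congrArg (fun g : Module.End 𝒪 L => g v) hy
      simp only [Module.End.mul_apply, Module.algebraMap_end_apply, LinearMap.zero_apply,
        map_smul] at h1
      rw [LinearMap.zero_apply]
      exact (smul_eq_zero.mp h1).resolve_left ha0
    have hmem : algebraMap 𝒪 (𝕋 ⧸ I) a ∈ 𝔮 := by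
      rw [← Ideal.Quotient.eq_zero_iff_mem]
      exact ha
    exact Set.disjoint_left.1 (Ideal.disjoint_nonZeroDivisors_of_mem_minimalPrimes h𝔮min)
      hmem hnzd
  haveI : FaithfulSMul 𝒪 ((𝕋 ⧸ I) ⧸ 𝔮) :=
    (faithfulSMul_iff_algebraMap_injective 𝒪 ((𝕋 ⧸ I) ⧸ 𝔮)).2 hinj
  haveI : Module.Finite 𝒪 ((𝕋 ⧸ I) ⧸ 𝔮) :=
    Module.Finite.of_surjective
      (((Ideal.Quotient.mkₐ 𝒪 𝔮).comp (Ideal.Quotient.mkₐ 𝒪 I)).toLinearMap)
      ((Ideal.Quotient.mkₐ_surjective 𝒪 𝔮).comp (Ideal.Quotient.mkₐ_surjective 𝒪 I))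
  obtain ⟨𝒪', iCR, iD, iDVR, iAC, iFin, iCZ, iAlg, iMF, iLH, j, -, -, hjO, hjmax⟩ :=
    Fermat.Agent.R.H2.exists_dvr_of_finite_domain 𝒪 ((𝕋 ⧸ I) ⧸ 𝔮)
  let x₀ : 𝕋 →+* 𝒪' := (j.comp (Ideal.Quotient.mk 𝔮)).comp (Ideal.Quotient.mk I)
  let x : 𝕋 →ₐ[𝒪] 𝒪' :=
    { x₀ with
      commutes' := fun a => by
        show j (Ideal.Quotient.mk 𝔮 (Ideal.Quotient.mk I (algebraMap 𝒪 𝕋 a))) = _
        exact hjO a }
  refine ⟨𝒪', iCR, iD, iDVR, iAC, iFin, iCZ, iAlg, iLH, x, ?_, ?_⟩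
  · -- `u` is not a unit modulo `𝔮`
    have hnu' : Ideal.Quotient.mk 𝔮 (Ideal.Quotient.mk I u) ∈ nonunits ((𝕋 ⧸ I) ⧸ 𝔮) := by
      intro h
      obtain ⟨w, hw⟩ := h.exists_right_inv
      obtain ⟨w', rfl⟩ := Ideal.Quotient.mk_surjective w
      rw [← map_mul, ← map_one (Ideal.Quotient.mk 𝔮), Ideal.Quotient.eq] at hw
      have h1 : Ideal.Quotient.mk I u * w' - 1 ∈ 𝔫 := h𝔮le hw
      have h2 : (1 : 𝕋 ⧸ I) ∈ 𝔫 := by
        have := 𝔫.sub_mem (𝔫.mul_mem_right w' hu𝔫) h1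
        rwa [sub_sub_cancel] at this
      exact h𝔫max.ne_top ((Ideal.eq_top_iff_one 𝔫).2 h2)
    obtain ⟨𝔫', h𝔫'max, hu𝔫'⟩ := exists_max_ideal_of_mem_nonunits hnu'
    have := hjmax 𝔫' h𝔫'max
    rw [← this, Ideal.mem_comap] at hu𝔫'
    exact hu𝔫'
  · intro s hs
    show j (Ideal.Quotient.mk 𝔮 (Ideal.Quotient.mk I s)) = 0
    rw [Ideal.Quotient.eq_zero_iff_mem.2 ((hmemI s).2 hs), map_zero, map_zero]

end Exists

end Fermat.Agent.S59.CaseC.Geom.H7
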