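/-
S59, case C, package PGEOM, leaf P-ORD (helper7), part 3: lattices cut out by operators
(pure algebra, Mathlib only).

`cutLattice Us Fs ⊆ Λ`: the vectors killed by the operators `U ∈ Us` on which the operators
`F ∈ Fs` are topologically nilpotent.  It is stable under every endomorphism commuting with the
`U` and the `F` (`cutLattice_stable`), saturated (`cutLattice_saturated`), and the `F` are
topologically nilpotent on it as a module (`restrict_pow_mem`).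
-/
import Mathlib

set_option autoImplicit false
set_option linter.unusedSectionVars false

open IsLocalRing
open scoped Pointwise

namespace Fermat.Agent.S59.CaseC.Geom.H7

section Cut

variable {𝒪 : Type} [CommRing 𝒪] {Λ : Type} [AddCommGroup Λ] [Module 𝒪 Λ]

/-- `I Λ` is stable under endomorphisms. -/
theorem end_map_ideal_smul_top (I : Ideal 𝒪) (g : Module.End 𝒪 Λ) {w : Λ}
    (hw : w ∈ (I • ⊤ : Submodule 𝒪 Λ)) : g w ∈ (I • ⊤ : Submodule 𝒪 Λ) := by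
  induction hw using Submodule.smul_induction_on' with
  | smul c hc y _ =>
    rw [map_smul]
    exact Submodule.smul_mem_smul hc Submodule.mem_top
  | add y _ z _ hy hz =>
    rw [map_add]
    exact Submodule.add_mem _ hy hz

theorem pow_mem_of_le (I : Ideal 𝒪) (F : Module.End 𝒪 Λ) {c : Λ} {n n' : ℕ} (h : n ≤ n')
    (hc : (F ^ n) c ∈ (I • ⊤ : Submodule 𝒪 Λ)) : (F ^ n') c ∈ (I • ⊤ : Submodule 𝒪 Λ) := by
  obtain ⟨k, rfl⟩ := Nat.exists_eq_add_of_le h
  rw [add_comm, pow_add, Module.End.mul_apply]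
  exact end_map_ideal_smul_top I _ hc

variable [IsLocalRing 𝒪]

/-- The vectors killed by the `U ∈ Us` on which the `F ∈ Fs` are topologically nilpotent. -/
def cutLattice (Us Fs : Set (Module.End 𝒪 Λ)) : Submodule 𝒪 Λ where
  carrier := {c | (∀ U ∈ Us, U c = 0) ∧
    ∀ F ∈ Fs, ∀ m : ℕ, ∃ n : ℕ, (F ^ n) c ∈ ((maximalIdeal 𝒪 ^ m) • ⊤ : Submodule 𝒪 Λ)}
  zero_mem' := ⟨fun U _ => map_zero U, fun F _ m =>
    ⟨0, by rw [map_zero]; exact Submodule.zero_mem _⟩⟩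
  add_mem' := by
    rintro c c' ⟨h1, h2⟩ ⟨h1', h2'⟩
    refine ⟨fun U hU => by rw [map_add, h1 U hU, h1' U hU, add_zero], fun F hF m => ?_⟩
    obtain ⟨n, hn⟩ := h2 F hF m
    obtain ⟨n', hn'⟩ := h2' F hF m
    refine ⟨max n n', ?_⟩
    rw [map_add]
    exact Submodule.add_mem _ (pow_mem_of_le _ F (le_max_left _ _) hn)
      (pow_mem_of_le _ F (le_max_right _ _) hn')
  smul_mem' := by
    rintro a c ⟨h1, h2⟩
    refine ⟨fun U hU => by rw [map_smul, h1 U hU, smul_zero], fun F hF m => ?_⟩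
    obtain ⟨n, hn⟩ := h2 F hF m
    exact ⟨n, by rw [map_smul]; exact Submodule.smul_mem _ _ hn⟩

theorem mem_cutLattice {Us Fs : Set (Module.End 𝒪 Λ)} {c : Λ} :
    c ∈ cutLattice Us Fs ↔ (∀ U ∈ Us, U c = 0) ∧
      ∀ F ∈ Fs, ∀ m : ℕ, ∃ n : ℕ, (F ^ n) c ∈ ((maximalIdeal 𝒪 ^ m) • ⊤ : Submodule 𝒪 Λ) :=
  Iff.rfl

/-- The lattice is stable under the endomorphisms commuting with the operators. -/
theorem cutLattice_stable {Us Fs : Set (Module.End 𝒪 Λ)} (g : Module.End 𝒪 Λ)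
    (hU : ∀ U ∈ Us, Commute g U) (hF : ∀ F ∈ Fs, Commute g F) {c : Λ}
    (hc : c ∈ cutLattice Us Fs) : g c ∈ cutLattice Us Fs := by
  refine ⟨fun U hUm => ?_, fun F hFm m => ?_⟩
  · have h1 : U (g c) = g (U c) := by
      rw [← Module.End.mul_apply, ← Module.End.mul_apply, (hU U hUm).eq]
    rw [h1, hc.1 U hUm, map_zero]
  · obtain ⟨n, hn⟩ := hc.2 F hFm m
    refine ⟨n, ?_⟩
    have h1 : (F ^ n) (g c) = g ((F ^ n) c) := by
      rw [← Module.End.mul_apply, ← Module.End.mul_apply, ((hF F hFm).pow_right n).eq]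
    rw [h1]
    exact end_map_ideal_smul_top _ g hn

end Cut

section Sat

variable {𝒪 : Type} [CommRing 𝒪] [IsDomain 𝒪] [IsDiscreteValuationRing 𝒪]
  {Λ : Type} [AddCommGroup Λ] [Module 𝒪 Λ]

/-- `𝔪^m Λ = ϖ^m Λ`. -/
theorem mem_maximalIdeal_pow_smul_top {ϖ : 𝒪} (hϖ : Irreducible ϖ) (m : ℕ) (w : Λ) :
    w ∈ ((maximalIdeal 𝒪 ^ m) • ⊤ : Submodule 𝒪 Λ) ↔ ∃ y : Λ, w = ϖ ^ m • y := by
  rw [hϖ.maximalIdeal_eq, Ideal.span_singleton_pow, Submodule.ideal_span_singleton_smul]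
  constructor
  · intro h
    obtain ⟨y, -, hy⟩ := (Submodule.mem_smul_pointwise_iff_exists _ _ _).1 h
    exact ⟨y, hy.symm⟩
  · rintro ⟨y, rfl⟩
    exact Submodule.smul_mem_pointwise_smul _ _ _ Submodule.mem_top

theorem mem_maximalIdeal_smul_top {ϖ : 𝒪} (hϖ : Irreducible ϖ) (w : Λ) :
    w ∈ (maximalIdeal 𝒪 • ⊤ : Submodule 𝒪 Λ) ↔ ∃ y : Λ, w = ϖ • y := by
  have := mem_maximalIdeal_pow_smul_top (Λ := Λ) hϖ 1 w
  rwa [pow_one, pow_one] at this

variable (htf : ∀ (a : 𝒪) (w : Λ), a ≠ 0 → a • w = 0 → w = 0)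
include htf

/-- The lattice is saturated. -/
theorem cutLattice_saturated {Us Fs : Set (Module.End 𝒪 Λ)} {ϖ : 𝒪} (hϖ : Irreducible ϖ)
    {c : Λ} (hc : ϖ • c ∈ cutLattice Us Fs) : c ∈ cutLattice Us Fs := by
  refine ⟨fun U hU => ?_, fun F hF m => ?_⟩
  · have h1 := hc.1 U hU
    rw [map_smul] at h1
    exact htf ϖ _ hϖ.ne_zero h1
  · obtain ⟨n, hn⟩ := hc.2 F hF (m + 1)
    refine ⟨n, ?_⟩
    rw [map_smul, mem_maximalIdeal_pow_smul_top hϖ] at hn
    obtain ⟨y, hy⟩ := hn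
    rw [mem_maximalIdeal_pow_smul_top hϖ]
    refine ⟨y, ?_⟩
    have h2 : ϖ • ((F ^ n) c - ϖ ^ m • y) = 0 := by
      rw [smul_sub, hy, smul_smul, ← pow_succ', sub_self]
    exact sub_eq_zero.1 (htf ϖ _ hϖ.ne_zero h2)

/-- In a saturated submodule `L ⊆ Λ`, `L ∩ 𝔪 Λ = 𝔪 L`. -/
theorem mem_smul_top_of_saturated {ϖ : 𝒪} (hϖ : Irreducible ϖ) (L : Submodule 𝒪 Λ)
    (hL : ∀ c : Λ, ϖ • c ∈ L → c ∈ L) (v : L)
    (hv : (v : Λ) ∈ (maximalIdeal 𝒪 • ⊤ : Submodule 𝒪 Λ)) :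
    v ∈ (maximalIdeal 𝒪 • ⊤ : Submodule 𝒪 L) := by
  rw [mem_maximalIdeal_smul_top hϖ] at hv ⊢
  obtain ⟨y, hy⟩ := hv
  have hyL : y ∈ L := hL y (by rw [← hy]; exact v.2)
  exact ⟨⟨y, hyL⟩, Subtype.ext hy⟩

end Sat

section Restrict

variable {𝒪 : Type} [CommRing 𝒪] {Λ : Type} [AddCommGroup Λ] [Module 𝒪 Λ]
  {R : Type} [CommRing R] (MO : R →+* Module.End 𝒪 Λ) (L : Submodule 𝒪 Λ)
  (hst : ∀ (t : R) (c : Λ), c ∈ L → MO t c ∈ L)

/-- The restriction to a stable submodule of an action of a ring. -/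
noncomputable def restrictHom : R →+* Module.End 𝒪 L where
  toFun t := (MO t).restrict (fun c hc => hst t c hc)
  map_one' := by
    ext v
    simp [LinearMap.restrict_apply]
  map_mul' s t := by
    ext v
    simp [LinearMap.restrict_apply]
  map_zero' := by
    ext v
    simp [LinearMap.restrict_apply]
  map_add' s t := by
    ext v
    simp [LinearMap.restrict_apply]

@[simp] theorem restrictHom_coe (t : R) (v : L) :
    ((restrictHom MO L hst t v : L) : Λ) = MO t (v : Λ) := rfl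

/-- Powers of `ρ t - a` on `L` and on `Λ`. -/
theorem restrictHom_sub_pow_coe (t : R) (a : 𝒪) (n : ℕ) (v : L) :
    ((((restrictHom MO L hst t - algebraMap 𝒪 (Module.End 𝒪 L) a) ^ n) v : L) : Λ) =
      ((MO t - algebraMap 𝒪 (Module.End 𝒪 Λ) a) ^ n) (v : Λ) := by
  induction n generalizing v with
  | zero => simp
  | succ n ih =>
    rw [pow_succ, pow_succ, Module.End.mul_apply, Module.End.mul_apply, ih]
    congr 1

end Restrict

end Fermat.Agent.S59.CaseC.Geom.H7
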