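/-
S59, case C, package PGEOM, leaf P-ORD (helper7), part 4: the Betti lattice in coordinates.

In a universal basis `b` of the parabolic homomorphisms (`Betti.stmt_basis`) the parabolic
homomorphisms `Γ₀(N) → 𝒪` are `𝒪^r` (`coord`), the Hecke algebra away from `∅` acts through the
integer matrices of `Betti.H76.stmt_matrixRep` (`matEnd`), and the Betti lattice `InBetti` is a
`cutLattice` (`inBetti_coord_iff`).
-/
import Mathlib
import Fermat.Agent.Betti.Basis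
import Fermat.Agent.Betti.H76_MatrixRep
import Fermat.Agent.S59.NonMin.Geom.Defs
import Fermat.Agent.S59.CaseC.Geom.H7_POrdCut

set_option autoImplicit false
set_option linter.unusedSectionVars false

open CongruenceSubgroup ModularCurve ModularCurve.Period IsLocalRing
open scoped MatrixGroups

namespace Fermat.Agent.S59.CaseC.Geom.H7

open Fermat.Agent.Betti Fermat.Agent.S59.NonMin.Geom

section Coord

variable {N : ℕ} (𝒪 : Type) [CommRing 𝒪] {r : ℕ} (b : Fin r → (Additive (Gamma0 N) →+ ℤ))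

/-- Change of coefficients `ℤ → 𝒪`. -/
noncomputable def castO (β : Additive (Gamma0 N) →+ ℤ) : Additive (Gamma0 N) →+ 𝒪 :=
  (Int.castAddHom 𝒪).comp β

@[simp] theorem castO_apply (β : Additive (Gamma0 N) →+ ℤ) (γ : Additive (Gamma0 N)) :
    castO 𝒪 β γ = ((β γ : ℤ) : 𝒪) := rfl

theorem castO_sum_smul (m : Fin r → ℤ) :
    castO 𝒪 (∑ i, m i • b i) = ∑ i, (m i : 𝒪) • castO 𝒪 (b i) := by
  refine AddMonoidHom.ext fun γ => ?_
  simp [castO]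

/-- The coordinate map `𝒪^r → Hom(Γ₀(N), 𝒪)`, `a ↦ ∑ a_i b_i`. -/
noncomputable def coord : (Fin r → 𝒪) →ₗ[𝒪] (Additive (Gamma0 N) →+ 𝒪) where
  toFun a := ∑ i, a i • castO 𝒪 (b i)
  map_add' a a' := by
    simp only [Pi.add_apply, add_smul, Finset.sum_add_distrib]
  map_smul' c a := by
    simp only [Pi.smul_apply, smul_eq_mul, RingHom.id_apply, Finset.smul_sum, smul_smul]

theorem coord_def (a : Fin r → 𝒪) : coord 𝒪 b a = ∑ i, a i • castO 𝒪 (b i) := rfl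

theorem coord_apply (a : Fin r → 𝒪) (γ : Additive (Gamma0 N)) :
    coord 𝒪 b a γ = ∑ i, a i * ((b i γ : ℤ) : 𝒪) := by
  simp [coord_def]

theorem TB_smulO {p : ℕ} (hp : p.Prime) (hpN : ¬ p ∣ N) (c : 𝒪)
    (φ : Additive (Gamma0 N) →+ 𝒪) : TB N 𝒪 hp hpN (c • φ) = c • TB N 𝒪 hp hpN φ := by
  have : Fact p.Prime := ⟨hp⟩
  exact ((isHeckeFamily_T N hpN).heckeOpLin (incl_injective N) 𝒪).map_smul c φ

theorem UB_smulO [NeZero N] {p : ℕ} (hpN : p ∣ N) (c : 𝒪) (φ : Additive (Gamma0 N) →+ 𝒪) :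
    UB N 𝒪 hpN (c • φ) = c • UB N 𝒪 hpN φ := by
  have : NeZero p := neZero_of_dvd hpN
  exact ((isHeckeFamily_U N hpN).heckeOpLin (incl_injective N) 𝒪).map_smul c φ

theorem TB_castO {p : ℕ} (hp : p.Prime) (hpN : ¬ p ∣ N) (β : Additive (Gamma0 N) →+ ℤ) :
    TB N 𝒪 hp hpN (castO 𝒪 β) = castO 𝒪 (TB N ℤ hp hpN β) := by
  have : Fact p.Prime := ⟨hp⟩
  exact (isHeckeFamily_T N hpN).heckeOp_comp (incl_injective N) (Int.castAddHom 𝒪) β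

theorem UB_castO [NeZero N] {p : ℕ} (hpN : p ∣ N) (β : Additive (Gamma0 N) →+ ℤ) :
    UB N 𝒪 hpN (castO 𝒪 β) = castO 𝒪 (UB N ℤ hpN β) := by
  have : NeZero p := neZero_of_dvd hpN
  exact (isHeckeFamily_U N hpN).heckeOp_comp (incl_injective N) (Int.castAddHom 𝒪) β

/-- An `𝒪`-linear operator which acts on the basis by the integer matrix `m` acts on the
coordinates by `m`. -/
theorem op_coord (T : (Additive (Gamma0 N) →+ 𝒪) →+ (Additive (Gamma0 N) →+ 𝒪))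
    (hT : ∀ (c : 𝒪) φ, T (c • φ) = c • T φ) (m : Matrix (Fin r) (Fin r) ℤ)
    (hm : ∀ j, T (castO 𝒪 (b j)) = ∑ i, (m i j : 𝒪) • castO 𝒪 (b i)) (a : Fin r → 𝒪) :
    T (coord 𝒪 b a) = coord 𝒪 b ((m.map (Int.cast : ℤ → 𝒪)).mulVec a) := by
  rw [coord_def, coord_def, map_sum]
  simp only [hT, hm, Finset.smul_sum, smul_smul]
  rw [Finset.sum_comm]
  refine Finset.sum_congr rfl fun i _ => ?_
  rw [← Finset.sum_smul]
  congr 1
  simp only [Matrix.mulVec, dotProduct, Matrix.map_apply]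
  exact Finset.sum_congr rfl fun j _ => mul_comm _ _

end Coord

section MatEnd

variable (𝒪 : Type) [CommRing 𝒪] {r : ℕ} {R : Type} [CommRing R]

/-- The action on `𝒪^r` of a ring of integer matrices. -/
noncomputable def matEnd (M : R →+* Matrix (Fin r) (Fin r) ℤ) :
    R →+* Module.End 𝒪 (Fin r → 𝒪) :=
  ((Matrix.toLinAlgEquiv' : Matrix (Fin r) (Fin r) 𝒪 ≃ₐ[𝒪] Module.End 𝒪 (Fin r → 𝒪))
      : Matrix (Fin r) (Fin r) 𝒪 →+* Module.End 𝒪 (Fin r → 𝒪)).comp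
    ((Int.castRingHom 𝒪).mapMatrix.comp M)

theorem matEnd_apply (M : R →+* Matrix (Fin r) (Fin r) ℤ) (t : R) (a : Fin r → 𝒪) :
    matEnd 𝒪 M t a = ((M t).map (Int.cast : ℤ → 𝒪)).mulVec a := rfl

theorem matEnd_commute (M : R →+* Matrix (Fin r) (Fin r) ℤ) (s t : R) :
    Commute (matEnd 𝒪 M s) (matEnd 𝒪 M t) := by
  show matEnd 𝒪 M s * matEnd 𝒪 M t = matEnd 𝒪 M t * matEnd 𝒪 M s
  rw [← map_mul, ← map_mul, mul_comm]

end MatEnd

section Basis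

variable {N : ℕ} [NeZero N] (𝒪 : Type) [CommRing 𝒪] [IsDomain 𝒪] [CharZero 𝒪] {r : ℕ}
  {b : Fin r → (Additive (Gamma0 N) →+ ℤ)} (hb : IsParBasis N b)
include hb

theorem coord_isParabolicHom (a : Fin r → 𝒪) : IsParabolicHom (Gamma0 N) (coord 𝒪 b a) := by
  intro γ hγ
  rw [coord_apply]
  refine Finset.sum_eq_zero fun i _ => ?_
  rw [hb.1 i γ hγ, Int.cast_zero, mul_zero]

theorem coord_injective : Function.Injective (coord 𝒪 b) := by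
  intro a a' h
  obtain ⟨c, -, hc⟩ := hb.2 𝒪 (coord 𝒪 b a) (coord_isParabolicHom 𝒪 hb a)
  have h1 : a = c := hc a fun γ => by
    rw [coord_apply]
    exact Finset.sum_congr rfl fun i _ => by rw [zsmul_eq_mul, mul_comm]
  have h2 : a' = c := hc a' fun γ => by
    rw [h, coord_apply]
    exact Finset.sum_congr rfl fun i _ => by rw [zsmul_eq_mul, mul_comm]
  rw [h1, h2]

theorem exists_coord (φ : Additive (Gamma0 N) →+ 𝒪) (hφ : IsParabolicHom (Gamma0 N) φ) :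
    ∃ a : Fin r → 𝒪, coord 𝒪 b a = φ := by
  obtain ⟨c, hc, -⟩ := hb.2 𝒪 φ hφ
  refine ⟨c, AddMonoidHom.ext fun γ => ?_⟩
  rw [coord_apply, hc γ]
  exact Finset.sum_congr rfl fun i _ => by rw [zsmul_eq_mul, mul_comm]

/-- Divisibility of the values and of the coordinates. -/
theorem coord_dvd_iff (ϖ : 𝒪) (hϖ : ϖ ≠ 0) (c : Fin r → 𝒪) :
    (∀ γ, ϖ ∣ coord 𝒪 b c γ) ↔ ∃ y : Fin r → 𝒪, c = ϖ • y := by
  constructor
  · intro h
    choose y hy using h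
    have hadd : ∀ γ δ, y (γ + δ) = y γ + y δ := by
      intro γ δ
      apply mul_left_cancel₀ hϖ
      rw [mul_add, ← hy, ← hy, ← hy, map_add]
    let ψ : Additive (Gamma0 N) →+ 𝒪 := AddMonoidHom.mk' y hadd
    have hψ : IsParabolicHom (Gamma0 N) ψ := by
      intro γ hγ
      have h1 := hy (Additive.ofMul γ)
      rw [coord_isParabolicHom 𝒪 hb c γ hγ] at h1
      exact (mul_eq_zero.1 h1.symm).resolve_left hϖ
    obtain ⟨c', hc'⟩ := exists_coord 𝒪 hb ψ hψ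
    refine ⟨c', coord_injective 𝒪 hb ?_⟩
    rw [map_smul, hc']
    refine AddMonoidHom.ext fun γ => ?_
    rw [hy γ]
    rfl
  · rintro ⟨y, rfl⟩ γ
    rw [map_smul]
    exact ⟨coord 𝒪 b y γ, rfl⟩

end Basis

section Lattice

variable {N : ℕ} [NeZero N] (𝒪 : Type) [CommRing 𝒪] [IsDomain 𝒪] [IsDiscreteValuationRing 𝒪]
  [CharZero 𝒪] {r : ℕ} {b : Fin r → (Additive (Gamma0 N) →+ ℤ)} (hb : IsParBasis N b)
  (M : CuspForm.heckeAlgebra N 2 (∅ : Set ℕ) →+* Matrix (Fin r) (Fin r) ℤ)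
  (hMT : ∀ (ℓ : ℕ) (hℓ : ℓ.Prime) (hℓN : ¬ ℓ ∣ N) (hℓS : ℓ ∉ (∅ : Set ℕ)) (j : Fin r),
    TB N ℤ hℓ hℓN (b j) = ∑ i, M (CuspForm.heckeAlgebra.T hℓ hℓN hℓS) i j • b i)
  (hMU : ∀ (q : ℕ) (hq : q.Prime) (hqN : q ∣ N) (hqS : q ∉ (∅ : Set ℕ)) (j : Fin r),
    UB N ℤ hqN (b j) = ∑ i, M (CuspForm.heckeAlgebra.U hq hqN hqS) i j • b i)

include hMT in
theorem TB_coord {ℓ : ℕ} (hℓ : ℓ.Prime) (hℓN : ¬ ℓ ∣ N) (a : Fin r → 𝒪) :
    TB N 𝒪 hℓ hℓN (coord 𝒪 b a) =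
      coord 𝒪 b (matEnd 𝒪 M (CuspForm.heckeAlgebra.T hℓ hℓN (Set.notMem_empty ℓ)) a) :=
  op_coord 𝒪 b (TB N 𝒪 hℓ hℓN) (TB_smulO 𝒪 hℓ hℓN) _
    (fun j => by rw [TB_castO, hMT ℓ hℓ hℓN (Set.notMem_empty ℓ) j, castO_sum_smul]) a

include hMU in
theorem UB_coord {q : ℕ} (hq : q.Prime) (hqN : q ∣ N) (a : Fin r → 𝒪) :
    UB N 𝒪 hqN (coord 𝒪 b a) =
      coord 𝒪 b (matEnd 𝒪 M (CuspForm.heckeAlgebra.U hq hqN (Set.notMem_empty q)) a) :=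
  op_coord 𝒪 b (UB N 𝒪 hqN) (UB_smulO 𝒪 hqN) _
    (fun j => by rw [UB_castO, hMU q hq hqN (Set.notMem_empty q) j, castO_sum_smul]) a

include hMT in
theorem iterate_coord {ℓ : ℕ} (hℓ : ℓ.Prime) (hℓN : ¬ ℓ ∣ N) (a : 𝒪) (n : ℕ)
    (c : Fin r → 𝒪) :
    ((fun χ : Additive (Gamma0 N) →+ 𝒪 => TB N 𝒪 hℓ hℓN χ - a • χ)^[n] (coord 𝒪 b c)) =
      coord 𝒪 b (((matEnd 𝒪 M (CuspForm.heckeAlgebra.T hℓ hℓN (Set.notMem_empty ℓ)) -
        algebraMap 𝒪 (Module.End 𝒪 (Fin r → 𝒪)) a) ^ n) c) := by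
  induction n with
  | zero => simp
  | succ n ih =>
    rw [Function.iterate_succ_apply', ih, TB_coord 𝒪 M hMT hℓ hℓN, pow_succ',
      Module.End.mul_apply, LinearMap.sub_apply, Module.algebraMap_end_apply, map_sub, map_smul]

/-- The operators `U_q`, `q ∈ Sig`, in coordinates. -/
def cutUs (Sig : Finset ℕ) : Set (Module.End 𝒪 (Fin r → 𝒪)) :=
  {U | ∃ (q : ℕ) (hq : q.Prime) (hqN : q ∣ N), q ∈ Sig ∧
    U = matEnd 𝒪 M (CuspForm.heckeAlgebra.U hq hqN (Set.notMem_empty q))}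

/-- The operators `T_ℓ - a`, `a` a lift of `θ(T_ℓ)`, in coordinates. -/
def cutFs (S : Set ℕ) (θ : CuspForm.heckeAlgebra N 2 S →+* ResidueField 𝒪) :
    Set (Module.End 𝒪 (Fin r → 𝒪)) :=
  {F | ∃ (ℓ : ℕ) (hℓ : ℓ.Prime) (hℓN : ¬ ℓ ∣ N) (hℓS : ℓ ∉ S) (a : 𝒪),
    residue 𝒪 a = θ (CuspForm.heckeAlgebra.T hℓ hℓN hℓS) ∧
    F = matEnd 𝒪 M (CuspForm.heckeAlgebra.T hℓ hℓN (Set.notMem_empty ℓ)) -
      algebraMap 𝒪 (Module.End 𝒪 (Fin r → 𝒪)) a}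

include hb in
/-- The values of `coord c` lie in `𝔪^m` iff the coordinates do. -/
theorem coord_mem_pow_iff (m : ℕ) (c : Fin r → 𝒪) :
    (∀ γ, coord 𝒪 b c γ ∈ maximalIdeal 𝒪 ^ m) ↔
      c ∈ ((maximalIdeal 𝒪 ^ m) • ⊤ : Submodule 𝒪 (Fin r → 𝒪)) := by
  obtain ⟨ϖ, hϖ⟩ := IsDiscreteValuationRing.exists_irreducible 𝒪
  rw [mem_maximalIdeal_pow_smul_top hϖ, ← coord_dvd_iff 𝒪 hb (ϖ ^ m) (pow_ne_zero m hϖ.ne_zero)]
  refine forall_congr' fun γ => ?_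
  rw [hϖ.maximalIdeal_eq, Ideal.span_singleton_pow, Ideal.mem_span_singleton]

include hb hMT hMU in
/-- **The Betti lattice in coordinates.** -/
theorem inBetti_coord_iff (S : Set ℕ) (θ : CuspForm.heckeAlgebra N 2 S →+* ResidueField 𝒪)
    (Sig : Finset ℕ) (hSig : ∀ q ∈ Sig, q.Prime) (c : Fin r → 𝒪) :
    InBetti 𝒪 N S θ Sig (coord 𝒪 b c) ↔ c ∈ cutLattice (cutUs 𝒪 M Sig) (cutFs 𝒪 M S θ) := by
  constructor
  · rintro ⟨-, hU, hF⟩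
    refine ⟨?_, ?_⟩
    · rintro U ⟨q, hq, hqN, hqSig, rfl⟩
      apply coord_injective 𝒪 hb
      rw [← UB_coord 𝒪 M hMU hq hqN, hU q hqSig hqN, map_zero]
    · rintro F ⟨ℓ, hℓ, hℓN, hℓS, a, ha, rfl⟩ m
      obtain ⟨n, hn⟩ := hF ℓ hℓ hℓN hℓS a ha m
      refine ⟨n, ?_⟩
      rw [← coord_mem_pow_iff 𝒪 hb]
      intro γ
      rw [← iterate_coord 𝒪 M hMT hℓ hℓN a n c]
      exact hn γ
  · rintro ⟨hU, hF⟩
    refine ⟨coord_isParabolicHom 𝒪 hb c, ?_, ?_⟩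
    · intro q hqSig hqN
      rw [UB_coord 𝒪 M hMU (hSig q hqSig) hqN, hU _ ⟨q, hSig q hqSig, hqN, hqSig, rfl⟩, map_zero]
    · intro ℓ hℓ hℓN hℓS a ha m
      obtain ⟨n, hn⟩ := hF _ ⟨ℓ, hℓ, hℓN, hℓS, a, ha, rfl⟩ m
      refine ⟨n, fun γ => ?_⟩
      rw [iterate_coord 𝒪 M hMT hℓ hℓN a n c]
      exact (coord_mem_pow_iff 𝒪 hb m _).2 hn γ

end Lattice

end Fermat.Agent.S59.CaseC.Geom.H7
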