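/-
S59, case C, package PGEOM, leaf P-ORD (helper7), part 1: the Galois side.

`unit_Tp_of_lgc`: let `ρbar` be absolutely irreducible and ordinary at `p`, `p ∤ N`, and let
`xt` be a character of the Hecke algebra of level `N` away from `S ∖ {p}` (so `T_p` belongs to
it) with values in `𝒪` whose restriction to the Hecke algebra away from `S` lifts `θ`
(`FrobHyp ρbar N S θ`).  Then `xt(T_p)` is a unit of `𝒪`.

[`Datum.stmt_DATUM` gives the Hecke–Galois datum `H` over the full local Hecke ring; the point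
`ψ` of `xt|` (`Datum.H85.stmt_Ring`); `ρ := H.ρ ⊗_ψ 𝒪` is flat (`stmt_FlatPoint`), hence ordinary
(`S33.H86.stmt_FlatOrd`); `z` := the eigenvalue of a Frobenius element at `P ∣ p` on the
quotient by the ordinary line, a unit; `Stmt_LGCpt`: `z² - xt(T_p) z + p = 0`.]
-/
import Fermat.Agent.S59.CaseC.Geom.Defs
import Fermat.Agent.S59.NonMin.H7_CondOrdFinal
import Fermat.Agent.S59.Datum.Final
import Fermat.Agent.S59.Datum.H85_Ring
import Fermat.Agent.S56.H92_StableSO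
import Fermat.Agent.Lib.FrobExists

set_option autoImplicit false
set_option linter.style.haveILetI false

open Polynomial IsLocalRing CuspForm

namespace Fermat.Agent.S59.CaseC.Geom.H7

open Fermat.Agent.R Fermat.Agent.R.H86 Fermat.Agent.S59 Fermat.Agent.S59.Datum
  Fermat.Agent.S59.CaseC

/-- The Galois group of `ℚ`. -/
local notation "Γℚ" => AlgebraicClosure ℚ ≃ₐ[ℚ] AlgebraicClosure ℚ

/-! ## Ring homomorphisms out of a Hecke algebra -/

section Ext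

variable {N : ℕ} [NeZero N] {S : Set ℕ} {R : Type*} [Ring R]

/-- Two ring homomorphisms out of a Hecke algebra which agree on the generators are equal. -/
theorem heckeAlgebra_ringHom_ext (f g : CuspForm.heckeAlgebra N 2 S →+* R)
    (hT : ∀ (ℓ : ℕ) (hℓ : ℓ.Prime) (hℓN : ¬ ℓ ∣ N) (hℓS : ℓ ∉ S),
      f (CuspForm.heckeAlgebra.T hℓ hℓN hℓS) = g (CuspForm.heckeAlgebra.T hℓ hℓN hℓS))
    (hU : ∀ (q : ℕ) (hq : q.Prime) (hqN : q ∣ N) (hqS : q ∉ S),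
      f (CuspForm.heckeAlgebra.U hq hqN hqS) = g (CuspForm.heckeAlgebra.U hq hqN hqS)) :
    f = g := by
  refine RingHom.ext ?_
  rintro ⟨t, ht⟩
  induction ht using Algebra.adjoin_induction with
  | mem x hx =>
    rcases hx with ⟨ℓ, hℓ, hℓN, hℓS, rfl⟩ | ⟨q, hqN, hq, hqS, rfl⟩
    · exact hT ℓ hℓ hℓN hℓS
    · exact hU q hq hqN hqS
  | algebraMap r =>
    have : (⟨algebraMap ℤ _ r, Subalgebra.algebraMap_mem _ r⟩ : CuspForm.heckeAlgebra N 2 S) =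
        ((r : ℤ) : CuspForm.heckeAlgebra N 2 S) := by
      apply Subtype.ext
      simp
    rw [this, map_intCast, map_intCast]
  | add x y hx hy ihx ihy =>
    have : (⟨x + y, Subalgebra.add_mem _ hx hy⟩ : CuspForm.heckeAlgebra N 2 S) =
        (⟨x, hx⟩ : CuspForm.heckeAlgebra N 2 S) + ⟨y, hy⟩ := rfl
    rw [this, map_add, map_add, ihx, ihy]
  | mul x y hx hy ihx ihy =>
    have : (⟨x * y, Subalgebra.mul_mem _ hx hy⟩ : CuspForm.heckeAlgebra N 2 S) =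
        (⟨x, hx⟩ : CuspForm.heckeAlgebra N 2 S) * ⟨y, hy⟩ := rfl
    rw [this, map_mul, map_mul, ihx, ihy]

end Ext

section Incl

variable (N : ℕ) [NeZero N]

/-- The inclusion of the Hecke algebra away from `S'` into the Hecke algebra away from `S`,
for `S ⊆ S'`. -/
noncomputable def heckeIncl {S S' : Set ℕ} (h : S ⊆ S') :
    CuspForm.heckeAlgebra N 2 S' →+* CuspForm.heckeAlgebra N 2 S :=
  (Subalgebra.inclusion (CuspForm.heckeAlgebra_mono h)).toRingHom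

variable {N}

theorem heckeIncl_T {S S' : Set ℕ} (h : S ⊆ S') {ℓ : ℕ} (hℓ : ℓ.Prime) (hℓN : ¬ ℓ ∣ N)
    (hℓS' : ℓ ∉ S') (hℓS : ℓ ∉ S) :
    heckeIncl N h (CuspForm.heckeAlgebra.T hℓ hℓN hℓS') = CuspForm.heckeAlgebra.T hℓ hℓN hℓS :=
  rfl

theorem heckeIncl_U {S S' : Set ℕ} (h : S ⊆ S') {q : ℕ} (hq : q.Prime) (hqN : q ∣ N)
    (hqS' : q ∉ S') (hqS : q ∉ S) :
    heckeIncl N h (CuspForm.heckeAlgebra.U hq hqN hqS') = CuspForm.heckeAlgebra.U hq hqN hqS :=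
  rfl

end Incl

/-! ## The eigenvalue of Frobenius on the quotient by the ordinary line -/

section Line

variable {A : Type} [CommRing A] [IsLocalRing A] {ρ : GaloisRepAdic A}
  {P : ValuationSubring (AlgebraicClosure ℚ)}

/-- Every element of the decomposition group has an eigenvalue on the quotient by the ordinary
line, and it is a unit. -/
theorem exists_quotEigen (ℒ : OrdLine ρ P) (g : Γℚ) (hg : g ∈ P.decompositionSubgroup ℚ) :
    ∃ z : A, IsUnit z ∧ ℒ.IsQuotEigen g z := by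
  classical
  obtain ⟨b, hb⟩ := ℒ.isLine
  have hmem : ∀ v : ρ.V, v ∈ ℒ.L ↔ b.repr v 1 = 0 := by
    intro v
    rw [hb]
    exact mem_span_basis_zero_iff b v
  have hb0 : b 0 ∈ ℒ.L := by
    rw [hb]; exact Submodule.mem_span_singleton_self _
  -- the eigenvalue of `σ` on the quotient
  have key : ∀ σ ∈ P.decompositionSubgroup ℚ, ∀ v : ρ.V,
      b.repr (ρ.ρ σ v) 1 = b.repr (ρ.ρ σ (b 1)) 1 * b.repr v 1 := by
    intro σ hσ v
    have hv : v = b.repr v 0 • b 0 + b.repr v 1 • b 1 := by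
      conv_lhs => rw [← b.sum_repr v, Fin.sum_univ_two]
    have h0 : b.repr (ρ.ρ σ (b 0)) 1 = 0 := (hmem _).1 (ℒ.stable σ hσ _ hb0)
    conv_lhs => rw [hv]
    rw [map_add, map_smul, map_smul, map_add, map_smul, map_smul, Finsupp.add_apply,
      Finsupp.smul_apply, Finsupp.smul_apply, h0, smul_eq_mul, smul_eq_mul, mul_zero, zero_add,
      mul_comm]
  refine ⟨b.repr (ρ.ρ g (b 1)) 1, ?_, ?_⟩
  · have hginv : g⁻¹ ∈ P.decompositionSubgroup ℚ := inv_mem hg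
    have h1 := key g⁻¹ hginv (ρ.ρ g (b 1))
    have h2 : ρ.ρ g⁻¹ (ρ.ρ g (b 1)) = b 1 := by
      rw [← Module.End.mul_apply, ← map_mul, inv_mul_cancel, map_one, Module.End.one_apply]
    rw [h2, Module.Basis.repr_self, Finsupp.single_eq_same] at h1
    exact IsUnit.of_mul_eq_one _ (by rw [mul_comm]; exact h1.symm)
  · intro v
    rw [hmem, map_sub, map_smul, Finsupp.sub_apply, Finsupp.smul_apply, key g hg v, smul_eq_mul,
      sub_self]

end Line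

/-! ## The unit root -/

section Glue

variable {N : ℕ} [NeZero N] {S : Finset ℕ}
  {𝒪 : Type} [CommRing 𝒪] [IsDomain 𝒪] [IsDiscreteValuationRing 𝒪]
  [IsAdicComplete (IsLocalRing.maximalIdeal 𝒪) 𝒪]
  {θ : CuspForm.heckeAlgebra N 2 (↑S : Set ℕ) →+* IsLocalRing.ResidueField 𝒪}
  {T : Type} [CommRing T] [IsLocalRing T] [IsNoetherianRing T]
  [IsAdicComplete (IsLocalRing.maximalIdeal T) T] [Algebra 𝒪 T] [IsLocalHom (algebraMap 𝒪 T)]
  [Module.Finite 𝒪 T] [Module.Free 𝒪 T]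

/-- The unit root at a point of a Hecke–Galois datum of level prime to `p` with ordinary
residual representation. -/
theorem unit_Tp_of_point (hL : Stmt_LGCpt) [Finite (IsLocalRing.ResidueField 𝒪)] [CharZero 𝒪]
    (p : ℕ) [Fact p.Prime] (hp2 : p ≠ 2) (hp𝒪 : (p : 𝒪) ∈ IsLocalRing.maximalIdeal 𝒪)
    (hpS : p ∈ S) (hNS : ∀ q : ℕ, q.Prime → q ∣ N → q ∈ S)
    (hp : p.Prime) (hpN : ¬ p ∣ N) (hpS' : p ∉ (↑(S.erase p) : Set ℕ))
    (H : CuspForm.HeckeGaloisRepDatum N (↑S : Set ℕ) 𝒪 θ T)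
    (hcyc : H.ρ.DetIsCyclotomic p)
    (hres : (GaloisRepAdic.ofResidualGaloisRep H.ρ.residual).IsOrdinaryAt p)
    (ψ : T →+* 𝒪) (hψ : IsLocalHom ψ)
    (xt : CuspForm.heckeAlgebra N 2 (↑(S.erase p) : Set ℕ) →+* 𝒪)
    (hxt : ∀ (ℓ : ℕ) (hℓ : ℓ.Prime) (hℓN : ¬ ℓ ∣ N) (hℓS : ℓ ∉ (↑S : Set ℕ))
      (hℓS' : ℓ ∉ (↑(S.erase p) : Set ℕ)),
      xt (CuspForm.heckeAlgebra.T hℓ hℓN hℓS') = ψ (H.π (CuspForm.heckeAlgebra.T hℓ hℓN hℓS))) :
    IsUnit (xt (CuspForm.heckeAlgebra.T hp hpN hpS')) := by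
  classical
  -- the representation at the point
  have hfrob : HasFrobCharpoly (ψ.comp H.π) (H.ρ.baseChangeAlong ψ hψ) :=
    hasFrobCharpoly_baseChangeAlong ψ hψ H.π H.ρ (hasFrobCharpoly_datum H)
  have habs' : (H.ρ.baseChangeAlong ψ hψ).residual.IsAbsolutelyIrreducible :=
    residual_absIrr_baseChangeAlong ψ hψ H.ρ H.residual_absIrr
  have hdet : (H.ρ.baseChangeAlong ψ hψ).DetIsCyclotomic p :=
    Fermat.Agent.S56.H92.detIsCyclotomic_baseChangeAlong ψ hψ H.ρ p hcyc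
  have hflat : (H.ρ.baseChangeAlong ψ hψ).IsFlatAt p :=
    Fermat.Agent.S59.NonMin.H7.stmt_FlatPoint p N S 𝒪 hp hp2 hp𝒪 hpN hpS hNS (ψ.comp H.π) _
      hfrob habs'
  have hordρ : (H.ρ.baseChangeAlong ψ hψ).IsOrdinaryAt p := by
    refine Fermat.Agent.S33.H86.stmt_FlatOrd p hp hp2 𝒪 hp𝒪 _ hflat ?_
      (residual_isOrdinaryAt_baseChangeAlong ψ hψ H.ρ p hres)
    intro P hP
    exact exists_inertia_notMem Fermat.Agent.Lib.FrobDensity.stmt_FD H2.stmt_CycInertia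
      H2.stmt_FrobCyc hp hp2 hpS hNS hp𝒪 (ψ.comp H.π) _ hfrob P hP
  -- the ordinary line, a Frobenius element, its eigenvalue
  obtain ⟨P, hP⟩ := Fermat.Agent.Lib.FrobExists.exists_liesOverPrime p hp
  obtain ⟨L₀, hline, hstab, hin⟩ := hordρ P hP
  let ℒ : OrdLine (H.ρ.baseChangeAlong ψ hψ) P := ⟨L₀, hline, hstab, hin⟩
  obtain ⟨g, hg⟩ := Fermat.Agent.Lib.FrobExists.exists_isFrobeniusAt p hp P hP
  obtain ⟨z, hzu, hz⟩ := exists_quotEigen ℒ g hg.mem_decompositionSubgroup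
  have hlgc := hL 𝒪 p hp2 hp𝒪 N S hpS hNS hp hpN hpS' xt (H.ρ.baseChangeAlong ψ hψ)
    (fun ℓ hℓ hℓN hℓS' hℓp B hB σ hσ => by
      have hℓS : ℓ ∉ (↑S : Set ℕ) := by
        intro h
        exact hℓS' (Finset.mem_coe.2 (Finset.mem_erase.2 ⟨hℓp, Finset.mem_coe.1 h⟩))
      rw [hfrob ℓ hℓ hℓN hℓS B hB σ hσ, RingHom.comp_apply, hxt ℓ hℓ hℓN hℓS hℓS'])
    hdet habs' P hP ℒ g hg z hz
  -- `xt(T_p) z = z² + p`
  by_contra hnu
  have hm : xt (CuspForm.heckeAlgebra.T hp hpN hpS') ∈ maximalIdeal 𝒪 :=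
    (mem_maximalIdeal _).2 hnu
  have hz2 : z ^ 2 ∈ maximalIdeal 𝒪 := by
    have e : z ^ 2 = xt (CuspForm.heckeAlgebra.T hp hpN hpS') * z - (p : 𝒪) := by
      linear_combination hlgc
    rw [e]
    exact sub_mem (Ideal.mul_mem_right _ _ hm) hp𝒪
  exact (mem_maximalIdeal _).1 hz2 (hzu.pow 2)

end Glue

/-- **The Galois side of P-ORD**: a character `xt` of the Hecke algebra away from `S ∖ {p}`
(level prime to `p`) whose restriction to the Hecke algebra away from `S` lifts the system `θ`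
of an absolutely irreducible `ρbar`, ordinary at `p`, has `xt(T_p)` a unit. -/
theorem unit_Tp_of_lgc (hL : Stmt_LGCpt)
    (𝒪 : Type) [CommRing 𝒪] [IsDomain 𝒪] [IsDiscreteValuationRing 𝒪]
    [IsAdicComplete (maximalIdeal 𝒪) 𝒪] [Finite (ResidueField 𝒪)] [CharZero 𝒪]
    (p : ℕ) [Fact p.Prime] (hp2 : p ≠ 2) (hp𝒪 : (p : 𝒪) ∈ maximalIdeal 𝒪)
    (ρbar : ResidualGaloisRep (ResidueField 𝒪)) (habs : ρbar.IsAbsolutelyIrreducible)
    (hord : (GaloisRepAdic.ofResidualGaloisRep ρbar).IsOrdinaryAt p)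
    (N : ℕ) [NeZero N] [Fact (CuspForm.HasIntegralStructure N 2)] (S : Finset ℕ)
    (hpS : p ∈ S) (hNS : ∀ q : ℕ, q.Prime → q ∣ N → q ∈ S)
    (θ : CuspForm.heckeAlgebra N 2 (↑S : Set ℕ) →+* ResidueField 𝒪)
    (hθ : Fermat.Agent.S59.Datum.FrobHyp ρbar N S θ)
    (hp : p.Prime) (hpN : ¬ p ∣ N) (hpS' : p ∉ (↑(S.erase p) : Set ℕ))
    (xt : CuspForm.heckeAlgebra N 2 (↑(S.erase p) : Set ℕ) →+* 𝒪)
    (hxt : ∀ (ℓ : ℕ) (hℓ : ℓ.Prime) (hℓN : ¬ ℓ ∣ N) (hℓS : ℓ ∉ (↑S : Set ℕ))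
      (hℓS' : ℓ ∉ (↑(S.erase p) : Set ℕ)),
      residue 𝒪 (xt (CuspForm.heckeAlgebra.T hℓ hℓN hℓS')) =
        θ (CuspForm.heckeAlgebra.T hℓ hℓN hℓS)) :
    IsUnit (xt (CuspForm.heckeAlgebra.T hp hpN hpS')) := by
  classical
  have hsub : (↑(S.erase p) : Set ℕ) ⊆ (↑S : Set ℕ) := by
    intro x hx
    exact Finset.mem_of_mem_erase (Finset.mem_coe.1 hx)
  -- the restriction of `xt` to the Hecke algebra away from `S`
  have hxθ : ∀ t, residue 𝒪 ((xt.comp (heckeIncl N hsub)) t) = θ t := by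
    have h1 : (residue 𝒪).comp (xt.comp (heckeIncl N hsub)) = θ := by
      refine heckeAlgebra_ringHom_ext _ _ ?_ ?_
      · intro ℓ hℓ hℓN hℓS
        have hℓS' : ℓ ∉ (↑(S.erase p) : Set ℕ) := fun h => hℓS (hsub h)
        exact hxt ℓ hℓ hℓN hℓS hℓS'
      · intro q hq hqN hqS
        exact absurd (Finset.mem_coe.2 (hNS q hq hqN)) hqS
    intro t
    exact congrArg (fun f : CuspForm.heckeAlgebra N 2 (↑S : Set ℕ) →+* ResidueField 𝒪 => f t) h1
  -- the datum and the point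
  obtain ⟨H, hπ, hcyc, hequiv⟩ :=
    Fermat.Agent.S59.Datum.stmt_DATUM 𝒪 p hp2 hp𝒪 N S hpS hNS ρbar habs θ hθ
  obtain ⟨-, -, hpt, -⟩ := Fermat.Agent.S59.Datum.H85.stmt_Ring 𝒪 N (↑S : Set ℕ) θ
  obtain ⟨ψ, hψx⟩ := hpt (xt.comp (heckeIncl N hsub)) hxθ
  have hψsurj : Function.Surjective ψ.toRingHom := by
    intro a
    exact ⟨algebraMap 𝒪 _ a, ψ.commutes a⟩
  have hψ : IsLocalHom ψ.toRingHom := IsLocalHom.of_surjective _ hψsurj
  have hres : (GaloisRepAdic.ofResidualGaloisRep H.ρ.residual).IsOrdinaryAt p := by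
    obtain ⟨e⟩ := hequiv
    exact Fermat.Agent.S59.NonMin.H7.resOrd_of_isEquiv ⟨e.symm⟩ p
      (Fermat.Agent.S59.NonMin.H7.resOrd_baseChangeAlong _ ρbar p hord)
  refine unit_Tp_of_point hL p hp2 hp𝒪 hpS hNS hp hpN hpS' H hcyc hres ψ.toRingHom hψ xt ?_
  intro ℓ hℓ hℓN hℓS hℓS'
  rw [hπ]
  exact (hψx (CuspForm.heckeAlgebra.T hℓ hℓN hℓS)).symm

end Fermat.Agent.S59.CaseC.Geom.H7
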