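/-
S59, case C, package PGEOM, leaf P-ORD (helper7): `pord_of : Stmt_LGCpt → Stmt_PORD`.

`T_p` is invertible on the Betti lattice of a state of level prime to `p`, if `ρbar` is ordinary
at `p`.

Proof.  In a universal basis the Betti lattice is a saturated submodule `L ⊆ 𝒪^r`, stable under
the Hecke algebra `H` away from `∅` (`H7_POrdCoord`, `H7_POrdCut`); `𝕋 := 𝒪 ⊗ H` acts on `L`.  If
`T_p` is not onto on `L`, there are a complete discrete valuation ring `𝒪'`, finite over `𝒪`,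
and a point `x : 𝕋 → 𝒪'` which kills the kernel of the action, with `x(T_p)` in the maximal ideal
(`H7_POrdAlg`); by Cayley–Hamilton `x(T_ℓ)` lifts `θ(T_ℓ)` for `ℓ ∉ S`.  This contradicts the
Galois side (`H7_POrdGal.unit_Tp_of_lgc`, over `𝒪'`).
-/
import Fermat.Agent.S59.CaseC.Geom.Defs
import Fermat.Agent.S59.CaseC.Geom.H7_POrdGal
import Fermat.Agent.S59.CaseC.Geom.H7_POrdAlg
import Fermat.Agent.S59.CaseC.Geom.H7_POrdCoord
import Fermat.Agent.S59.Datum.H57_ResIrr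
import Fermat.Agent.S22

set_option autoImplicit false
set_option linter.style.haveILetI false

open Polynomial IsLocalRing CuspForm CongruenceSubgroup
open scoped TensorProduct

namespace Fermat.Agent.S59.CaseC.Geom.H7

open Fermat.Agent.Betti Fermat.Agent.S59 Fermat.Agent.S59.NonMin Fermat.Agent.S59.NonMin.Geom
  Fermat.Agent.S59.CaseC Fermat.Agent.S59.CaseC.Geom

/-- The primes of the level of a state belong to `S`. -/
theorem geomHyp_mem {p : ℕ} {Smin : Finset ℕ} {N₀ : ℕ} {Sig : Finset ℕ} {N : ℕ} {S : Finset ℕ}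
    (hG : GeomHyp p Smin N₀ Sig N S) (q : ℕ) (hq : q.Prime) (hqN : q ∣ N) : q ∈ S := by
  rw [hG.hS]
  rw [hG.hN] at hqN
  rcases (Nat.Prime.dvd_mul hq).1 hqN with h | h
  · exact Finset.mem_union_left _ (hG.hN₀S q hq h)
  · obtain ⟨r, hr, hqr⟩ := (Prime.dvd_finsetProd_iff hq.prime _).1 h
    have h1 : q ∣ r := hq.dvd_of_dvd_pow hqr
    have h2 : q = r := (Nat.prime_dvd_prime_iff_eq hq (hG.hSig r hr).1).1 h1
    rw [h2]
    exact Finset.mem_union_right _ hr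

/-- Base change of `FrobHyp` along an extension of the residue field. -/
theorem frobHyp_baseChangeAlong {k k' : Type} [Field k] [Field k'] (φ : k →+* k')
    (ρbar : ResidualGaloisRep k) (N : ℕ) [NeZero N] (S : Finset ℕ)
    (θ : CuspForm.heckeAlgebra N 2 (↑S : Set ℕ) →+* k)
    (hθ : Fermat.Agent.S59.Datum.FrobHyp ρbar N S θ) :
    Fermat.Agent.S59.Datum.FrobHyp (ρbar.baseChangeAlong φ) N S (φ.comp θ) := by
  intro ℓ hℓ hℓN hℓS A hA σ hσ
  rw [Fermat.Agent.S59.Datum.H57.charpoly_baseChangeAlong, hθ ℓ hℓ hℓN hℓS A hA σ hσ]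
  simp [Polynomial.map_sub, Polynomial.map_mul, Polynomial.map_pow]

section Main

variable {𝒪 : Type} [CommRing 𝒪]

/-- The action of `𝒪 ⊗ H` on a stable lattice. -/
noncomputable def tensorAct {H : Type} [CommRing H] (L : Type) [AddCommGroup L] [Module 𝒪 L]
    (ρ₀ : H →+* Module.End 𝒪 L) : (𝒪 ⊗[ℤ] H) →ₐ[𝒪] Module.End 𝒪 L :=
  Algebra.TensorProduct.lift (Algebra.ofId 𝒪 (Module.End 𝒪 L)) ρ₀.toIntAlgHom
    (fun a t => (Algebra.commutes' a (ρ₀.toIntAlgHom t) :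
      Commute (Algebra.ofId 𝒪 (Module.End 𝒪 L) a) (ρ₀.toIntAlgHom t)))

theorem tensorAct_tmul {H : Type} [CommRing H] (L : Type) [AddCommGroup L] [Module 𝒪 L]
    (ρ₀ : H →+* Module.End 𝒪 L) (t : H) :
    tensorAct L ρ₀ ((1 : 𝒪) ⊗ₜ[ℤ] t) = ρ₀ t := by
  unfold tensorAct
  refine (Algebra.TensorProduct.lift_tmul _ _ _ 1 t).trans ?_
  rw [map_one, one_mul]
  rfl

end Main

/-- **P-ORD**: `T_p` is invertible on the Betti lattice of a state of level prime to `p`, if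
`ρbar` is ordinary at `p` — from local–global compatibility at `p` at the points. -/
theorem pord_of (hL : Stmt_LGCpt) : Stmt_PORD := by
  intro 𝒪 _ _ _ _ _ _ p _ hp2 hp𝒪 ρbar Smin hyp _ hord N₀ Sig N _ _ S hG θ hθ hp hpN φ hφ
  classical
  have hSig : ∀ q ∈ Sig, q.Prime := fun q hq => (hG.hSig q hq).1
  have hNS : ∀ q : ℕ, q.Prime → q ∣ N → q ∈ S := geomHyp_mem hG
  have hpS : p ∈ S := by
    rw [hG.hS]
    exact Finset.mem_union_left _ hyp.hpSmin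
  have hpS' : p ∉ (↑(S.erase p) : Set ℕ) := by simp
  -- coordinates
  obtain ⟨r, b, hb⟩ := Fermat.Agent.Betti.stmt_basis N
  obtain ⟨M, -, hMT, hMU⟩ := Fermat.Agent.Betti.H76.stmt_matrixRep N (∅ : Set ℕ) r b hb
  obtain ⟨ϖ, hϖ⟩ := IsDiscreteValuationRing.exists_irreducible 𝒪
  have htf : ∀ (a : 𝒪) (w : Fin r → 𝒪), a ≠ 0 → a • w = 0 → w = 0 := by
    intro a w ha h
    funext i
    have := congrFun h i
    simp only [Pi.smul_apply, smul_eq_mul, Pi.zero_apply] at this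
    exact (mul_eq_zero.1 this).resolve_left ha
  -- the lattice
  set Lc : Submodule 𝒪 (Fin r → 𝒪) :=
    cutLattice (cutUs 𝒪 M Sig) (cutFs 𝒪 M (↑S : Set ℕ) θ) with hLc
  have hst : ∀ (t : CuspForm.heckeAlgebra N 2 (∅ : Set ℕ)) (c : Fin r → 𝒪), c ∈ Lc →
      matEnd 𝒪 M t c ∈ Lc := by
    intro t c hc
    refine cutLattice_stable (matEnd 𝒪 M t) ?_ ?_ hc
    · rintro U ⟨q, hq, hqN, -, rfl⟩
      exact matEnd_commute 𝒪 M _ _
    · rintro F ⟨ℓ, hℓ, hℓN, hℓS, a, -, rfl⟩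
      exact (matEnd_commute 𝒪 M _ _).sub_right (Algebra.commutes' a _).symm
  have hsat : ∀ c : Fin r → 𝒪, ϖ • c ∈ Lc → c ∈ Lc := fun c hc =>
    cutLattice_saturated htf hϖ hc
  -- the action of the Hecke algebra
  let ρ₀ : CuspForm.heckeAlgebra N 2 (∅ : Set ℕ) →+* Module.End 𝒪 Lc :=
    restrictHom (matEnd 𝒪 M) Lc hst
  haveI : Module.Finite ℤ (CuspForm.heckeAlgebra N 2 (∅ : Set ℕ)) :=
    Fermat.Agent.S22.result N 2 ∅
  let Tp : CuspForm.heckeAlgebra N 2 (∅ : Set ℕ) :=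
    CuspForm.heckeAlgebra.T hp hpN (Set.notMem_empty p)
  -- `T_p` is onto
  have hsurj : Function.Surjective (ρ₀ Tp) := by
    by_contra hns
    have hns' : ¬ Function.Surjective (tensorAct (𝒪 := 𝒪) Lc ρ₀ ((1 : 𝒪) ⊗ₜ[ℤ] Tp)) := by
      rw [tensorAct_tmul]
      exact hns
    obtain ⟨𝒪', iCR, iD, iDVR, iAC, iFin, iCZ, iAlg, iLH, x, hxu, hxker⟩ :=
      exists_point_of_not_surjective 𝒪 (tensorAct (𝒪 := 𝒪) Lc ρ₀) _ hns'
    -- the character of the Hecke algebra away from `S ∖ {p}`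
    let xh : CuspForm.heckeAlgebra N 2 (∅ : Set ℕ) →+* 𝒪' :=
      (x : (𝒪 ⊗[ℤ] CuspForm.heckeAlgebra N 2 (∅ : Set ℕ)) →+* 𝒪').comp
        (Algebra.TensorProduct.includeRight :
          CuspForm.heckeAlgebra N 2 (∅ : Set ℕ) →ₐ[ℤ]
            𝒪 ⊗[ℤ] CuspForm.heckeAlgebra N 2 (∅ : Set ℕ)).toRingHom
    have hxh : ∀ t, xh t = x ((1 : 𝒪) ⊗ₜ[ℤ] t) := fun t => rfl
    let xt : CuspForm.heckeAlgebra N 2 (↑(S.erase p) : Set ℕ) →+* 𝒪' :=
      xh.comp (heckeIncl N (Set.empty_subset _))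
    have hp𝒪' : (p : 𝒪') ∈ maximalIdeal 𝒪' := by
      have h1 : (p : 𝒪') = algebraMap 𝒪 𝒪' (p : 𝒪) := by rw [map_natCast]
      rw [h1]
      exact (mem_maximalIdeal _).2 (map_nonunit (algebraMap 𝒪 𝒪') _ ((mem_maximalIdeal _).1 hp𝒪))
    have hunit := unit_Tp_of_lgc hL 𝒪' p hp2 hp𝒪'
      (ρbar.baseChangeAlong (ResidueField.map (algebraMap 𝒪 𝒪')))
      (Fermat.Agent.S59.Datum.H57.absIrr_baseChangeAlong _ ρbar hyp.habs)
      (Fermat.Agent.S59.NonMin.H7.resOrd_baseChangeAlong _ ρbar p hord)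
      N S hpS hNS ((ResidueField.map (algebraMap 𝒪 𝒪')).comp θ)
      (frobHyp_baseChangeAlong _ ρbar N S θ hθ) hp hpN hpS' xt
      (by
        intro ℓ hℓ hℓN hℓS hℓS'
        obtain ⟨a, ha⟩ := residue_surjective (θ (CuspForm.heckeAlgebra.T hℓ hℓN hℓS))
        have h1 : x ((1 : 𝒪) ⊗ₜ[ℤ] (CuspForm.heckeAlgebra.T hℓ hℓN (Set.notMem_empty ℓ) :
              CuspForm.heckeAlgebra N 2 (∅ : Set ℕ))) - algebraMap 𝒪 𝒪' a ∈ maximalIdeal 𝒪' := by
          refine point_sub_mem_of_nilp (tensorAct (𝒪 := 𝒪) Lc ρ₀) x hxker _ a ?_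
          intro v
          obtain ⟨n, hn⟩ := v.2.2 _ ⟨ℓ, hℓ, hℓN, hℓS, a, ha, rfl⟩ 1
          refine ⟨n, mem_smul_top_of_saturated htf hϖ Lc hsat _ ?_⟩
          rw [tensorAct_tmul, restrictHom_sub_pow_coe]
          rwa [pow_one] at hn
        have h2 : xt (CuspForm.heckeAlgebra.T hℓ hℓN hℓS') =
            x ((1 : 𝒪) ⊗ₜ[ℤ] (CuspForm.heckeAlgebra.T hℓ hℓN (Set.notMem_empty ℓ) :
              CuspForm.heckeAlgebra N 2 (∅ : Set ℕ))) := rfl
        rw [h2, RingHom.comp_apply, ← ha, ResidueField.map_residue]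
        exact (Ideal.Quotient.eq).2 h1)
    have h3 : xt (CuspForm.heckeAlgebra.T hp hpN hpS') = x ((1 : 𝒪) ⊗ₜ[ℤ] Tp) := rfl
    rw [h3] at hunit
    exact (mem_maximalIdeal _).1 hxu hunit
  -- conclusion
  obtain ⟨c, hc⟩ := exists_coord 𝒪 hb φ hφ.1
  have hcL : c ∈ Lc := by
    rw [hLc, ← inBetti_coord_iff 𝒪 hb M hMT hMU (↑S : Set ℕ) θ Sig hSig c, hc]
    exact hφ
  obtain ⟨v, hv⟩ := hsurj ⟨c, hcL⟩
  refine ⟨coord 𝒪 b (v : Fin r → 𝒪), ?_, ?_⟩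
  · rw [inBetti_coord_iff 𝒪 hb M hMT hMU (↑S : Set ℕ) θ Sig hSig]
    exact v.2
  · rw [TB_coord 𝒪 M hMT hp hpN, ← hc]
    congr 1
    exact congrArg Subtype.val hv

end Fermat.Agent.S59.CaseC.Geom.H7
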