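import Fermat.Agent.S59.CaseC.Geom.H7_POrd
import Fermat.Agent.S59.LGC.H54_Final

/-!
# S59, case C, PGEOM leaf P-ORD: unconditional form  (helper7)

`stmt_PORD : Stmt_PORD` = `pord_of` (helper7, `H7_POrd.lean`) applied to helper54's
`LGC.H54.stmt_LGCpt` (Eichler–Shimura at `p` at a point).
-/

set_option autoImplicit false

namespace Fermat.Agent.S59.CaseC.Geom.H7

/-- **P-ORD, unconditional**: `T_p` is invertible on the Betti lattice of the state. -/
theorem stmt_PORD : Stmt_PORD := pord_of Fermat.Agent.S59.LGC.H54.stmt_LGCpt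

end Fermat.Agent.S59.CaseC.Geom.H7
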