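/-
S59, case C, package PGEOM, leaf PRELT (helper80): the twisted representatives of `T_p`.

The `T_p`-analogue of helper12's `H12_RelU.lean` (twisted representatives of `U_p`):
for a degeneracy map `j : Γ₀(M') → Γ₀(N)` which is "conjugation by `diag(c, 1)`"
(`H12.IsDeg j c`), `c` prime to `p`, `p ∤ N`, `p ∤ M'`, the family

  `rep̃_∞ = diag(p, 1)`,   `rep̃_x = [[1, c x], [0, p]]`

* is a Hecke family for `(Γ₀(N), incl)` with the operator `T_p` (`heckeOp_Tc`);
* is a Hecke family for `(Γ₀(M'), incl ∘ j)` with the operator `T_p` of level `M'` (`heckeOp_Tc'`);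
* satisfies the coset condition (C) of `H12.corAlong_heckeOp` (`cosetCond_Tc`).

Hence `TB_resAlong : T_p (j^* φ) = j^* (T_p φ)` and `corAlong_TB : j_* (T_p ψ) = T_p (j_* ψ)`.
-/
import Fermat.Agent.S59.NonMin.Geom.H12_RelU

set_option autoImplicit false
set_option linter.style.haveILetI false
set_option linter.unusedSectionVars false

open scoped MatrixGroups
open CongruenceSubgroup Matrix ModularForm

namespace Fermat.Agent.S59.CaseC.Geom.H80

open Fermat.Agent.S41 Fermat.Agent.S41.H19 Fermat.Agent.S41.H39 Fermat.Agent.Betti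
open Fermat.Agent.S59.NonMin.Geom Fermat.Agent.S59.NonMin.Geom.H12

/-! ### Integer matrices of the representatives -/

section Mat

variable (p c : ℕ)

/-- The twisted representatives of `T_p`: `∞ ↦ diag(p, 1)`, `x ↦ [[1, c x], [0, p]]`. -/
noncomputable def repTc : OnePoint (ZMod p) → GL (Fin 2) ℝ :=
  fun x => x.elim (heckeDiagMatrix p) (fun j => heckeMatrix p (c * j.val))

/-- The integer matrices of the twisted representatives. -/
def aTc : OnePoint (ZMod p) → Matrix (Fin 2) (Fin 2) ℤ :=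
  fun x => x.elim (Dq p) (fun j => Bmat p (((c * j.val : ℕ)) : ℤ))

@[simp] theorem repTc_infty : repTc p c OnePoint.infty = heckeDiagMatrix p := rfl

@[simp] theorem repTc_coe (j : ZMod p) : repTc p c (j : OnePoint (ZMod p)) =
    heckeMatrix p (c * j.val) := rfl

@[simp] theorem aTc_infty : aTc p c OnePoint.infty = Dq p := rfl

@[simp] theorem aTc_coe (j : ZMod p) : aTc p c (j : OnePoint (ZMod p)) =
    Bmat p (((c * j.val : ℕ)) : ℤ) := rfl

theorem map_Dq (p : ℕ) :
    (Dq p).map (Int.cast : ℤ → ℝ) = !![(p : ℝ), 0; 0, 1] := by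
  ext i k
  fin_cases i <;> fin_cases k <;> simp [Dq]

variable {p c}

theorem val_repTc (hp : p ≠ 0) (x : OnePoint (ZMod p)) :
    ((repTc p c x : GL (Fin 2) ℝ) : Matrix (Fin 2) (Fin 2) ℝ)
      = (aTc p c x).map (Int.cast : ℤ → ℝ) := by
  induction x using OnePoint.rec with
  | infty => rw [repTc_infty, aTc_infty, ModularForm.val_heckeDiagMatrix hp, map_Dq]
  | coe j => rw [repTc_coe, aTc_coe, ModularForm.val_heckeMatrix hp, map_Bmat]

theorem repTc_one (x : OnePoint (ZMod p)) : repTc p 1 x = repT p x := by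
  induction x using OnePoint.rec with
  | infty => rfl
  | coe j => rw [repTc_coe, one_mul]; rfl

/-- A relation between the twisted representatives, in integer matrices. -/
theorem repTc_rel_iff (hp : p ≠ 0) {M : ℕ} (g κ : Gamma0 M) (x x' : OnePoint (ZMod p)) :
    repTc p c x * incl M g = incl M κ * repTc p c x' ↔
      aTc p c x * mat g = mat κ * aTc p c x' := by
  constructor
  · intro h
    have h2 := congrArg (fun X : GL (Fin 2) ℝ => (X : Matrix (Fin 2) (Fin 2) ℝ)) h
    simp only [Units.val_mul] at h2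
    rw [val_incl', val_incl', val_repTc hp, val_repTc hp,
      ← Matrix.map_mul_intCast, ← Matrix.map_mul_intCast] at h2
    exact Matrix.map_injective (Int.cast_injective (α := ℝ)) h2
  · intro h
    apply Units.ext
    simp only [Units.val_mul]
    rw [val_incl', val_incl', val_repTc hp, val_repTc hp,
      ← Matrix.map_mul_intCast, ← Matrix.map_mul_intCast, h]

theorem Dq_comm (a b : ℕ) : Dq a * Dq b = Dq b * Dq a := by
  rw [Dq_mul, Dq_mul, mul_comm]

/-- `ã_x D_c = D_c a_x`. -/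
theorem aTc_mul_Dq (p c : ℕ) (x : OnePoint (ZMod p)) :
    aTc p c x * Dq c = Dq c * aTc p 1 x := by
  induction x using OnePoint.rec with
  | infty => rw [aTc_infty, aTc_infty, Dq_comm]
  | coe j =>
    rw [aTc_coe, aTc_coe]
    have := Bmat_mul_Dq p c ((j.val : ℕ) : ℤ)
    push_cast
    rw [one_mul]
    exact this

theorem aTc_one_zero (x : OnePoint (ZMod p)) : aTc p c x 1 0 = 0 := by
  induction x using OnePoint.rec with
  | infty => simp [Dq]
  | coe j => simp [Bmat]

end Mat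

/-! ### The twisted family for `Γ₀(N)` -/

section Twist

variable {N M' : ℕ} {p c : ℕ}

/-- The permutation `∞ ↦ ∞`, `x ↦ c x` of `ℙ¹(𝔽_p)`. -/
noncomputable def piT (hcp : Nat.Coprime c p) : OnePoint (ZMod p) ≃ OnePoint (ZMod p) :=
  Equiv.optionCongr ((ZMod.unitOfCoprime c hcp).mulLeft)

theorem piT_infty (hcp : Nat.Coprime c p) : piT hcp OnePoint.infty = OnePoint.infty := rfl

theorem piT_coe (hcp : Nat.Coprime c p) (j : ZMod p) :
    piT hcp (j : OnePoint (ZMod p)) = (((ZMod.unitOfCoprime c hcp).mulLeft j : ZMod p) :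
      OnePoint (ZMod p)) := rfl

/-- The unipotent corrections. -/
def epsT (N p c : ℕ) : OnePoint (ZMod p) → Gamma0 N :=
  fun x => x.elim 1 (fun j => tU N ((c * j.val / p : ℕ) : ℤ))

/-- `rep̃_x = ε_x · rep_{π x}`. -/
theorem repTc_eq [NeZero p] (N : ℕ) (hcp : Nat.Coprime c p) (x : OnePoint (ZMod p)) :
    repTc p c x = incl N (epsT N p c x) * repT p (piT hcp x) := by
  induction x using OnePoint.rec with
  | infty =>
    rw [piT_infty]
    show heckeDiagMatrix p = incl N 1 * heckeDiagMatrix p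
    rw [map_one, one_mul]
  | coe j => exact repUc_eq N hcp j

/-- The twisted family is a Hecke family for `Γ₀(N)`, `p ∤ N`. -/
theorem isHeckeFamily_Tc [Fact p.Prime] (hcp : Nat.Coprime c p) (hpN : ¬ p ∣ N) :
    IsHeckeFamily (incl N) (repTc p c) :=
  haveI : NeZero p := ⟨(Fact.out : p.Prime).ne_zero⟩
  isHeckeFamily_of_twist (isHeckeFamily_T N hpN) (piT hcp) (epsT N p c) (repTc_eq N hcp)

/-- The twisted family defines the operator `T_p`. -/
theorem heckeOp_Tc {A : Type*} [AddCommGroup A] (hp : p.Prime) (hcp : Nat.Coprime c p)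
    (hpN : ¬ p ∣ N) (φ : Additive (Gamma0 N) →+ A) :
    haveI : Fact p.Prime := ⟨hp⟩
    (isHeckeFamily_Tc hcp hpN).heckeOp (incl_injective N) φ = TB N A hp hpN φ := by
  haveI : Fact p.Prime := ⟨hp⟩
  haveI : NeZero p := ⟨hp.ne_zero⟩
  exact heckeOp_of_twist (incl_injective N) (isHeckeFamily_T N hpN) (isHeckeFamily_Tc hcp hpN)
    (piT hcp) (epsT N p c) (repTc_eq N hcp) φ

/-- Transport of the relations of `repT` at the level `M'` along a degeneracy map. -/
theorem repTc_rel {j : Gamma0 M' →* Gamma0 N} (hj : IsDeg j c) (hc : c ≠ 0) (hp : p ≠ 0)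
    {γ κ : Gamma0 M'} {x x' : OnePoint (ZMod p)}
    (h : repT p x * incl M' γ = incl M' κ * repT p x') :
    repTc p c x * (incl N).comp j γ = (incl N).comp j κ * repTc p c x' := by
  rw [← repTc_one, ← repTc_one] at h
  have h1 := (repTc_rel_iff hp γ κ x x').mp h
  show repTc p c x * incl N (j γ) = incl N (j κ) * repTc p c x'
  rw [repTc_rel_iff hp]
  apply Dq_cancel_right hc
  calc aTc p c x * mat (j γ) * Dq c
      = aTc p c x * (mat (j γ) * Dq c) := by rw [Matrix.mul_assoc]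
    _ = (aTc p c x * Dq c) * mat γ := by rw [hj γ, Matrix.mul_assoc]
    _ = Dq c * (aTc p 1 x * mat γ) := by rw [aTc_mul_Dq, Matrix.mul_assoc]
    _ = Dq c * (mat κ * aTc p 1 x') := by rw [h1]
    _ = (mat (j κ) * Dq c) * aTc p 1 x' := by rw [hj κ, Matrix.mul_assoc]
    _ = mat (j κ) * (aTc p c x' * Dq c) := by rw [aTc_mul_Dq, Matrix.mul_assoc]
    _ = mat (j κ) * aTc p c x' * Dq c := by rw [Matrix.mul_assoc]

/-- The twisted family is a Hecke family for `(Γ₀(M'), incl ∘ j)`. -/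
theorem isHeckeFamily_Tc' [Fact p.Prime] {j : Gamma0 M' →* Gamma0 N} (hj : IsDeg j c)
    (hc : c ≠ 0) (hcp : Nat.Coprime c p) (hpN : ¬ p ∣ N) (hpM : ¬ p ∣ M') :
    IsHeckeFamily ((incl N).comp j) (repTc p c) where
  exists_mul γ x :=
    ⟨(isHeckeFamily_T M' hpM).perm γ x, (isHeckeFamily_T M' hpM).kap γ x,
      repTc_rel hj hc (Fact.out : p.Prime).ne_zero ((isHeckeFamily_T M' hpM).rep_mul γ x)⟩
  inj x x' ε h := (isHeckeFamily_Tc (N := N) hcp hpN).inj x x' (j ε) h

/-- The operator of the twisted family for `(Γ₀(M'), incl ∘ j)` is `T_p` of the level `M'`. -/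
theorem heckeOp_Tc' {A : Type*} [AddCommGroup A] (hp : p.Prime)
    {j : Gamma0 M' →* Gamma0 N}
    (hj : IsDeg j c) (hc : c ≠ 0) (hcp : Nat.Coprime c p) (hpN : ¬ p ∣ N) (hpM : ¬ p ∣ M')
    (he' : Function.Injective ((incl N).comp j)) (ψ : Additive (Gamma0 M') →+ A) :
    haveI : Fact p.Prime := ⟨hp⟩
    (isHeckeFamily_Tc' hj hc hcp hpN hpM).heckeOp he' ψ = TB M' A hp hpM ψ := by
  haveI : Fact p.Prime := ⟨hp⟩
  refine AddMonoidHom.ext fun γ' => ?_
  obtain ⟨γ, rfl⟩ : ∃ g : Gamma0 M', Additive.ofMul g = γ' := ⟨Additive.toMul γ', rfl⟩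
  rw [TB_apply_apply]
  show ∑ x, ψ (Additive.ofMul ((isHeckeFamily_Tc' hj hc hcp hpN hpM).kap γ x)) = _
  refine Finset.sum_congr rfl fun x _ => ?_
  have h := repTc_rel hj hc hp.ne_zero ((isHeckeFamily_T M' hpM).rep_mul γ x)
  rw [((isHeckeFamily_Tc' hj hc hcp hpN hpM).unique he' h).2]

end Twist

/-! ### The coset condition -/

section CosetCond

variable {N M' : ℕ} {p c : ℕ}

/-- The entries of the twisted representatives which matter for the coset condition. -/
theorem aTc_entries (hcp : Nat.Coprime c p) (x : OnePoint (ZMod p)) :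
    IsCoprime (aTc p c x 0 0) (c : ℤ) ∧ (c : ℤ) ∣ aTc p c x 0 1 ∧
      (aTc p c x 1 1 = 1 ∨ aTc p c x 1 1 = (p : ℤ)) := by
  induction x using OnePoint.rec with
  | infty =>
    refine ⟨?_, ?_, Or.inl ?_⟩
    · have : aTc p c OnePoint.infty 0 0 = (p : ℤ) := by simp [Dq]
      rw [this]
      exact (Nat.isCoprime_iff_coprime.mpr hcp).symm
    · have : aTc p c OnePoint.infty 0 1 = 0 := by simp [Dq]
      rw [this]
      exact dvd_zero _
    · simp [Dq]
  | coe j =>
    refine ⟨?_, ?_, Or.inr ?_⟩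
    · have : aTc p c (j : OnePoint (ZMod p)) 0 0 = 1 := by simp [Bmat]
      rw [this]
      exact isCoprime_one_left
    · have : aTc p c (j : OnePoint (ZMod p)) 0 1 = (c : ℤ) * (j.val : ℤ) := by
        simp [Bmat]
      rw [this]
      exact dvd_mul_right _ _
    · simp [Bmat]

/-- The condition (C) of `corAlong_heckeOp` for the twisted family. -/
theorem cosetCond_Tc {j : Gamma0 M' →* Gamma0 N} (hj : IsDeg j c) (hc : c ≠ 0) (hp : p ≠ 0)
    (hcp : Nat.Coprime c p)
    (hM : ∀ z : ℤ, (N : ℤ) ∣ z → (M' : ℤ) ∣ (p : ℤ) * ((c : ℤ) * z) → (M' : ℤ) ∣ (c : ℤ) * z)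
    (x x' : OnePoint (ZMod p)) (γ : Gamma0 N) (ε : Gamma0 M')
    (h : repTc p c x * incl N γ = (incl N) (j ε) * repTc p c x') : γ ∈ j.range := by
  have hc' : (c : ℤ) ≠ 0 := by exact_mod_cast hc
  have h1 : aTc p c x * mat γ = mat (j ε) * aTc p c x' :=
    (repTc_rel_iff hp γ (j ε) x x').mp h
  have h2 : aTc p c x * (mat γ * Dq c) = Dq c * (mat ε * aTc p 1 x') := by
    calc aTc p c x * (mat γ * Dq c)
        = (aTc p c x * mat γ) * Dq c := by rw [Matrix.mul_assoc]
      _ = mat (j ε) * (aTc p c x' * Dq c) := by rw [h1, Matrix.mul_assoc]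
      _ = (mat (j ε) * Dq c) * aTc p 1 x' := by rw [aTc_mul_Dq, Matrix.mul_assoc]
      _ = Dq c * (mat ε * aTc p 1 x') := by rw [hj ε, Matrix.mul_assoc]
  have e01 := congrFun (congrFun h2 0) 1
  have e10 := congrFun (congrFun h2 1) 0
  simp only [Dq, Matrix.mul_apply, Fin.sum_univ_two, Matrix.of_apply, Matrix.cons_val',
    Matrix.cons_val_zero, Matrix.cons_val_one, Matrix.empty_val', Matrix.cons_val_fin_one,
    mul_zero, add_zero, zero_add, mul_one, one_mul, zero_mul, aTc_one_zero] at e01 e10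
  obtain ⟨hcop, ⟨b, hb⟩, h11⟩ := aTc_entries hcp x
  -- `c ∣ γ₀₁`
  obtain ⟨β', hβ'⟩ : (c : ℤ) ∣ mat γ 0 1 := by
    apply hcop.symm.dvd_of_dvd_mul_left
    refine ⟨mat ε 0 0 * aTc p 1 x' 0 1 + mat ε 0 1 * aTc p 1 x' 1 1 - b * mat γ 1 1, ?_⟩
    rw [hb] at e01
    linear_combination e01
  -- `M' ∣ c γ₁₀`
  have hd10 : (M' : ℤ) ∣ (c : ℤ) * mat γ 1 0 := by
    have hdvd : (M' : ℤ) ∣ aTc p c x 1 1 * ((c : ℤ) * mat γ 1 0) := by
      have : aTc p c x 1 1 * ((c : ℤ) * mat γ 1 0) = mat ε 1 0 * aTc p 1 x' 0 0 := by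
        linear_combination e10
      rw [this]
      exact Dvd.dvd.mul_right (mat_dvd ε) _
    rcases h11 with h11 | h11
    · rw [h11, one_mul] at hdvd
      exact hdvd
    · rw [h11] at hdvd
      exact hM _ (mat_dvd γ) hdvd
  -- the preimage
  have hdet := mat_det' γ
  refine ⟨mkG0 M' (mat γ 0 0) β' ((c : ℤ) * mat γ 1 0) (mat γ 1 1)
    (by rw [hβ'] at hdet; linear_combination hdet) hd10, ?_⟩
  apply mat_injective
  apply Dq_cancel_right hc
  rw [hj, mat_mkG0]
  ext i k
  fin_cases i <;> fin_cases k <;>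
    simp [Dq, Matrix.mul_apply, Fin.sum_univ_two, hβ'] <;> ring

end CosetCond

/-! ### `T_p` commutes with a degeneracy map -/

section General

variable {N M' : ℕ} {p c : ℕ} {A : Type*} [AddCommGroup A]

/-- `T_p (j^* φ) = j^* (T_p φ)`. -/
theorem TB_resAlong {j : Gamma0 M' →* Gamma0 N} (hj : IsDeg j c) (hc : c ≠ 0)
    (hp : p.Prime) (hcp : Nat.Coprime c p) (hpN : ¬ p ∣ N) (hpM : ¬ p ∣ M')
    (φ : Additive (Gamma0 N) →+ A) :
    TB M' A hp hpM (resAlong A j φ) = resAlong A j (TB N A hp hpN φ) := by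
  haveI : Fact p.Prime := ⟨hp⟩
  have he' : Function.Injective ((incl N).comp j) :=
    (incl_injective N).comp (hj.injective hc)
  have h := heckeOp_resAlong (A := A) (incl N) (incl_injective N) j he'
    (isHeckeFamily_Tc hcp hpN) (isHeckeFamily_Tc' hj hc hcp hpN hpM) φ
  rw [heckeOp_Tc' hp hj hc hcp hpN hpM he', heckeOp_Tc hp hcp hpN] at h
  exact h

/-- `j_* (T_p ψ) = T_p (j_* ψ)`. -/
theorem corAlong_TB {j : Gamma0 M' →* Gamma0 N} (hj : IsDeg j c) (hc : c ≠ 0)
    (hp : p.Prime) (hcp : Nat.Coprime c p) (hpN : ¬ p ∣ N) (hpM : ¬ p ∣ M')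
    (hM : ∀ z : ℤ, (N : ℤ) ∣ z → (M' : ℤ) ∣ (p : ℤ) * ((c : ℤ) * z) → (M' : ℤ) ∣ (c : ℤ) * z)
    (ψ : Additive (Gamma0 M') →+ A) :
    corAlong A j (TB M' A hp hpM ψ) = TB N A hp hpN (corAlong A j ψ) := by
  haveI : Fact p.Prime := ⟨hp⟩
  have he' : Function.Injective ((incl N).comp j) :=
    (incl_injective N).comp (hj.injective hc)
  have h := corAlong_heckeOp (A := A) (incl N) (incl_injective N) j (hj.injective hc) he'
    (isHeckeFamily_Tc hcp hpN) (isHeckeFamily_Tc' hj hc hcp hpN hpM)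
    (cosetCond_Tc hj hc hp.ne_zero hcp hM) ψ
  rw [heckeOp_Tc' hp hj hc hcp hpN hpM he', heckeOp_Tc hp hcp hpN] at h
  exact h

end General

end Fermat.Agent.S59.CaseC.Geom.H80
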