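/-
S59, case C, package PGEOM, leaf **P-RELT** (helper80): `Stmt_PRELT`.

The degeneracy maps `res1, res2 : Hom(Γ₀(N), A) → Hom(Γ₀(N q), A)` and the transfers
`cor1, cor2` commute with `T_ℓ` (`ℓ ∤ N q`) and `U_r` (`r ∣ N`), and preserve parabolic
homomorphisms; `T_q` of level `N` commutes with `T_ℓ`, `U_r` and preserves parabolic
homomorphisms.  Any coefficient group `A`, any prime `q ∤ N` (`q = p` allowed).

* `U_r` : helper12's generic `H12.UB_resAlong`, `H12.corAlong_UB` (`IsDeg j c`, `c = 1, q`);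
* `T_ℓ` : the `T`-analogue `H80.TB_resAlong`, `H80.corAlong_TB` (`H80_TwistT.lean`);
* `T_q = cor1 ∘ res2` (`S41.H20.Tcoh_eq_TB`), so the statements on `T_q` follow;
* parabolic: helper94's `H94.resAlong_par`, `H94.corAlong_par` (the maps preserve traces).
-/
import Fermat.Agent.S59.CaseC.Geom.Defs
import Fermat.Agent.S59.CaseC.Geom.H80_TwistT
import Fermat.Agent.S59.NonMin.Geom.H94_RelPar
import Fermat.Agent.S41.H20_Bridge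

set_option autoImplicit false
set_option linter.style.haveILetI false
set_option linter.unusedSectionVars false

open scoped MatrixGroups
open CongruenceSubgroup Matrix ModularForm

namespace Fermat.Agent.S59.CaseC.Geom.H80

open Fermat.Agent.S41 Fermat.Agent.S41.H19 Fermat.Agent.S41.H39 Fermat.Agent.Betti
open Fermat.Agent.S59.NonMin.Geom Fermat.Agent.S59.NonMin.Geom.H12
open Fermat.Agent.S59.NonMin.Geom.H94

/-! ### The two degeneracy maps as conjugations -/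

theorem isDeg_inclG (N q : ℕ) : IsDeg (inclG N q) 1 := by
  intro γ
  rw [Dq_one, mul_one, one_mul, mat_inclG]

theorem isDeg_conjG (N q : ℕ) : IsDeg (conjG N q) q := by
  intro γ
  rw [mat_conjG, conjMat_Dq (q_dvd_of_mem_gamma0_mul γ.2)]

theorem trG_inclG (N q : ℕ) (h : Gamma0 (N * q)) : trG (inclG N q h) = trG h := rfl

theorem trG_conjG (N q : ℕ) (h : Gamma0 (N * q)) : trG (conjG N q h) = trG h :=
  trace_conjMat' q _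

/-- The arithmetic of the coset condition at the level `N q`. -/
theorem hM_one {N q s : ℕ} (hq : q.Prime) (hqN : ¬ q ∣ N) (hs : s.Prime) (hsq : s ≠ q)
    (c : ℕ) (z : ℤ) (hz : (N : ℤ) ∣ z)
    (h : ((N * q : ℕ) : ℤ) ∣ (s : ℤ) * ((c : ℤ) * z)) :
    ((N * q : ℕ) : ℤ) ∣ (c : ℤ) * z := by
  have hcop1 : IsCoprime (q : ℤ) (s : ℤ) :=
    Nat.isCoprime_iff_coprime.mpr ((Nat.coprime_primes hq hs).mpr (Ne.symm hsq))
  have hcop2 : IsCoprime (N : ℤ) (q : ℤ) :=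
    Nat.isCoprime_iff_coprime.mpr
      (Nat.Coprime.symm ((Nat.Prime.coprime_iff_not_dvd hq).mpr hqN))
  have h1 : (q : ℤ) ∣ (s : ℤ) * ((c : ℤ) * z) := by
    refine Dvd.dvd.trans ?_ h
    exact ⟨(N : ℤ), by push_cast; ring⟩
  have h2 : (q : ℤ) ∣ (c : ℤ) * z := hcop1.dvd_of_dvd_mul_left h1
  have h3 : (N : ℤ) ∣ (c : ℤ) * z := Dvd.dvd.mul_left hz _
  have := hcop2.mul_dvd h3 h2
  push_cast
  exact this

section Main

variable {N q : ℕ} {A : Type*} [AddCommGroup A]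

/-! ### `T_ℓ`, `ℓ ∤ N q` -/

theorem TB_res1 {ℓ : ℕ} (hℓ : ℓ.Prime) (hℓN : ¬ ℓ ∣ N) (hℓN' : ¬ ℓ ∣ N * q)
    (φ : Additive (Gamma0 N) →+ A) :
    TB (N * q) A hℓ hℓN' (res1 N q A φ) = res1 N q A (TB N A hℓ hℓN φ) :=
  TB_resAlong (isDeg_inclG N q) one_ne_zero hℓ (Nat.coprime_one_left ℓ) hℓN hℓN' φ

theorem ne_of_not_dvd_mul {ℓ : ℕ} (hℓN' : ¬ ℓ ∣ N * q) : ℓ ≠ q :=
  fun e => hℓN' (e ▸ dvd_mul_left q N)

theorem TB_res2 (hq : q.Prime) {ℓ : ℕ} (hℓ : ℓ.Prime) (hℓN : ¬ ℓ ∣ N) (hℓN' : ¬ ℓ ∣ N * q)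
    (φ : Additive (Gamma0 N) →+ A) :
    TB (N * q) A hℓ hℓN' (res2 N q A φ) = res2 N q A (TB N A hℓ hℓN φ) :=
  TB_resAlong (isDeg_conjG N q) hq.ne_zero hℓ
    ((Nat.coprime_primes hq hℓ).mpr (Ne.symm (ne_of_not_dvd_mul hℓN'))) hℓN hℓN' φ

theorem cor1_TB (hq : q.Prime) (hqN : ¬ q ∣ N) {ℓ : ℕ} (hℓ : ℓ.Prime) (hℓN : ¬ ℓ ∣ N)
    (hℓN' : ¬ ℓ ∣ N * q) (ψ : Additive (Gamma0 (N * q)) →+ A) :
    cor1 N q A (TB (N * q) A hℓ hℓN' ψ) = TB N A hℓ hℓN (cor1 N q A ψ) :=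
  corAlong_TB (isDeg_inclG N q) one_ne_zero hℓ (Nat.coprime_one_left ℓ) hℓN hℓN'
    (fun z hz h => hM_one hq hqN hℓ (ne_of_not_dvd_mul hℓN') 1 z hz h) ψ

theorem cor2_TB (hq : q.Prime) (hqN : ¬ q ∣ N) {ℓ : ℕ} (hℓ : ℓ.Prime) (hℓN : ¬ ℓ ∣ N)
    (hℓN' : ¬ ℓ ∣ N * q) (ψ : Additive (Gamma0 (N * q)) →+ A) :
    cor2 N q A (TB (N * q) A hℓ hℓN' ψ) = TB N A hℓ hℓN (cor2 N q A ψ) :=
  corAlong_TB (isDeg_conjG N q) hq.ne_zero hℓ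
    ((Nat.coprime_primes hq hℓ).mpr (Ne.symm (ne_of_not_dvd_mul hℓN'))) hℓN hℓN'
    (fun z hz h => hM_one hq hqN hℓ (ne_of_not_dvd_mul hℓN') q z hz h) ψ

/-- `T_q = cor1 ∘ res2`. -/
theorem TB_eq_cor1_res2 (hN : 0 < N) (hq : q.Prime) (hqN : ¬ q ∣ N)
    (φ : Additive (Gamma0 N) →+ A) :
    TB N A hq hqN φ = cor1 N q A (res2 N q A φ) :=
  (Fermat.Agent.S41.H20.Tcoh_eq_TB hN hq hqN φ).symm

theorem TB_TB (hN : 0 < N) (hq : q.Prime) (hqN : ¬ q ∣ N) {ℓ : ℕ} (hℓ : ℓ.Prime)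
    (hℓN : ¬ ℓ ∣ N) (hℓN' : ¬ ℓ ∣ N * q) (φ : Additive (Gamma0 N) →+ A) :
    TB N A hℓ hℓN (TB N A hq hqN φ) = TB N A hq hqN (TB N A hℓ hℓN φ) := by
  rw [TB_eq_cor1_res2 hN hq hqN, TB_eq_cor1_res2 hN hq hqN, ← cor1_TB hq hqN hℓ hℓN hℓN',
    TB_res2 hq hℓ hℓN hℓN']

/-! ### `U_r`, `r ∣ N` -/

variable [NeZero N] [NeZero (N * q)]

theorem ne_of_dvd {r : ℕ} (hqN : ¬ q ∣ N) (hrN : r ∣ N) : r ≠ q :=
  fun e => hqN (e ▸ hrN)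

theorem UB_res1 {r : ℕ} (hrN : r ∣ N) (hrN' : r ∣ N * q) (φ : Additive (Gamma0 N) →+ A) :
    UB (N * q) A hrN' (res1 N q A φ) = res1 N q A (UB N A hrN φ) :=
  UB_resAlong (isDeg_inclG N q) one_ne_zero (Nat.coprime_one_left r) hrN hrN' φ

theorem UB_res2 (hq : q.Prime) (hqN : ¬ q ∣ N) {r : ℕ} (hr : r.Prime) (hrN : r ∣ N)
    (hrN' : r ∣ N * q) (φ : Additive (Gamma0 N) →+ A) :
    UB (N * q) A hrN' (res2 N q A φ) = res2 N q A (UB N A hrN φ) :=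
  UB_resAlong (isDeg_conjG N q) hq.ne_zero
    ((Nat.coprime_primes hq hr).mpr (Ne.symm (ne_of_dvd hqN hrN))) hrN hrN' φ

theorem cor1_UB (hq : q.Prime) (hqN : ¬ q ∣ N) {r : ℕ} (hr : r.Prime) (hrN : r ∣ N)
    (hrN' : r ∣ N * q) (ψ : Additive (Gamma0 (N * q)) →+ A) :
    cor1 N q A (UB (N * q) A hrN' ψ) = UB N A hrN (cor1 N q A ψ) :=
  corAlong_UB (isDeg_inclG N q) one_ne_zero (Nat.coprime_one_left r) hrN hrN'
    (fun z hz h => hM_one hq hqN hr (ne_of_dvd hqN hrN) 1 z hz h) ψ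

theorem cor2_UB (hq : q.Prime) (hqN : ¬ q ∣ N) {r : ℕ} (hr : r.Prime) (hrN : r ∣ N)
    (hrN' : r ∣ N * q) (ψ : Additive (Gamma0 (N * q)) →+ A) :
    cor2 N q A (UB (N * q) A hrN' ψ) = UB N A hrN (cor2 N q A ψ) :=
  corAlong_UB (isDeg_conjG N q) hq.ne_zero
    ((Nat.coprime_primes hq hr).mpr (Ne.symm (ne_of_dvd hqN hrN))) hrN hrN'
    (fun z hz h => hM_one hq hqN hr (ne_of_dvd hqN hrN) q z hz h) ψ

theorem UB_TB (hq : q.Prime) (hqN : ¬ q ∣ N) {r : ℕ} (hr : r.Prime) (hrN : r ∣ N)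
    (hrN' : r ∣ N * q) (φ : Additive (Gamma0 N) →+ A) :
    UB N A hrN (TB N A hq hqN φ) = TB N A hq hqN (UB N A hrN φ) := by
  have hN : 0 < N := Nat.pos_of_ne_zero (NeZero.ne N)
  rw [TB_eq_cor1_res2 hN hq hqN, TB_eq_cor1_res2 hN hq hqN, ← cor1_UB hq hqN hr hrN hrN',
    UB_res2 hq hqN hr hrN hrN']

end Main

/-! ### P-RELT -/

/-- **P-RELT**. -/
theorem stmt_PRELT : Stmt_PRELT := by
  intro N q _ _ hq hqN A _
  have hN : 0 < N := Nat.pos_of_ne_zero (NeZero.ne N)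
  refine ⟨fun ℓ hℓ hℓN hℓN' => ⟨fun φ => ⟨?_, ?_, ?_⟩, fun ψ => ⟨?_, ?_⟩⟩,
    fun r hr hrN hrN' => ⟨fun φ => ⟨?_, ?_, ?_⟩, fun ψ => ⟨?_, ?_⟩⟩,
    fun φ hφ => ⟨?_, ?_, ?_⟩, fun ψ hψ => ⟨?_, ?_⟩⟩
  · exact TB_res1 hℓ hℓN hℓN' φ
  · exact TB_res2 hq hℓ hℓN hℓN' φ
  · exact TB_TB hN hq hqN hℓ hℓN hℓN' φ
  · exact cor1_TB hq hqN hℓ hℓN hℓN' ψ
  · exact cor2_TB hq hqN hℓ hℓN hℓN' ψ
  · exact UB_res1 hrN hrN' φ
  · exact UB_res2 hq hqN hr hrN hrN' φ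
  · exact UB_TB hq hqN hr hrN hrN' φ
  · exact cor1_UB hq hqN hr hrN hrN' ψ
  · exact cor2_UB hq hqN hr hrN hrN' ψ
  · exact resAlong_par (inclG N q) (trG_inclG N q) hφ
  · exact resAlong_par (conjG N q) (trG_conjG N q) hφ
  · rw [TB_eq_cor1_res2 hN hq hqN]
    exact corAlong_par (inclG N q) (trG_inclG N q)
      (resAlong_par (conjG N q) (trG_conjG N q) hφ)
  · exact corAlong_par (inclG N q) (trG_inclG N q) hψ
  · exact corAlong_par (conjG N q) (trG_conjG N q) hψ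

end Fermat.Agent.S59.CaseC.Geom.H80
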