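import Fermat.Agent.S59.CaseC.Geom.H85_PDualK
import Fermat.Agent.S59.CaseC.Geom.H61_CHEBkp
import Fermat.Agent.S16.H38_Chi
import Fermat.Agent.S41.H77_CorComp

/-!
# S59, case C, PGEOM leaf P-DUAL (helper85): the assembly

* `inBettik_redB` (RED): the reduction of a class of the Betti lattice is in the `k`-level part;
* `stmt_PDUALk` : `Stmt_PDUALk`, the statement over the residue field (unconditional);
* `pdual_of : NonMin.Geom.Stmt_LIFTB → Stmt_PDUAL`.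

`Stmt_LIFTB` is helper94's leaf (lifting of the `k`-level part to the Betti lattice).
No `sorry`.
-/

set_option autoImplicit false
set_option linter.unusedSectionVars false
set_option linter.style.haveILetI false

open CuspForm CongruenceSubgroup IsLocalRing
open scoped MatrixGroups

namespace Fermat.Agent.S59.CaseC.Geom.H85

open Fermat.Agent.S41 Fermat.Agent.S41.H94 Fermat.Agent.Betti Fermat.Agent.S59
  Fermat.Agent.S59.NonMin Fermat.Agent.S59.NonMin.Geom Fermat.Agent.S59.CaseC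
  Fermat.Agent.S59.CaseC.Geom
open ModularCurve.Period

/-! ## RED -/

section Red

variable {𝒪 : Type} [CommRing 𝒪] [IsDomain 𝒪] [CharZero 𝒪]

/-- a parabolic homomorphism with values in a domain of characteristic zero is cuspidal -/
theorem isCuspidalHom_of_isParabolicHom {N : ℕ} {φ : Additive (Gamma0 N) →+ 𝒪}
    (hφ : IsParabolicHom (Gamma0 N) φ) : IsCuspidalHom (Gamma0 N) φ := by
  intro γ hγ
  rcases eq_or_lt_of_le hγ with h4 | h4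
  · exact hφ γ h4
  · have h12 : (γ : SL(2, ℤ)) ^ 12 = 1 := Fermat.Agent.S16.H38.pow_twelve_eq_one_of_trace _ h4
    have h12' : γ ^ 12 = 1 := Subtype.ext h12
    have h1 : (12 : ℕ) • φ (Additive.ofMul γ) = 0 := by
      rw [← map_nsmul, ← ofMul_pow, h12', ofMul_one, map_zero]
    rw [nsmul_eq_mul] at h1
    rcases mul_eq_zero.mp h1 with h | h
    · exact absurd h (by exact_mod_cast (by norm_num : (12 : ℕ) ≠ 0))
    · exact h

variable [IsLocalRing 𝒪]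

theorem TB_redB {N : ℕ} {ℓ : ℕ} (hℓ : ℓ.Prime) (hℓN : ¬ ℓ ∣ N) (φ : Additive (Gamma0 N) →+ 𝒪) :
    TB N (ResidueField 𝒪) hℓ hℓN (redB 𝒪 φ) = redB 𝒪 (TB N 𝒪 hℓ hℓN φ) := by
  have : Fact ℓ.Prime := ⟨hℓ⟩
  exact (isHeckeFamily_T N hℓN).heckeOp_comp (incl_injective N)
    (residue 𝒪).toAddMonoidHom φ

theorem UB_redB {N : ℕ} [NeZero N] {r : ℕ} (hr : r ∣ N) (φ : Additive (Gamma0 N) →+ 𝒪) :
    UB N (ResidueField 𝒪) hr (redB 𝒪 φ) = redB 𝒪 (UB N 𝒪 hr φ) := by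
  have : NeZero r := neZero_of_dvd hr
  exact (isHeckeFamily_U N hr).heckeOp_comp (incl_injective N)
    (residue 𝒪).toAddMonoidHom φ

theorem cor1_redB (N q : ℕ) (ψ : Additive (Gamma0 (N * q)) →+ 𝒪) :
    cor1 N q (ResidueField 𝒪) (redB 𝒪 ψ) = redB 𝒪 (cor1 N q 𝒪 ψ) :=
  Fermat.Agent.S41.H77.corAlong_map (inclG N q) (residue 𝒪).toAddMonoidHom ψ

theorem cor2_redB (N q : ℕ) (ψ : Additive (Gamma0 (N * q)) →+ 𝒪) :
    cor2 N q (ResidueField 𝒪) (redB 𝒪 ψ) = redB 𝒪 (cor2 N q 𝒪 ψ) :=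
  Fermat.Agent.S41.H77.corAlong_map (conjG N q) (residue 𝒪).toAddMonoidHom ψ

theorem shift_redB {N : ℕ} {ℓ : ℕ} (hℓ : ℓ.Prime) (hℓN : ¬ ℓ ∣ N) (a : 𝒪) (n : ℕ)
    (φ : Additive (Gamma0 N) →+ 𝒪) :
    (fun χ : Additive (Gamma0 N) →+ ResidueField 𝒪 =>
        TB N (ResidueField 𝒪) hℓ hℓN χ - residue 𝒪 a • χ)^[n] (redB 𝒪 φ)
      = redB 𝒪 ((fun χ : Additive (Gamma0 N) →+ 𝒪 => TB N 𝒪 hℓ hℓN χ - a • χ)^[n] φ) := by
  induction n generalizing φ with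
  | zero => rfl
  | succ n IH =>
    rw [Function.iterate_succ_apply, Function.iterate_succ_apply, ← IH]
    congr 1
    rw [TB_redB]
    refine AddMonoidHom.ext fun γ => ?_
    simp [redB]

/-- **RED**: the reduction of a class of the Betti lattice lies in the `k`-level part. -/
theorem inBettik_redB (N : ℕ) [NeZero N] (S : Set ℕ)
    (θ : CuspForm.heckeAlgebra N 2 S →+* ResidueField 𝒪) (Sig : Finset ℕ)
    (φ : Additive (Gamma0 N) →+ 𝒪) (h : InBetti 𝒪 N S θ Sig φ) :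
    InBettik (ResidueField 𝒪) N S θ Sig (redB 𝒪 φ) := by
  obtain ⟨hpar, hU, hT⟩ := h
  refine ⟨?_, ?_, ?_⟩
  · intro γ hγ
    rw [redB_apply, isCuspidalHom_of_isParabolicHom hpar γ hγ, map_zero]
  · intro r hr hrN
    rw [UB_redB, hU r hr hrN]
    rfl
  · intro ℓ hℓ hℓN hℓS
    obtain ⟨a, ha⟩ := residue_surjective (θ (CuspForm.heckeAlgebra.T hℓ hℓN hℓS))
    obtain ⟨n, hn⟩ := hT ℓ hℓ hℓN hℓS a ha 1
    refine ⟨n, ?_⟩
    rw [← ha, shift_redB]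
    refine AddMonoidHom.ext fun γ => ?_
    rw [redB_apply, AddMonoidHom.zero_apply, residue_eq_zero_iff]
    have := hn γ
    rwa [pow_one] at this

end Red

/-! ## The statement over the residue field -/

/-- the level of a state: every `r ∈ Sig` divides the level exactly twice
(as `NonMin.Geom.H72K.sig_level`, helper72) -/
theorem sig_level_h85 {p : ℕ} {Smin : Finset ℕ} {N₀ : ℕ} {Sig : Finset ℕ} {N : ℕ}
    {S : Finset ℕ} (hG : GeomHyp p Smin N₀ Sig N S) :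
    ∀ r ∈ Sig, r.Prime ∧ r ≠ p ∧ ∃ M₀ : ℕ, N = M₀ * r ^ 2 ∧ ¬ r ∣ M₀ := by
  intro r hr
  obtain ⟨hrp, hrne, hrS⟩ := hG.hSig r hr
  refine ⟨hrp, hrne, N₀ * ∏ s ∈ Sig.erase r, s ^ 2, ?_, ?_⟩
  · rw [hG.hN, ← Finset.mul_prod_erase Sig (fun s => s ^ 2) hr]
    ring
  · intro hd
    rcases (Nat.Prime.dvd_mul hrp).mp hd with h | h
    · exact hrS (hG.hN₀S r hrp h)
    · obtain ⟨s, hs, hrs⟩ := (Prime.dvd_finsetProd_iff hrp.prime _).mp h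
      have h1 : r ∣ s := hrp.dvd_of_dvd_pow hrs
      have hsp := (hG.hSig s (Finset.mem_of_mem_erase hs)).1
      have h2 : r = s := (Nat.prime_dvd_prime_iff_eq hrp hsp).mp h1
      exact (Finset.ne_of_mem_erase hs) h2.symm

/-- **P-DUAL-k**: `Stmt_PDUAL` over the residue field. -/
def Stmt_PDUALk : Prop :=
  ∀ (𝒪 : Type) [CommRing 𝒪] [IsDomain 𝒪] [IsDiscreteValuationRing 𝒪]
    [IsAdicComplete (maximalIdeal 𝒪) 𝒪] [Finite (ResidueField 𝒪)] [CharZero 𝒪]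
    (p : ℕ) [Fact p.Prime], p ≠ 2 → (p : 𝒪) ∈ maximalIdeal 𝒪 →
    ∀ (ρbar : ResidualGaloisRep (ResidueField 𝒪)) (Smin : Finset ℕ), ResHyp p ρbar Smin →
    ∀ (N₀ : ℕ) (Sig : Finset ℕ) (N : ℕ) [NeZero N] (S : Finset ℕ), GeomHyp p Smin N₀ Sig N S →
    ¬ p ∣ N →
    ∀ (θ : CuspForm.heckeAlgebra N 2 (↑S : Set ℕ) →+* ResidueField 𝒪),
    Fermat.Agent.S59.Datum.FrobHyp ρbar N S θ →
    ∀ [NeZero (N * p)]
      (rest : CuspForm.heckeAlgebra (N * p) 2 (↑S : Set ℕ) →+*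
        CuspForm.heckeAlgebra N 2 (↑S : Set ℕ)),
    (∀ (ℓ : ℕ) (hℓ : ℓ.Prime) (hℓN' : ¬ ℓ ∣ N * p) (hℓS : ℓ ∉ (↑S : Set ℕ)) (hℓN : ¬ ℓ ∣ N),
      rest (CuspForm.heckeAlgebra.T hℓ hℓN' hℓS) = CuspForm.heckeAlgebra.T hℓ hℓN hℓS) →
    ∀ φ₁ φ₂ : Additive (Gamma0 N) →+ ResidueField 𝒪,
    InBettik (ResidueField 𝒪) N (↑S : Set ℕ) θ Sig φ₁ →
    InBettik (ResidueField 𝒪) N (↑S : Set ℕ) θ Sig φ₂ →
      ∃ ψ : Additive (Gamma0 (N * p)) →+ ResidueField 𝒪,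
        InBettik (ResidueField 𝒪) (N * p) (↑S : Set ℕ) (θ.comp rest) Sig ψ ∧
        cor1 N p (ResidueField 𝒪) ψ = φ₁ ∧ cor2 N p (ResidueField 𝒪) ψ = φ₂

/-- **P-DUAL-k** (unconditional). -/
theorem stmt_PDUALk : Stmt_PDUALk := by
  intro 𝒪 _ _ _ _ _ _ p _ hp2 hp𝒪 ρbar Smin hres N₀ Sig N _ S hG hpN θ hθ _ rest hrest φ₁ φ₂
    h₁ h₂
  have hp : p.Prime := Fact.out
  haveI hchar : CharP (ResidueField 𝒪) p := by
    refine (CharP.charP_iff_prime_eq_zero hp).2 ?_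
    have h := (residue_eq_zero_iff (p : 𝒪)).2 hp𝒪
    rwa [map_natCast] at h
  refine pdualk_core (ResidueField 𝒪) p hp2 N hpN (↑S : Set ℕ) θ rest hrest Sig
    (sig_level_h85 hG) ?_ φ₁ φ₂ h₁ h₂
  intro M hM hpM
  obtain ⟨ℓ, hℓ, hℓN, hℓS, hℓS', hmod, hpow, hne⟩ :=
    H61.stmt_CHEBkp 𝒪 p hp2 hp𝒪 ρbar Smin hres N S θ hθ M hM hpM {p}
  exact ⟨ℓ, hℓ, hℓN, hℓS, fun e => hℓS' (by rw [e]; exact Finset.mem_singleton_self p), hmod,
    hpow, hne⟩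

/-! ## The assembly -/

/-- **P-DUAL** from the lifting `Stmt_LIFTB` (helper94). -/
theorem pdual_of (hL : Stmt_LIFTB) : Stmt_PDUAL := by
  intro 𝒪 _ _ _ _ _ _ p _ hp2 hp𝒪 ρbar Smin hres N₀ Sig N _ S hG hpN θ hθ _ rest hrest φ₁ φ₂
    h₁ h₂
  have hp : p.Prime := Fact.out
  obtain ⟨ψb, hψb, e1, e2⟩ := stmt_PDUALk 𝒪 p hp2 hp𝒪 ρbar Smin hres N₀ Sig N S hG hpN θ hθ
    rest hrest (redB 𝒪 φ₁) (redB 𝒪 φ₂) (inBettik_redB N _ θ Sig φ₁ h₁)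
    (inBettik_redB N _ θ Sig φ₂ h₂)
  have hSig' : ∀ r ∈ Sig, r.Prime ∧ r ≠ p ∧ ∃ M₀ : ℕ, N * p = M₀ * r ^ 2 ∧ ¬ r ∣ M₀ := by
    intro r hr
    obtain ⟨hrp, hrne, M₀, hM, hrM₀⟩ := sig_level_h85 hG r hr
    refine ⟨hrp, hrne, M₀ * p, by rw [hM]; ring, ?_⟩
    intro hd
    rcases (Nat.Prime.dvd_mul hrp).mp hd with h | h
    · exact hrM₀ h
    · exact hrne ((Nat.prime_dvd_prime_iff_eq hrp hp).mp h)
  obtain ⟨ψ, hψ, hred⟩ := hL 𝒪 p hp𝒪 (N * p) (↑S : Set ℕ) (θ.comp rest) Sig hSig' ψb hψb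
  refine ⟨ψ, hψ, fun γ => ⟨?_, ?_⟩⟩
  · rw [← residue_eq_zero_iff, AddMonoidHom.sub_apply, map_sub, sub_eq_zero,
      ← redB_apply 𝒪 (cor1 N p 𝒪 ψ), ← cor1_redB, hred, e1]
    rfl
  · rw [← residue_eq_zero_iff, AddMonoidHom.sub_apply, map_sub, sub_eq_zero,
      ← redB_apply 𝒪 (cor2 N p 𝒪 ψ), ← cor2_redB, hred, e2]
    rfl

end Fermat.Agent.S59.CaseC.Geom.H85
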