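import Fermat.Agent.S59.CaseC.Geom.H85_PDual
import Fermat.Agent.S59.NonMin.Geom.H94_UAdj

/-!
# S59, case C, PGEOM leaf P-DUAL (helper85): the final statement

`stmt_PDUAL : Stmt_PDUAL`, unconditional, from `pdual_of` and helper94's `stmt_LIFTB`.
No `sorry`.
-/

set_option autoImplicit false

namespace Fermat.Agent.S59.CaseC.Geom.H85

/-- **P-DUAL**, unconditional. -/
theorem stmt_PDUAL : Fermat.Agent.S59.CaseC.Geom.Stmt_PDUAL :=
  pdual_of Fermat.Agent.S59.NonMin.Geom.H94.stmt_LIFTB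

end Fermat.Agent.S59.CaseC.Geom.H85
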