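import Fermat.Agent.S59.CaseC.Geom.H85_PDualOps
import Fermat.Agent.S59.NonMin.Geom.H85_ThetaSurj
import Fermat.Agent.S59.CaseC.Geom.H78_Ihara2k

/-!
# S59, case C, PGEOM leaf P-DUAL (helper85): the statement over the residue field

`pdualk_core` : over a finite field `k` of characteristic `p ≠ 2`, for `p ∤ N`, the map
`(cor1, cor2)` from the `θ`-part of the cuspidal classes of level `N p` killed by the `U_r`
(`r ∈ Sig`) to the square of the same part of level `N` is ONTO.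

Inputs: the pairing `S41.H94.BL` (perfect, `res_i ↔ cor_i` adjoint, `T_ℓ` self-adjoint), Ihara's
lemma `Stmt_IHARA2k` (helper78) with the primes of Chebotarev as a hypothesis, the commutation
relations (helper98, helper80), `KERU` (helper98) and the abstract `NonMin.Geom.H85.theta_surj`.

No `sorry`.
-/

set_option autoImplicit false

open CuspForm CongruenceSubgroup
open scoped MatrixGroups

namespace Fermat.Agent.S59.CaseC.Geom.H85

open Fermat.Agent.S41 Fermat.Agent.S41.H94 Fermat.Agent.Betti Fermat.Agent.S59.NonMin.Geom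

/-- the additive group structure of the cuspidal classes (instance search needs help here) -/
noncomputable local instance instACGcusp {k : Type} [Field k] (M : ℕ) :
    AddCommGroup (cuspSub k M) :=
  Submodule.addCommGroup _

section Shift

variable {k : Type} [Field k]

/-- the shifted operator `T_ℓ - a` on the cuspidal classes -/
noncomputable def TSh (M : ℕ) {ℓ : ℕ} (hℓ : ℓ.Prime) (hℓM : ¬ ℓ ∣ M) (a : k) :
    Module.End k (cuspSub k M) :=
  TLk k M hℓ hℓM - algebraMap k (Module.End k (cuspSub k M)) a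

theorem TSh_apply (M : ℕ) {ℓ : ℕ} (hℓ : ℓ.Prime) (hℓM : ¬ ℓ ∣ M) (a : k) (x : cuspSub k M) :
    TSh M hℓ hℓM a x = TLk k M hℓ hℓM x - a • x := by
  rw [TSh, LinearMap.sub_apply, Module.algebraMap_end_apply]

theorem TSh_coe (M : ℕ) {ℓ : ℕ} (hℓ : ℓ.Prime) (hℓM : ¬ ℓ ∣ M) (a : k) (x : cuspSub k M) :
    (TSh M hℓ hℓM a x : Additive (Gamma0 M) →+ k) = TB M k hℓ hℓM x.1 - a • x.1 := by
  rw [TSh_apply]
  rfl

/-- powers of an operator on the subspace and iterates of the underlying map -/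
theorem coe_pow_apply (M : ℕ) (E : Module.End k (cuspSub k M))
    (f : (Additive (Gamma0 M) →+ k) → (Additive (Gamma0 M) →+ k))
    (hE : ∀ x : cuspSub k M, (E x : Additive (Gamma0 M) →+ k) = f x.1) (n : ℕ)
    (x : cuspSub k M) : ((E ^ n) x : Additive (Gamma0 M) →+ k) = f^[n] x.1 := by
  induction n generalizing x with
  | zero => rfl
  | succ n IH => rw [pow_succ, Module.End.mul_apply, IH, hE, Function.iterate_succ_apply]

theorem TSh_pow_coe (M : ℕ) {ℓ : ℕ} (hℓ : ℓ.Prime) (hℓM : ¬ ℓ ∣ M) (a : k) (n : ℕ)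
    (x : cuspSub k M) :
    ((TSh M hℓ hℓM a ^ n) x : Additive (Gamma0 M) →+ k)
      = (fun χ : Additive (Gamma0 M) →+ k => TB M k hℓ hℓM χ - a • χ)^[n] x.1 :=
  coe_pow_apply M _ _ (fun x => TSh_coe M hℓ hℓM a x) n x

theorem ULk_pow_coe (M : ℕ) [NeZero M] {r : ℕ} (hr : r ∣ M) (n : ℕ) (x : cuspSub k M) :
    ((ULk k M hr ^ n) x : Additive (Gamma0 M) →+ k) = (⇑(UB M k hr))^[n] x.1 :=
  coe_pow_apply M _ _ (fun _ => rfl) n x

theorem commute_sub_algebraMap {E : Type*} [Ring E] [Algebra k E] {f g : E} (h : Commute f g)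
    (a b : k) : Commute (f - algebraMap k E a) (g - algebraMap k E b) :=
  (h.sub_right (Algebra.commute_algebraMap_right b f)).sub_left
    ((Algebra.commute_algebraMap_left a g).sub_right (Algebra.commute_algebraMap_left a _))

theorem commute_sub_algebraMap_left {E : Type*} [Ring E] [Algebra k E] {f g : E}
    (h : Commute f g) (a : k) : Commute (f - algebraMap k E a) g :=
  h.sub_left (Algebra.commute_algebraMap_left a g)

theorem commute_sub_algebraMap_right {E : Type*} [Ring E] [Algebra k E] {f g : E}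
    (h : Commute f g) (b : k) : Commute f (g - algebraMap k E b) :=
  h.sub_right (Algebra.commute_algebraMap_right b f)

variable {W : Type*} [AddCommGroup W] [Module k W]

theorem prodMap_pow_apply (f : Module.End k W) (n : ℕ) (x : W × W) :
    ((LinearMap.prodMap f f : Module.End k (W × W)) ^ n) x = ((f ^ n) x.1, (f ^ n) x.2) := by
  induction n generalizing x with
  | zero => rfl
  | succ n IH =>
    rw [pow_succ, Module.End.mul_apply, IH, LinearMap.prodMap_apply, pow_succ,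
      Module.End.mul_apply, Module.End.mul_apply]

theorem prodMap_commute {f g : Module.End k W} (h : Commute f g) :
    Commute (LinearMap.prodMap f f : Module.End k (W × W)) (LinearMap.prodMap g g) := by
  refine LinearMap.ext fun x => ?_
  have e1 : f (g x.1) = g (f x.1) := congrArg (fun e : Module.End k W => e x.1) h.eq
  have e2 : f (g x.2) = g (f x.2) := congrArg (fun e : Module.End k W => e x.2) h.eq
  simp only [Module.End.mul_apply, LinearMap.prodMap_apply, e1, e2]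

end Shift

/-! ## The data of the abstract theorem -/

section Data

variable (k : Type) [Field k] (h2 : (2 : k) ≠ 0) (N p : ℕ) [NeZero N] [NeZero (N * p)]
  (S : Set ℕ) (θ : CuspForm.heckeAlgebra N 2 S →+* k) (Sig : Finset ℕ)

/-- the good primes -/
abbrev IdxT : Type := {ℓ : ℕ // ℓ.Prime ∧ ¬ ℓ ∣ N * p ∧ ℓ ∉ S}

variable {N p S}

omit [NeZero N] [NeZero (N * p)] in
theorem IdxT.not_dvd (i : IdxT N p S) : ¬ i.1 ∣ N := fun h => i.2.2.1 (dvd_mul_of_dvd_left h _)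

variable {k}

/-- the eigenvalue `θ(T_ℓ)` -/
noncomputable def aT (i : IdxT N p S) : k :=
  θ (CuspForm.heckeAlgebra.T i.2.1 i.not_dvd i.2.2.2)

/-- `T_ℓ - θ(T_ℓ)` at the level `N` -/
noncomputable def TN (i : IdxT N p S) : Module.End k (cuspSub k N) :=
  TSh N i.2.1 i.not_dvd (aT θ i)

/-- `T_ℓ - θ(T_ℓ)` at the level `N p` -/
noncomputable def TN' (i : IdxT N p S) : Module.End k (cuspSub k (N * p)) :=
  TSh (N * p) i.2.1 i.2.2.1 (aT θ i)

/-- the diagonal operator on pairs -/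
noncomputable def dg {W : Type*} [AddCommGroup W] [Module k W] (f : Module.End k W) :
    Module.End k (W × W) := LinearMap.prodMap f f

theorem dg_apply {W : Type*} [AddCommGroup W] [Module k W] (f : Module.End k W) (x : W × W) :
    dg f x = (f x.1, f x.2) := rfl

theorem dg_pow_apply {W : Type*} [AddCommGroup W] [Module k W] (f : Module.End k W) (n : ℕ)
    (x : W × W) : ((dg f) ^ n) x = ((f ^ n) x.1, (f ^ n) x.2) :=
  prodMap_pow_apply f n x

theorem dg_commute {W : Type*} [AddCommGroup W] [Module k W] {f g : Module.End k W}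
    (h : Commute f g) : Commute (dg f) (dg g) := prodMap_commute h

variable (N) in
/-- the pairing on pairs -/
noncomputable def B2 : (cuspSub k N × cuspSub k N) →ₗ[k] (cuspSub k N × cuspSub k N) →ₗ[k] k :=
  (BL leaves h2 N).compl₁₂ (LinearMap.fst k _ _) (LinearMap.fst k _ _)
    + (BL leaves h2 N).compl₁₂ (LinearMap.snd k _ _) (LinearMap.snd k _ _)

theorem B2_apply (x y : cuspSub k N × cuspSub k N) :
    B2 h2 N x y = BL leaves h2 N x.1 y.1 + BL leaves h2 N x.2 y.2 := rfl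

theorem B2_nondeg (x : cuspSub k N × cuspSub k N) (hx : ∀ y, B2 h2 N x y = 0) : x = 0 := by
  obtain ⟨x₁, x₂⟩ := x
  have e1 : x₁ = 0 := BL_nondeg leaves h2 N x₁ (fun y => by
    have := hx (y, 0)
    rw [B2_apply] at this
    simpa using this)
  have e2 : x₂ = 0 := BL_nondeg leaves h2 N x₂ (fun y => by
    have := hx (0, y)
    rw [B2_apply] at this
    simpa using this)
  rw [e1, e2]
  rfl

variable (N p) in
/-- `(x₁, x₂) ↦ res1 x₁ + res2 x₂` -/
noncomputable def rr (hN : N ≠ 0) (hp : p ≠ 0) :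
    (cuspSub k N × cuspSub k N) →ₗ[k] cuspSub k (N * p) :=
  (resL1 leaves h2 N p hN hp).coprod (resL2 leaves h2 N p hN hp)

variable (N p) in
/-- `y ↦ (cor1 y, cor2 y)` -/
noncomputable def cc (hN : N ≠ 0) (hp : p ≠ 0) :
    cuspSub k (N * p) →ₗ[k] (cuspSub k N × cuspSub k N) :=
  (corL1 leaves h2 N p hN hp).prod (corL2 leaves h2 N p hN hp)

omit [NeZero N] [NeZero (N * p)] in
theorem rr_apply (hN : N ≠ 0) (hp : p ≠ 0) (x : cuspSub k N × cuspSub k N) :
    rr h2 N p hN hp x = resL1 leaves h2 N p hN hp x.1 + resL2 leaves h2 N p hN hp x.2 := rfl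

omit [NeZero N] [NeZero (N * p)] in
theorem cc_apply (hN : N ≠ 0) (hp : p ≠ 0) (y : cuspSub k (N * p)) :
    cc h2 N p hN hp y = (corL1 leaves h2 N p hN hp y, corL2 leaves h2 N p hN hp y) := rfl

theorem adj2 (hN : N ≠ 0) (hp : p ≠ 0) (x : cuspSub k N × cuspSub k N)
    (y : cuspSub k (N * p)) :
    BL leaves h2 (N * p) (rr h2 N p hN hp x) y = B2 h2 N x (cc h2 N p hN hp y) := by
  rw [rr_apply, cc_apply, B2_apply, map_add, LinearMap.add_apply, BL_adj1, BL_adj2]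

omit [NeZero (N * p)] in
theorem B2_TN (i : IdxT N p S) (x y : cuspSub k N × cuspSub k N) :
    B2 h2 N x (dg (TN θ i) y) = B2 h2 N (dg (TN θ i) x) y := by
  simp only [B2_apply, dg_apply, TN, TSh_apply, map_sub, map_smul, LinearMap.sub_apply,
    LinearMap.smul_apply, BL_TLk leaves h2 N]

omit [NeZero (N * p)] in
theorem TN_comm (i j : IdxT N p S) : Commute (TN θ i) (TN θ j) :=
  commute_sub_algebraMap (TLk_comm_TLk N _ _ _ _) _ _

theorem TN'_comm (i j : IdxT N p S) : Commute (TN' θ i) (TN' θ j) :=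
  commute_sub_algebraMap (TLk_comm_TLk (N * p) _ _ _ _) _ _

omit [NeZero (N * p)] in
theorem cc_TN' (hp : p.Prime) (hpN : ¬ p ∣ N) (i : IdxT N p S) (y : cuspSub k (N * p)) :
    cc h2 N p (NeZero.ne N) hp.ne_zero (TN' θ i y)
      = dg (TN θ i) (cc h2 N p (NeZero.ne N) hp.ne_zero y) := by
  refine Prod.ext ?_ ?_
  · show corL1 leaves h2 N p (NeZero.ne N) hp.ne_zero (TN' θ i y)
      = TN θ i (corL1 leaves h2 N p (NeZero.ne N) hp.ne_zero y)
    rw [TN', TN, TSh_apply, TSh_apply, map_sub, map_smul,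
      corL1_TLk leaves h2 (NeZero.ne N) hp hpN i.2.1 i.not_dvd i.2.2.1]
  · show corL2 leaves h2 N p (NeZero.ne N) hp.ne_zero (TN' θ i y)
      = TN θ i (corL2 leaves h2 N p (NeZero.ne N) hp.ne_zero y)
    rw [TN', TN, TSh_apply, TSh_apply, map_sub, map_smul,
      corL2_TLk leaves h2 (NeZero.ne N) hp hpN i.2.1 i.not_dvd i.2.2.1]

/-- the primes of `Sig` -/
abbrev IdxU (Sig : Finset ℕ) : Type := {r : ℕ // r ∈ Sig}

/-- the whole family at the level `N` -/
noncomputable def NJ (hSigN : ∀ r ∈ Sig, r ∣ N) :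
    IdxT N p S ⊕ IdxU Sig → Module.End k (cuspSub k N × cuspSub k N) :=
  Sum.elim (fun i => dg (TN θ i)) (fun r => dg (ULk k N (hSigN r.1 r.2)))

/-- the whole family at the level `N p` -/
noncomputable def NJ' (hSigN' : ∀ r ∈ Sig, r ∣ N * p) :
    IdxT N p S ⊕ IdxU Sig → Module.End k (cuspSub k (N * p)) :=
  Sum.elim (fun i => TN' θ i) (fun r => ULk k (N * p) (hSigN' r.1 r.2))

theorem NJ'_comm (hSigN' : ∀ r ∈ Sig, r ∣ N * p) (i j : IdxT N p S ⊕ IdxU Sig) :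
    Commute (NJ' θ Sig hSigN' i) (NJ' θ Sig hSigN' j) := by
  rcases i with i | r <;> rcases j with j | s
  · exact TN'_comm θ i j
  · exact commute_sub_algebraMap_left (ULk_comm_TLk (N * p) _ _ _).symm _
  · exact commute_sub_algebraMap_right (ULk_comm_TLk (N * p) _ _ _) _
  · exact ULk_comm_ULk (N * p) _ _

theorem cc_NJ' (hp : p.Prime) (hpN : ¬ p ∣ N) (hSigP : ∀ r ∈ Sig, r.Prime)
    (hSigN : ∀ r ∈ Sig, r ∣ N) (hSigN' : ∀ r ∈ Sig, r ∣ N * p)
    (j : IdxT N p S ⊕ IdxU Sig) (y : cuspSub k (N * p)) :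
    cc h2 N p (NeZero.ne N) hp.ne_zero (NJ' θ Sig hSigN' j y)
      = NJ θ Sig hSigN j (cc h2 N p (NeZero.ne N) hp.ne_zero y) := by
  rcases j with i | r
  · exact cc_TN' h2 θ hp hpN i y
  · simp only [NJ, NJ', Sum.elim_inr, cc_apply, dg_apply,
      corL1_ULk leaves h2 (NeZero.ne N) hp hpN (hSigP r.1 r.2) (hSigN r.1 r.2) (hSigN' r.1 r.2),
      corL2_ULk leaves h2 (NeZero.ne N) hp hpN (hSigP r.1 r.2) (hSigN r.1 r.2) (hSigN' r.1 r.2)]

end Data

/-! ## The statement over a finite field -/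

section Core

theorem pow_apply_eq_zero_of_le {k : Type} [Field k] {W : Type*} [AddCommGroup W] [Module k W]
    (f : Module.End k W) {x : W} {n m : ℕ} (h : (f ^ n) x = 0) (hnm : n ≤ m) :
    (f ^ m) x = 0 := by
  obtain ⟨d, rfl⟩ := Nat.exists_eq_add_of_le hnm
  rw [add_comm, pow_add, Module.End.mul_apply, h, map_zero]

/-- **P-DUAL over a finite field.** -/
theorem pdualk_core (k : Type) [Field k] [Finite k] (p : ℕ) [Fact p.Prime] [CharP k p]
    (hp2 : p ≠ 2) (N : ℕ) [NeZero N] [NeZero (N * p)] (hpN : ¬ p ∣ N) (S : Set ℕ)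
    (θ : CuspForm.heckeAlgebra N 2 S →+* k)
    (rest : CuspForm.heckeAlgebra (N * p) 2 S →+* CuspForm.heckeAlgebra N 2 S)
    (hrest : ∀ (ℓ : ℕ) (hℓ : ℓ.Prime) (hℓN' : ¬ ℓ ∣ N * p) (hℓS : ℓ ∉ S) (hℓN : ¬ ℓ ∣ N),
      rest (CuspForm.heckeAlgebra.T hℓ hℓN' hℓS) = CuspForm.heckeAlgebra.T hℓ hℓN hℓS)
    (Sig : Finset ℕ)
    (hSig : ∀ r ∈ Sig, r.Prime ∧ r ≠ p ∧ ∃ M₀ : ℕ, N = M₀ * r ^ 2 ∧ ¬ r ∣ M₀)
    (hcheb : ∀ M : ℕ, 0 < M → p ∣ M →
      ∃ (ℓ : ℕ) (hℓ : ℓ.Prime) (hℓN : ¬ ℓ ∣ N) (hℓS : ℓ ∉ S),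
        ℓ ≠ p ∧ ℓ % M = 1 % M ∧ (p : ZMod ℓ) ^ ((ℓ - 1) / p) ≠ 1 ∧
        θ (CuspForm.heckeAlgebra.T hℓ hℓN hℓS) ≠ 2)
    (φ₁ φ₂ : Additive (Gamma0 N) →+ k)
    (h₁ : InBettik k N S θ Sig φ₁) (h₂ : InBettik k N S θ Sig φ₂) :
    ∃ ψ : Additive (Gamma0 (N * p)) →+ k, InBettik k (N * p) S (θ.comp rest) Sig ψ ∧
      cor1 N p k ψ = φ₁ ∧ cor2 N p k ψ = φ₂ := by
  classical
  have hp : p.Prime := Fact.out
  have hN : 0 < N := Nat.pos_of_ne_zero (NeZero.ne N)
  have h2 : (2 : k) ≠ 0 := by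
    intro h
    have h' : ((2 : ℕ) : k) = 0 := by exact_mod_cast h
    rw [CharP.cast_eq_zero_iff k p] at h'
    exact hp2 ((Nat.prime_dvd_prime_iff_eq hp Nat.prime_two).mp h')
  have hrk : ∀ r ∈ Sig, ((r : ℕ) : k) ≠ 0 := by
    intro r hr h
    rw [CharP.cast_eq_zero_iff k p] at h
    exact (hSig r hr).2.1 ((Nat.prime_dvd_prime_iff_eq hp (hSig r hr).1).mp h).symm
  have hSigP : ∀ r ∈ Sig, r.Prime := fun r hr => (hSig r hr).1
  have hSigN : ∀ r ∈ Sig, r ∣ N := by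
    intro r hr
    obtain ⟨_, _, M₀, hM, _⟩ := hSig r hr
    rw [hM]
    exact dvd_mul_of_dvd_right (dvd_pow_self r two_ne_zero) M₀
  have hSigN' : ∀ r ∈ Sig, r ∣ N * p := fun r hr => dvd_mul_of_dvd_left (hSigN r hr) p
  -- finiteness
  have : Group.FG (Gamma0 N) := fg_Gamma0 N
  have : Group.FG (Gamma0 (N * p)) := fg_Gamma0 (N * p)
  have : Finite (Additive (Gamma0 N) →+ k) := finite_addHom_of_fg _ _
  have : Finite (Additive (Gamma0 (N * p)) →+ k) := finite_addHom_of_fg _ _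
  have : Finite (cuspSub k N) := Subtype.finite
  have : Finite (cuspSub k (N * p)) := Subtype.finite
  have : Module.Finite k (cuspSub k N) := Module.Finite.of_finite
  have : Module.Finite k (cuspSub k (N * p)) := Module.Finite.of_finite
  -- Ihara's lemma
  have ih : ∀ z : cuspSub k N × cuspSub k N, (∀ i : IdxT N p S, dg (TN θ i) z = 0) →
      rr h2 N p (NeZero.ne N) hp.ne_zero z = 0 → z = 0 := by
    rintro ⟨x₁, x₂⟩ hz hr
    have hx : x₁.1 = 0 ∧ x₂.1 = 0 := by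
      refine H78.stmt_IHARA2k k p hp2 N p hN hp hpN
        (fun ℓ => ℓ.Prime ∧ ¬ ℓ ∣ N * p ∧ ℓ ∉ S)
        (fun ℓ => if h : ℓ.Prime ∧ ¬ ℓ ∣ N ∧ ℓ ∉ S then
          θ (CuspForm.heckeAlgebra.T h.1 h.2.1 h.2.2) else 0)
        (fun ℓ hℓ => ⟨hℓ.1, hℓ.2.1, fun e => hℓ.2.1 (e ▸ dvd_mul_left p N)⟩)
        ?_ x₁.1 x₂.1 x₁.2 x₂.2 ?_ ?_
      · intro M hM hpM
        obtain ⟨ℓ, hℓ, hℓN, hℓS, hℓp, hmod, hpow, hne⟩ := hcheb M hM hpM
        refine ⟨ℓ, ⟨hℓ, ?_, hℓS⟩, hmod, hpow, ?_⟩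
        · intro hd
          rcases (Nat.Prime.dvd_mul hℓ).mp hd with h | h
          · exact hℓN h
          · exact hℓp ((Nat.prime_dvd_prime_iff_eq hℓ hp).mp h)
        · rw [dif_pos ⟨hℓ, hℓN, hℓS⟩]
          exact hne
      · intro ℓ hℓ hℓN hP
        rw [dif_pos ⟨hℓ, hℓN, hP.2.2⟩]
        have h0 := hz ⟨ℓ, hP⟩
        have h1 : (TN θ ⟨ℓ, hP⟩ x₁ : Additive (Gamma0 N) →+ k) = 0 :=
          congrArg (fun z : cuspSub k N × cuspSub k N =>
            (z.1 : Additive (Gamma0 N) →+ k)) h0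
        rw [TN, TSh_coe] at h1
        exact sub_eq_zero.mp h1
      · exact congrArg (fun z : cuspSub k (N * p) =>
          (z : Additive (Gamma0 (N * p)) →+ k)) hr
    exact Prod.ext (Subtype.ext hx.1) (Subtype.ext hx.2)
  -- nilpotence at `x`
  have hnil : ∀ (φ : Additive (Gamma0 N) →+ k) (hφ : InBettik k N S θ Sig φ) (i : IdxT N p S),
      ∃ n : ℕ, ((TN θ i) ^ n) (⟨φ, hφ.1⟩ : cuspSub k N) = 0 := by
    intro φ hφ i
    obtain ⟨n, hn⟩ := hφ.2.2 i.1 i.2.1 i.not_dvd i.2.2.2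
    refine ⟨n, Subtype.ext ?_⟩
    rw [TN, TSh_pow_coe]
    exact hn
  have hxT : ∀ i : IdxT N p S, ∃ n : ℕ,
      ((dg (TN θ i)) ^ n) ((⟨φ₁, h₁.1⟩, ⟨φ₂, h₂.1⟩) : cuspSub k N × cuspSub k N) = 0 := by
    intro i
    obtain ⟨n₁, hn₁⟩ := hnil φ₁ h₁ i
    obtain ⟨n₂, hn₂⟩ := hnil φ₂ h₂ i
    refine ⟨n₁ + n₂, ?_⟩
    rw [dg_pow_apply]
    exact Prod.ext (pow_apply_eq_zero_of_le _ hn₁ (Nat.le_add_right _ _))
      (pow_apply_eq_zero_of_le _ hn₂ (Nat.le_add_left _ _))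
  have hxN : ∀ j : IdxT N p S ⊕ IdxU Sig, ∃ n : ℕ,
      ((NJ θ Sig hSigN j) ^ n) ((⟨φ₁, h₁.1⟩, ⟨φ₂, h₂.1⟩) : cuspSub k N × cuspSub k N) = 0 := by
    rintro (i | r)
    · exact hxT i
    · refine ⟨1, ?_⟩
      rw [pow_one]
      exact Prod.ext (Subtype.ext (h₁.2.1 r.1 r.2 (hSigN r.1 r.2)))
        (Subtype.ext (h₂.2.1 r.1 r.2 (hSigN r.1 r.2)))
  obtain ⟨y, hy, hyn⟩ := Fermat.Agent.S59.NonMin.Geom.H85.theta_surj
    (B2 h2 N) (BL leaves h2 (N * p)) (B2_nondeg h2) (BL_nondeg leaves h2 (N * p))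
    (rr h2 N p (NeZero.ne N) hp.ne_zero) (cc h2 N p (NeZero.ne N) hp.ne_zero)
    (adj2 h2 (NeZero.ne N) hp.ne_zero)
    (fun i : IdxT N p S => dg (TN θ i)) (fun i j => dg_commute (TN_comm θ i j))
    (B2_TN h2 θ) (TN' θ) (cc_TN' h2 θ hp hpN) ih
    (NJ θ Sig hSigN) (NJ' θ Sig hSigN') (NJ'_comm θ Sig hSigN')
    (cc_NJ' h2 θ Sig hp hpN hSigP hSigN hSigN')
    ((⟨φ₁, h₁.1⟩, ⟨φ₂, h₂.1⟩) : cuspSub k N × cuspSub k N) hxT hxN
  refine ⟨y.1, ⟨y.2, ?_, ?_⟩, ?_, ?_⟩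
  · -- `U_r y = 0`
    intro r hr hd
    obtain ⟨n, hn⟩ := hyn (Sum.inr ⟨r, hr⟩)
    have hn' : (⇑(UB (N * p) k hd))^[n] y.1 = 0 := by
      have := congrArg (fun z : cuspSub k (N * p) =>
        (z : Additive (Gamma0 (N * p)) →+ k)) hn
      simp only [NJ', Sum.elim_inr] at this
      rw [ULk_pow_coe] at this
      exact this
    obtain ⟨_, hrp, M₀, hM, hrM₀⟩ := hSig r hr
    rcases n with _ | n
    · have hy0 : y.1 = 0 := hn'
      rw [hy0, map_zero]
    · refine keru_iterate (N * p) (hSigP r hr) (M₀ * p) (by rw [hM]; ring) ?_ (hrk r hr) hd n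
        y.1 hn'
      intro hd'
      rcases (Nat.Prime.dvd_mul (hSigP r hr)).mp hd' with h | h
      · exact hrM₀ h
      · exact hrp ((Nat.prime_dvd_prime_iff_eq (hSigP r hr) hp).mp h)
  · -- `θ`-nilpotence
    intro ℓ hℓ hℓN' hℓS
    obtain ⟨n, hn⟩ := hyn (Sum.inl ⟨ℓ, hℓ, hℓN', hℓS⟩)
    refine ⟨n, ?_⟩
    have e : (θ.comp rest) (CuspForm.heckeAlgebra.T hℓ hℓN' hℓS)
        = aT θ (⟨ℓ, hℓ, hℓN', hℓS⟩ : IdxT N p S) := by
      rw [RingHom.comp_apply, hrest ℓ hℓ hℓN' hℓS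
        (IdxT.not_dvd (⟨ℓ, hℓ, hℓN', hℓS⟩ : IdxT N p S))]
      rfl
    rw [e]
    have := congrArg (fun z : cuspSub k (N * p) =>
      (z : Additive (Gamma0 (N * p)) →+ k)) hn
    simp only [NJ', Sum.elim_inl] at this
    rw [TN', TSh_pow_coe] at this
    exact this
  · exact congrArg (fun z : cuspSub k N × cuspSub k N =>
      (z.1 : Additive (Gamma0 N) →+ k)) hy
  · exact congrArg (fun z : cuspSub k N × cuspSub k N =>
      (z.2 : Additive (Gamma0 N) →+ k)) hy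

end Core

end Fermat.Agent.S59.CaseC.Geom.H85
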