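import Fermat.Agent.S59.CaseC.Geom.Defs
import Fermat.Agent.S59.NonMin.Geom.H94_DualDefs
import Fermat.Agent.S59.NonMin.Geom.H94_RelPar
import Fermat.Agent.S59.NonMin.Geom.H98_CommT
import Fermat.Agent.S59.NonMin.Geom.H98_KerU
import Fermat.Agent.S59.CaseC.Geom.H80_PRelT
import Fermat.Agent.S41.H94_Leaves
import Fermat.Agent.Betti.H76_Vanish

/-!
# S59, case C, PGEOM leaf P-DUAL (helper85): the Hecke operators on cuspidal classes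

* `TB_cusp`, `UB_cusp` : the Betti Hecke operators preserve cuspidal homomorphisms (any
  coefficient group);
* `TLk`, `ULk` : `T_ℓ`, `U_r` as endomorphisms of `S41.H94.cuspSub k M`;
* commutation, self-adjointness of `TLk` for `S41.H94.BL`, compatibility with `corL1`, `corL2`;
* `keru_gen`, `keru_pow` : `U_r^n ψ = 0 → U_r ψ = 0` at a level `M = M₀ r²`.

No `sorry`.
-/

set_option autoImplicit false

open CuspForm CongruenceSubgroup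
open scoped MatrixGroups

namespace Fermat.Agent.S59.CaseC.Geom.H85

open Fermat.Agent.S41 Fermat.Agent.S41.H94 Fermat.Agent.Betti Fermat.Agent.S59.NonMin.Geom

/-! ## Cuspidal homomorphisms are preserved by the Hecke operators -/

section Cusp

variable {N : ℕ} {A : Type*} [AddCommGroup A]

/-- The class of elements of trace `t` with `t² ≤ 4` satisfies the hypothesis of
`heckeOp_vanishes_gen`. -/
theorem cuspidal_stable (N : ℕ) {ι : Type*} (rep : ι → GL (Fin 2) ℝ) (γ : Gamma0 N)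
    (hγ : ((γ : SL(2, ℤ)) : Matrix (Fin 2) (Fin 2) ℤ).trace ^ 2 ≤ 4) (n : ℕ) (i : ι)
    (κ : Gamma0 N) (h : rep i * incl N (γ ^ n) = incl N κ * rep i) :
    ((κ : SL(2, ℤ)) : Matrix (Fin 2) (Fin 2) ℤ).trace ^ 2 ≤ 4 := by
  have h1 : incl N κ = rep i * incl N (γ ^ n) * (rep i)⁻¹ := by
    rw [h, mul_inv_cancel_right]
  have h2 : ((incl N κ : GL (Fin 2) ℝ) : Matrix (Fin 2) (Fin 2) ℝ).trace
      = ((incl N (γ ^ n) : GL (Fin 2) ℝ) : Matrix (Fin 2) (Fin 2) ℝ).trace := by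
    rw [h1]
    exact Matrix.trace_units_conj (rep i) _
  rw [incl_apply, incl_apply, trace_mapGL, trace_mapGL] at h2
  have h3 : ((κ : SL(2, ℤ)) : Matrix (Fin 2) (Fin 2) ℤ).trace
      = (((γ ^ n : Gamma0 N) : SL(2, ℤ)) : Matrix (Fin 2) (Fin 2) ℤ).trace := by
    exact_mod_cast h2
  rw [h3]
  exact Fermat.Agent.S59.NonMin.Geom.H94.trG_pow_sq_le γ n hγ

theorem heckeOp_isCuspidalHom {ι : Type*} [Fintype ι] {rep : ι → GL (Fin 2) ℝ}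
    (H : IsHeckeFamily (incl N) rep) {φ : Additive (Gamma0 N) →+ A}
    (hφ : IsCuspidalHom (Gamma0 N) φ) :
    IsCuspidalHom (Gamma0 N) (H.heckeOp (incl_injective N) φ) := by
  intro γ hγ
  exact Fermat.Agent.Betti.H76.heckeOp_vanishes_gen H (incl_injective N)
    {γ : Gamma0 N | ((γ : SL(2, ℤ)) : Matrix (Fin 2) (Fin 2) ℤ).trace ^ 2 ≤ 4}
    (fun γ hγ n _ i κ h => cuspidal_stable N rep γ hγ n i κ h) φ (fun γ hγ => hφ γ hγ) γ hγ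

/-- `T_ℓ` preserves cuspidal homomorphisms. -/
theorem TB_cusp {ℓ : ℕ} (hℓ : ℓ.Prime) (hℓN : ¬ ℓ ∣ N) {φ : Additive (Gamma0 N) →+ A}
    (hφ : IsCuspidalHom (Gamma0 N) φ) : IsCuspidalHom (Gamma0 N) (TB N A hℓ hℓN φ) := by
  have : Fact ℓ.Prime := ⟨hℓ⟩
  exact heckeOp_isCuspidalHom (isHeckeFamily_T N hℓN) hφ

/-- `U_r` preserves cuspidal homomorphisms. -/
theorem UB_cusp [NeZero N] {r : ℕ} (hr : r ∣ N) {φ : Additive (Gamma0 N) →+ A}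
    (hφ : IsCuspidalHom (Gamma0 N) φ) : IsCuspidalHom (Gamma0 N) (UB N A hr φ) := by
  have : NeZero r := neZero_of_dvd hr
  exact heckeOp_isCuspidalHom (isHeckeFamily_U N hr) hφ

end Cusp

/-! ## `KERU` at a level `M = M₀ r²` -/

section KerU

variable {k : Type*} [Field k]

/-- `Stmt_KERU` at a level `M` with `M = M₀ r²`. -/
theorem keru_gen (M : ℕ) [NeZero M] {r : ℕ} (hr : r.Prime) (M₀ : ℕ) (hM : M = M₀ * r ^ 2)
    (hrM₀ : ¬ r ∣ M₀) (hrk : (r : k) ≠ 0) (hd : r ∣ M) (ψ : Additive (Gamma0 M) →+ k)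
    (h : UB M k hd (UB M k hd ψ) = 0) : UB M k hd ψ = 0 := by
  subst hM
  have hM₀ : 0 < M₀ := by
    rcases Nat.eq_zero_or_pos M₀ with h0 | h0
    · exact absurd (by rw [h0, zero_mul]) (NeZero.ne (M₀ * r ^ 2))
    · exact h0
  exact Fermat.Agent.S59.NonMin.Geom.H98.keru_of_isUnit (R := k) hM₀ hr hrM₀ hd
    (isUnit_iff_ne_zero.mpr hrk) ψ h

/-- `U_r^[n+1] ψ = 0 → U_r ψ = 0` at a level `M = M₀ r²`. -/
theorem keru_iterate (M : ℕ) [NeZero M] {r : ℕ} (hr : r.Prime) (M₀ : ℕ) (hM : M = M₀ * r ^ 2)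
    (hrM₀ : ¬ r ∣ M₀) (hrk : (r : k) ≠ 0) (hd : r ∣ M) :
    ∀ (n : ℕ) (ψ : Additive (Gamma0 M) →+ k), (⇑(UB M k hd))^[n + 1] ψ = 0 →
      UB M k hd ψ = 0 := by
  intro n
  induction n with
  | zero => intro ψ h; simpa using h
  | succ n IH =>
    intro ψ h
    apply IH
    rw [Function.iterate_succ_apply'] at h ⊢
    rw [Function.iterate_succ_apply'] at h
    exact keru_gen M hr M₀ hM hrM₀ hrk hd _ h

end KerU

/-! ## The operators on the cuspidal classes -/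

section Ops

variable (k : Type) [Field k]

/-- `T_ℓ` on the cuspidal classes of level `M`. -/
noncomputable def TLk (M : ℕ) {ℓ : ℕ} (hℓ : ℓ.Prime) (hℓM : ¬ ℓ ∣ M) :
    Module.End k (cuspSub k M) where
  toFun x := ⟨TB M k hℓ hℓM x.1, TB_cusp hℓ hℓM x.2⟩
  map_add' x y := Subtype.ext (map_add (TB M k hℓ hℓM) x.1 y.1)
  map_smul' c x := Subtype.ext (by
    have : Fact ℓ.Prime := ⟨hℓ⟩
    exact ((isHeckeFamily_T M hℓM).heckeOpLin (incl_injective M) k).map_smul c x.1)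

/-- `U_r` on the cuspidal classes of level `M`. -/
noncomputable def ULk (M : ℕ) [NeZero M] {r : ℕ} (hr : r ∣ M) :
    Module.End k (cuspSub k M) where
  toFun x := ⟨UB M k hr x.1, UB_cusp hr x.2⟩
  map_add' x y := Subtype.ext (map_add (UB M k hr) x.1 y.1)
  map_smul' c x := Subtype.ext (by
    have : NeZero r := neZero_of_dvd hr
    exact ((isHeckeFamily_U M hr).heckeOpLin (incl_injective M) k).map_smul c x.1)

variable {k}

@[simp] theorem TLk_coe (M : ℕ) {ℓ : ℕ} (hℓ : ℓ.Prime) (hℓM : ¬ ℓ ∣ M) (x : cuspSub k M) :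
    (TLk k M hℓ hℓM x : Additive (Gamma0 M) →+ k) = TB M k hℓ hℓM x.1 := rfl

@[simp] theorem ULk_coe (M : ℕ) [NeZero M] {r : ℕ} (hr : r ∣ M) (x : cuspSub k M) :
    (ULk k M hr x : Additive (Gamma0 M) →+ k) = UB M k hr x.1 := rfl

theorem TLk_comm_TLk (M : ℕ) [NeZero M] {ℓ ℓ' : ℕ} (hℓ : ℓ.Prime) (hℓM : ¬ ℓ ∣ M)
    (hℓ' : ℓ'.Prime) (hℓ'M : ¬ ℓ' ∣ M) : Commute (TLk k M hℓ hℓM) (TLk k M hℓ' hℓ'M) := by
  refine LinearMap.ext fun x => Subtype.ext ?_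
  exact Fermat.Agent.S59.NonMin.Geom.H98.TB_comm_TB hℓ hℓM hℓ' hℓ'M x.1

theorem ULk_comm_TLk (M : ℕ) [NeZero M] {r ℓ : ℕ} (hr : r ∣ M) (hℓ : ℓ.Prime)
    (hℓM : ¬ ℓ ∣ M) : Commute (ULk k M hr) (TLk k M hℓ hℓM) := by
  refine LinearMap.ext fun x => Subtype.ext ?_
  exact Fermat.Agent.S59.NonMin.Geom.H98.UB_comm_TB hr hℓ hℓM x.1

theorem ULk_comm_ULk (M : ℕ) [NeZero M] {r r' : ℕ} (hr : r ∣ M) (hr' : r' ∣ M) :
    Commute (ULk k M hr) (ULk k M hr') := by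
  refine LinearMap.ext fun x => Subtype.ext ?_
  exact Fermat.Agent.S59.NonMin.Geom.H98.UB_comm_UB hr hr' x.1

variable (L : Leaves) (h2 : (2 : k) ≠ 0)

/-- `TLk` is the operator `S41.H94.TL`. -/
theorem TLk_eq_TL (N : ℕ) (hN : 0 < N) {ℓ : ℕ} (hℓ : ℓ.Prime) (hℓN : ¬ ℓ ∣ N) :
    TLk k N hℓ hℓN = TL L h2 N ℓ hN.ne' hℓ.ne_zero := by
  refine LinearMap.ext fun x => Subtype.ext ?_
  rw [TL_coe, Fermat.Agent.S41.H20.Tcoh_eq_TB hN hℓ hℓN]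
  rfl

/-- `T_ℓ` is self-adjoint for the pairing. -/
theorem BL_TLk (N : ℕ) [NeZero N] {ℓ : ℕ} (hℓ : ℓ.Prime) (hℓN : ¬ ℓ ∣ N)
    (x y : cuspSub k N) :
    BL L h2 N x (TLk k N hℓ hℓN y) = BL L h2 N (TLk k N hℓ hℓN x) y := by
  have hN : 0 < N := Nat.pos_of_ne_zero (NeZero.ne N)
  rw [TLk_eq_TL L h2 N hN hℓ hℓN]
  exact BL_TL L h2 N ℓ hN hℓ hℓN x y

variable {N q : ℕ}

theorem corL1_TLk (hN : N ≠ 0) (hq : q.Prime) (hqN : ¬ q ∣ N) {ℓ : ℕ} (hℓ : ℓ.Prime)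
    (hℓN : ¬ ℓ ∣ N) (hℓN' : ¬ ℓ ∣ N * q) (y : cuspSub k (N * q)) :
    corL1 L h2 N q hN hq.ne_zero (TLk k (N * q) hℓ hℓN' y)
      = TLk k N hℓ hℓN (corL1 L h2 N q hN hq.ne_zero y) :=
  Subtype.ext (Fermat.Agent.S59.CaseC.Geom.H80.cor1_TB hq hqN hℓ hℓN hℓN' y.1)

theorem corL2_TLk (hN : N ≠ 0) (hq : q.Prime) (hqN : ¬ q ∣ N) {ℓ : ℕ} (hℓ : ℓ.Prime)
    (hℓN : ¬ ℓ ∣ N) (hℓN' : ¬ ℓ ∣ N * q) (y : cuspSub k (N * q)) :
    corL2 L h2 N q hN hq.ne_zero (TLk k (N * q) hℓ hℓN' y)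
      = TLk k N hℓ hℓN (corL2 L h2 N q hN hq.ne_zero y) :=
  Subtype.ext (Fermat.Agent.S59.CaseC.Geom.H80.cor2_TB hq hqN hℓ hℓN hℓN' y.1)

theorem corL1_ULk [NeZero N] [NeZero (N * q)] (hN : N ≠ 0) (hq : q.Prime) (hqN : ¬ q ∣ N) {r : ℕ} (hr : r.Prime)
    (hrN : r ∣ N) (hrN' : r ∣ N * q) (y : cuspSub k (N * q)) :
    corL1 L h2 N q hN hq.ne_zero (ULk k (N * q) hrN' y)
      = ULk k N hrN (corL1 L h2 N q hN hq.ne_zero y) :=
  Subtype.ext (Fermat.Agent.S59.CaseC.Geom.H80.cor1_UB hq hqN hr hrN hrN' y.1)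

theorem corL2_ULk [NeZero N] [NeZero (N * q)] (hN : N ≠ 0) (hq : q.Prime) (hqN : ¬ q ∣ N) {r : ℕ} (hr : r.Prime)
    (hrN : r ∣ N) (hrN' : r ∣ N * q) (y : cuspSub k (N * q)) :
    corL2 L h2 N q hN hq.ne_zero (ULk k (N * q) hrN' y)
      = ULk k N hrN (corL2 L h2 N q hN hq.ne_zero y) :=
  Subtype.ext (Fermat.Agent.S59.CaseC.Geom.H80.cor2_UB hq hqN hr hrN hrN' y.1)

end Ops

end Fermat.Agent.S59.CaseC.Geom.H85
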