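import Mathlib
import Fermat.Agent.R.H2_SepTCore
import Fermat.Agent.R.H2_PDVR

/-!
# S59, case C, PGEOM, leaf P-LINK (helper90): the algebraic core

`alg_core`: let `𝕋` be a reduced commutative ring, finite free over `ℤ`, acting on a torsion
free `𝒪`-module `V` (`𝒪` a complete discrete valuation ring of characteristic `0` with finite
residue field), `a ∈ V`, `t ∈ 𝕋`, `c₁ c₀ ∈ 𝒪`.  If `c₁ x̃(t) = c₀` for every character
`x̃ : 𝕋 → 𝒪'` (`𝒪'` a complete discrete valuation ring finite over `𝒪`) which is compatible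
with `a` (`ρ(s) a = c a ⟹ x̃(s) = c`), then `c₁ ρ(t) a = c₀ a`.

Proof: `B := (𝒪 ⊗ 𝕋) / Ann(a)` is a finite torsion free `𝒪`-algebra generated by the image of
`𝕋`, hence reduced (`R.H2.isReduced_of_flat_of_adjoin_eq_top`); every minimal prime `𝔮` of `B`
gives a character `B → B/𝔮 ↪ 𝒪'` (`R.H2.exists_dvr_of_finite_domain`), so `c₁ t - c₀` lies in
all the minimal primes of `B`: it is zero.
-/

set_option autoImplicit false
set_option linter.style.haveILetI false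
set_option linter.unusedSectionVars false
set_option linter.unusedVariables false

open IsLocalRing TensorProduct

namespace Fermat.Agent.S59.CaseC.Geom.H90

section Ann

variable {𝒪 : Type} [CommRing 𝒪] {R : Type} [CommRing R] [Algebra 𝒪 R]
  {V : Type} [AddCommGroup V] [Module 𝒪 V]

/-- the annihilator of a vector -/
def annI (f : R →ₐ[𝒪] Module.End 𝒪 V) (a : V) : Ideal R where
  carrier := {y | f y a = 0}
  add_mem' := fun {x y} hx hy => by
    show f (x + y) a = 0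
    rw [map_add, LinearMap.add_apply, (hx : f x a = 0), (hy : f y a = 0), add_zero]
  zero_mem' := by
    show f 0 a = 0
    rw [map_zero, LinearMap.zero_apply]
  smul_mem' := fun c x hx => by
    show f (c • x) a = 0
    rw [smul_eq_mul, map_mul, Module.End.mul_apply, (hx : f x a = 0), map_zero]

theorem mem_annI (f : R →ₐ[𝒪] Module.End 𝒪 V) (a : V) (y : R) :
    y ∈ annI f a ↔ f y a = 0 := Iff.rfl

end Ann

section Main

variable (𝒪 : Type) [CommRing 𝒪] [IsDomain 𝒪] [IsDiscreteValuationRing 𝒪]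
  [IsAdicComplete (maximalIdeal 𝒪) 𝒪] [Finite (ResidueField 𝒪)] [CharZero 𝒪]
  (𝕋 : Type) [CommRing 𝕋] [Module.Free ℤ 𝕋] [Module.Finite ℤ 𝕋] [IsReduced 𝕋]
  {V : Type} [AddCommGroup V] [Module 𝒪 V] [Module.IsTorsionFree 𝒪 V]

/-- The core, for a finite `𝒪`-algebra `R` generated by the image of `𝕋`. -/
theorem alg_core_R (R : Type) [CommRing R] [Algebra 𝒪 R] [Module.Finite 𝒪 R]
    (ι : 𝕋 →+* R) (hι : Algebra.adjoin 𝒪 (Set.range ι) = ⊤)
    (f : R →ₐ[𝒪] Module.End 𝒪 V) (a : V) (τ : R)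
    (H : ∀ (O' : Type) [CommRing O'] [IsDomain O'] [IsDiscreteValuationRing O']
      [IsAdicComplete (maximalIdeal O') O'] [Finite (ResidueField O')] [CharZero O']
      [Algebra 𝒪 O'] [IsLocalHom (algebraMap 𝒪 O')] (x : R →ₐ[𝒪] O'),
      (∀ y : R, f y a = 0 → x y = 0) → x τ = 0) :
    f τ a = 0 := by
  classical
  -- the ring `B = R / Ann(a)`
  haveI hfin : Module.Finite 𝒪 (R ⧸ annI f a) :=
    Module.Finite.of_surjective (Ideal.Quotient.mkₐ 𝒪 (annI f a)).toLinearMap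
      (Ideal.Quotient.mkₐ_surjective 𝒪 (annI f a))
  haveI htf : Module.IsTorsionFree 𝒪 (R ⧸ annI f a) := by
    refine ⟨fun r hr b₁ b₂ hb => ?_⟩
    obtain ⟨y₁, rfl⟩ := Ideal.Quotient.mk_surjective b₁
    obtain ⟨y₂, rfl⟩ := Ideal.Quotient.mk_surjective b₂
    have hr0 : r ≠ 0 := hr.ne_zero
    have h1 : Ideal.Quotient.mk (annI f a) (r • y₁) = Ideal.Quotient.mk (annI f a) (r • y₂) := hb
    rw [Ideal.Quotient.eq, mem_annI, ← smul_sub, map_smul, LinearMap.smul_apply] at h1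
    rw [Ideal.Quotient.eq, mem_annI]
    exact (smul_eq_zero_iff_right hr0).mp h1
  haveI hfree : Module.Free 𝒪 (R ⧸ annI f a) := inferInstance
  let π : 𝕋 →+* R ⧸ annI f a := (Ideal.Quotient.mk (annI f a)).comp ι
  have hgen : Algebra.adjoin 𝒪 (Set.range π) = ⊤ := by
    have h1 : (Algebra.adjoin 𝒪 (Set.range ι)).map (Ideal.Quotient.mkₐ 𝒪 (annI f a)) = ⊤ := by
      rw [hι, Algebra.map_top, AlgHom.range_eq_top]
      exact Ideal.Quotient.mkₐ_surjective 𝒪 (annI f a)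
    rw [← h1, AlgHom.map_adjoin, ← Set.range_comp]
    rfl
  haveI hred : IsReduced (R ⧸ annI f a) :=
    Fermat.Agent.R.H2.isReduced_of_flat_of_adjoin_eq_top 𝕋 𝒪 _ π hgen
  -- reduction to the vanishing of `τ` in `B`
  suffices hτ : Ideal.Quotient.mk (annI f a) τ = 0 from Ideal.Quotient.eq_zero_iff_mem.mp hτ
  -- `τ` lies in every minimal prime
  have hnil : Ideal.Quotient.mk (annI f a) τ ∈ sInf (minimalPrimes (R ⧸ annI f a)) := by
    rw [Ideal.mem_sInf]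
    intro 𝔮 h𝔮
    haveI h𝔮prime : 𝔮.IsPrime := h𝔮.1.1
    have hinj : Function.Injective (algebraMap 𝒪 ((R ⧸ annI f a) ⧸ 𝔮)) :=
      Fermat.Agent.R.H2.injective_algebraMap_quotient_minimalPrime' 𝒪 _ 𝔮 h𝔮
    haveI : FaithfulSMul 𝒪 ((R ⧸ annI f a) ⧸ 𝔮) :=
      (faithfulSMul_iff_algebraMap_injective 𝒪 _).2 hinj
    obtain ⟨O', iCR, iD, iDVR, iAC, iFin, iCZ, iAlg, iMF, iLH, j, hO'inj, hjinj, hjO, hjmax⟩ :=
      Fermat.Agent.R.H2.exists_dvr_of_finite_domain 𝒪 ((R ⧸ annI f a) ⧸ 𝔮)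
    let x : R →ₐ[𝒪] O' :=
      { toRingHom := j.comp ((Ideal.Quotient.mk 𝔮).comp (Ideal.Quotient.mk (annI f a)))
        commutes' := fun c => by
          show j (Ideal.Quotient.mk 𝔮 (Ideal.Quotient.mk (annI f a) (algebraMap 𝒪 R c))) = _
          rw [Ideal.Quotient.mk_algebraMap, Ideal.Quotient.mk_algebraMap]
          exact hjO c }
    have hx : ∀ y : R, x y = j (Ideal.Quotient.mk 𝔮 (Ideal.Quotient.mk (annI f a) y)) :=
      fun y => rfl
    have hcompat : ∀ y : R, f y a = 0 → x y = 0 := by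
      intro y hy
      have h3 : Ideal.Quotient.mk (annI f a) y = 0 :=
        Ideal.Quotient.eq_zero_iff_mem.mpr ((mem_annI f a y).mpr hy)
      rw [hx, h3, map_zero, map_zero]
    have h6 := H O' x hcompat
    rw [hx] at h6
    have h8 : Ideal.Quotient.mk 𝔮 (Ideal.Quotient.mk (annI f a) τ) = 0 :=
      hjinj (by rw [map_zero]; exact h6)
    exact Ideal.Quotient.eq_zero_iff_mem.mp h8
  have hbot : sInf (minimalPrimes (R ⧸ annI f a)) = (⊥ : Ideal (R ⧸ annI f a)) := by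
    have h1 := Ideal.sInf_minimalPrimes (I := (⊥ : Ideal (R ⧸ annI f a)))
    rw [minimalPrimes, h1]
    exact nilradical_eq_zero _
  rw [hbot] at hnil
  exact (Submodule.mem_bot _).1 hnil

/-- the action of `𝒪 ⊗ 𝕋` -/
noncomputable def actT (ρ : 𝕋 →+* Module.End 𝒪 V) : (𝒪 ⊗[ℤ] 𝕋) →ₐ[𝒪] Module.End 𝒪 V :=
  Algebra.TensorProduct.lift (Algebra.ofId 𝒪 (Module.End 𝒪 V)) ρ.toIntAlgHom
    (fun x y => Algebra.commute_algebraMap_left x _)

theorem actT_tmul (ρ : 𝕋 →+* Module.End 𝒪 V) (c : 𝒪) (t : 𝕋) (v : V) :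
    actT 𝒪 𝕋 ρ (c ⊗ₜ[ℤ] t) v = c • ρ t v := by
  have h : actT 𝒪 𝕋 ρ (c ⊗ₜ[ℤ] t) = algebraMap 𝒪 (Module.End 𝒪 V) c * ρ t :=
    Algebra.TensorProduct.lift_tmul _ _ _ c t
  rw [h, Module.End.mul_apply, Module.algebraMap_end_apply]

/-- **The algebraic core of P-LINK.** -/
theorem alg_core (ρ : 𝕋 →+* Module.End 𝒪 V) (a : V) (t : 𝕋) (c₁ c₀ : 𝒪)
    (H : ∀ (O' : Type) [CommRing O'] [IsDomain O'] [IsDiscreteValuationRing O']
      [IsAdicComplete (maximalIdeal O') O'] [Finite (ResidueField O')] [CharZero O']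
      [Algebra 𝒪 O'] [IsLocalHom (algebraMap 𝒪 O')] (x : 𝕋 →+* O'),
      (∀ (s : 𝕋) (c : 𝒪), ρ s a = c • a → x s = algebraMap 𝒪 O' c) →
      algebraMap 𝒪 O' c₁ * x t = algebraMap 𝒪 O' c₀) :
    c₁ • ρ t a = c₀ • a := by
  have hgen : Algebra.adjoin 𝒪 (Set.range
      (Algebra.TensorProduct.includeRight (R := ℤ) (A := 𝒪) (B := 𝕋)).toRingHom) = ⊤ := by
    rw [eq_top_iff]
    rintro y -
    induction y using TensorProduct.induction_on with
    | zero => exact Subalgebra.zero_mem _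
    | tmul c s =>
      have h1 : c ⊗ₜ[ℤ] s = c • ((1 : 𝒪) ⊗ₜ[ℤ] s) := by
        rw [TensorProduct.smul_tmul', smul_eq_mul, mul_one]
      rw [h1]
      have h2 : (1 : 𝒪) ⊗ₜ[ℤ] s ∈ Set.range
          (Algebra.TensorProduct.includeRight (R := ℤ) (A := 𝒪) (B := 𝕋)).toRingHom :=
        ⟨s, rfl⟩
      exact Subalgebra.smul_mem _ (Algebra.subset_adjoin h2) c
    | add x y hx hy => exact Subalgebra.add_mem _ hx hy
  have key := alg_core_R 𝒪 𝕋 (𝒪 ⊗[ℤ] 𝕋)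
    (Algebra.TensorProduct.includeRight (R := ℤ) (A := 𝒪) (B := 𝕋)).toRingHom hgen
    (actT 𝒪 𝕋 ρ) a (c₁ ⊗ₜ[ℤ] t - c₀ ⊗ₜ[ℤ] (1 : 𝕋)) ?_
  · rw [map_sub, LinearMap.sub_apply, actT_tmul, actT_tmul, map_one, Module.End.one_apply,
      sub_eq_zero] at key
    exact key
  · intro O' _ _ _ _ _ _ _ _ x hx
    have hxc : ∀ (c : 𝒪) (s : 𝕋), x (c ⊗ₜ[ℤ] s) = algebraMap 𝒪 O' c * x ((1 : 𝒪) ⊗ₜ[ℤ] s) := by
      intro c s
      have h1 : c ⊗ₜ[ℤ] s = c • ((1 : 𝒪) ⊗ₜ[ℤ] s) := by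
        rw [TensorProduct.smul_tmul', smul_eq_mul, mul_one]
      rw [h1, map_smul, Algebra.smul_def]
    have hx1 : x ((1 : 𝒪) ⊗ₜ[ℤ] (1 : 𝕋)) = 1 := map_one x
    have h5 := H O' ((x : (𝒪 ⊗[ℤ] 𝕋) →+* O').comp
      (Algebra.TensorProduct.includeRight (R := ℤ) (A := 𝒪) (B := 𝕋)).toRingHom) ?_
    · have h6 : x ((1 : 𝒪) ⊗ₜ[ℤ] t) = ((x : (𝒪 ⊗[ℤ] 𝕋) →+* O').comp
          (Algebra.TensorProduct.includeRight (R := ℤ) (A := 𝒪) (B := 𝕋)).toRingHom) t := rfl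
      rw [map_sub, hxc c₁ t, hxc c₀ 1, hx1, mul_one, h6, h5, sub_self]
    · intro s c hs
      have h3 : actT 𝒪 𝕋 ρ ((1 : 𝒪) ⊗ₜ[ℤ] s - c ⊗ₜ[ℤ] (1 : 𝕋)) a = 0 := by
        rw [map_sub, LinearMap.sub_apply, actT_tmul, actT_tmul, one_smul, map_one,
          Module.End.one_apply, hs, sub_self]
      have h4 := hx _ h3
      rw [map_sub, hxc c 1, hx1, mul_one, sub_eq_zero] at h4
      exact h4

end Main

end Fermat.Agent.S59.CaseC.Geom.H90
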