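import Fermat.Agent.S59.CaseC.Geom.Defs
import Fermat.Agent.S59.CaseC.Geom.H90_PLinkAlg
import Fermat.Agent.Betti.Stmts
import Fermat.Agent.R.Leaves
import Fermat.Agent.R.H86_Point
import Fermat.Agent.S56.H92_StableSO
import Fermat.Agent.S59.Datum.H57_ResIrr

/-!
# S59, case C, PGEOM, leaf P-LINK (helper90)

`plink_of : Stmt_LGCpt → R.Stmt_HeckeReduced → (S22) → Betti.Stmt_basis → Betti.Stmt_matrixRep →
  Stmt_PLINK`: on the eigenspace of a point `πx` of the local Hecke ring the Betti operator `T_p`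
is the scalar `z + p z⁻¹`, `z = πx` of the eigenvalue of Frobenius on the unramified quotient.

Proof.  In a universal basis of the parabolic homomorphisms the Hecke algebra `𝕋'` away from
`S ∖ {p}` acts on `𝒪^r` by integer matrices; `a` := the coordinates of `ι v`.  By
`alg_core` it suffices to see that `x̃(T_p) πx(z) = πx(z)² + p` for every character `x̃` of `𝕋'`
with values in a complete discrete valuation ring `𝒪'` finite over `𝒪` which is compatible with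
`a`; this is `Stmt_LGCpt` for the base change of `H.ρ` along `T → 𝒪 → 𝒪'`.
-/

set_option autoImplicit false
set_option linter.style.haveILetI false
set_option linter.unusedSectionVars false
set_option linter.unusedVariables false

open Polynomial CuspForm CongruenceSubgroup ModularFormClass IsLocalRing TensorProduct
open scoped MatrixGroups

namespace Fermat.Agent.S59.CaseC.Geom.H90

open Fermat.Agent.S41 Fermat.Agent.Betti Fermat.Agent.S59 Fermat.Agent.S59.Asm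
  Fermat.Agent.S59.NonMin Fermat.Agent.S59.NonMin.Geom Fermat.Agent.S59.CaseC
  Fermat.Agent.S59.CaseC.Geom

/-- The Galois group of `ℚ`. -/
local notation "Γℚ" => AlgebraicClosure ℚ ≃ₐ[ℚ] AlgebraicClosure ℚ

/-! ## 1. Base change of an ordinary line -/

section OrdLineBC

variable {A B : Type} [CommRing A] [IsLocalRing A] [CommRing B] [IsLocalRing B]

/-- Base change of an ordinary line with the eigenvalue of `g` on the quotient. -/
theorem exists_ordLine_baseChangeAlong (φ : A →+* B) (hφ : IsLocalHom φ) (ρ : GaloisRepAdic A)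
    (P : ValuationSubring (AlgebraicClosure ℚ)) (ℒ : OrdLine ρ P) (g : Γℚ) (z : A)
    (hz : ℒ.IsQuotEigen g z) :
    ∃ ℒ' : OrdLine (ρ.baseChangeAlong φ hφ) P, ℒ'.IsQuotEigen g (φ z) := by
  letI : Algebra A B := φ.toAlgebra
  obtain ⟨b, hb⟩ := ℒ.isLine
  have hb0 : b 0 ∈ ℒ.L := by rw [hb]; exact Submodule.mem_span_singleton_self _
  have hD := ℒ.stable
  have hI := ℒ.inertia
  have hstab : ∀ σ ∈ P.decompositionSubgroup ℚ,
      ∀ v ∈ Submodule.span B {(1 : B) ⊗ₜ[A] b 0}, (ρ.ρ σ).baseChange B v ∈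
        Submodule.span B {(1 : B) ⊗ₜ[A] b 0} := by
    intro σ hσ v hv
    obtain ⟨c, rfl⟩ := Submodule.mem_span_singleton.1 hv
    rw [map_smul, LinearMap.baseChange_tmul]
    refine Submodule.smul_mem _ _ ?_
    have := hD σ hσ (b 0) hb0
    rw [hb] at this
    exact Fermat.Agent.S56.H92.tmul_mem_span φ 1 this
  have hinert : ∀ σ ∈ P.inertiaSubgroupIn ℚ, ∀ v : B ⊗[A] ρ.V,
      (ρ.ρ σ).baseChange B v - v ∈ Submodule.span B {(1 : B) ⊗ₜ[A] b 0} := by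
    intro σ hσ v
    induction v using TensorProduct.induction_on with
    | zero => rw [LinearMap.map_zero, sub_zero]; exact Submodule.zero_mem _
    | tmul c v =>
      rw [LinearMap.baseChange_tmul, ← TensorProduct.tmul_sub]
      have := hI σ hσ v
      rw [hb] at this
      exact Fermat.Agent.S56.H92.tmul_mem_span φ c this
    | add x y hx hy =>
      rw [map_add, add_sub_add_comm]
      exact Submodule.add_mem _ hx hy
  have heig : ∀ v : B ⊗[A] ρ.V,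
      (ρ.ρ g).baseChange B v - φ z • v ∈ Submodule.span B {(1 : B) ⊗ₜ[A] b 0} := by
    intro v
    induction v using TensorProduct.induction_on with
    | zero => rw [LinearMap.map_zero, smul_zero, sub_zero]; exact Submodule.zero_mem _
    | tmul c v =>
      have h1 : φ z • (c ⊗ₜ[A] v : B ⊗[A] ρ.V) = c ⊗ₜ[A] (z • v) := by
        rw [TensorProduct.tmul_smul, TensorProduct.smul_tmul', TensorProduct.smul_tmul']
        congr 1
      rw [LinearMap.baseChange_tmul, h1, ← TensorProduct.tmul_sub]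
      have := hz v
      rw [hb] at this
      exact Fermat.Agent.S56.H92.tmul_mem_span φ c this
    | add x y hx hy =>
      rw [map_add, smul_add, add_sub_add_comm]
      exact Submodule.add_mem _ hx hy
  have hline : ∃ b' : Module.Basis (Fin 2) B (B ⊗[A] ρ.V),
      Submodule.span B {(1 : B) ⊗ₜ[A] b 0} = Submodule.span B {b' 0} :=
    ⟨b.baseChange B, by rw [Module.Basis.baseChange_apply]⟩
  exact ⟨⟨Submodule.span B {(1 : B) ⊗ₜ[A] b 0}, hline, hstab, hinert⟩, heig⟩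

end OrdLineBC

/-! ## 2. Coordinates in a universal basis -/

section Coord

variable {N : ℕ} [NeZero N] {r : ℕ} (b : Fin r → (Additive (Gamma0 N) →+ ℤ))
  (𝒪 : Type) [CommRing 𝒪]

/-- the homomorphism with the coordinates `a` -/
noncomputable def homOf (a : Fin r → 𝒪) : Additive (Gamma0 N) →+ 𝒪 :=
  ∑ i, (zmultiplesHom 𝒪 (a i)).comp (b i)

theorem homOf_apply (a : Fin r → 𝒪) (γ : Additive (Gamma0 N)) :
    homOf b 𝒪 a γ = ∑ i, b i γ • a i := by
  unfold homOf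
  rw [AddMonoidHom.finsetSum_apply]
  refine Finset.sum_congr rfl fun i _ => ?_
  rw [AddMonoidHom.comp_apply, zmultiplesHom_apply]

theorem homOf_smul (c : 𝒪) (a : Fin r → 𝒪) : homOf b 𝒪 (c • a) = c • homOf b 𝒪 a := by
  refine AddMonoidHom.ext fun γ => ?_
  rw [AddMonoidHom.smul_apply, homOf_apply, homOf_apply, Finset.smul_sum]
  refine Finset.sum_congr rfl fun i _ => ?_
  rw [Pi.smul_apply, smul_comm]

theorem eq_homOf (a : Fin r → 𝒪) (φ : Additive (Gamma0 N) →+ 𝒪)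
    (h : ∀ γ, φ γ = ∑ i, b i γ • a i) : φ = homOf b 𝒪 a :=
  AddMonoidHom.ext fun γ => by rw [h γ, homOf_apply]

theorem isParabolicHom_homOf (hb : ∀ i, ModularCurve.Period.IsParabolicHom (Gamma0 N) (b i))
    (a : Fin r → 𝒪) : ModularCurve.Period.IsParabolicHom (Gamma0 N) (homOf b 𝒪 a) := by
  intro γ hγ
  rw [homOf_apply]
  refine Finset.sum_eq_zero fun i _ => ?_
  rw [hb i γ hγ, zero_smul]

theorem homOf_injective [IsAddTorsionFree 𝒪] (hb : IsParBasis N b) {a₁ a₂ : Fin r → 𝒪}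
    (h : homOf b 𝒪 a₁ = homOf b 𝒪 a₂) : a₁ = a₂ := by
  obtain ⟨a, -, hauniq⟩ := hb.2 𝒪 (homOf b 𝒪 a₁) (isParabolicHom_homOf b 𝒪 hb.1 a₁)
  rw [hauniq a₁ (fun γ => homOf_apply b 𝒪 a₁ γ),
    hauniq a₂ (fun γ => by rw [h]; exact homOf_apply b 𝒪 a₂ γ)]

/-- The Betti operator in coordinates. -/
theorem TB_homOf {ℓ : ℕ} (hℓ : ℓ.Prime) (hℓN : ¬ ℓ ∣ N) (m : Matrix (Fin r) (Fin r) ℤ)
    (hm : ∀ j, TB N ℤ hℓ hℓN (b j) = ∑ i, m i j • b i) (a : Fin r → 𝒪) :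
    TB N 𝒪 hℓ hℓN (homOf b 𝒪 a) = homOf b 𝒪 ((m.map (Int.cast : ℤ → 𝒪)).mulVec a) := by
  have hcomp : ∀ (u : ℤ →+ 𝒪) (β : Additive (Gamma0 N) →+ ℤ),
      TB N 𝒪 hℓ hℓN (u.comp β) = u.comp (TB N ℤ hℓ hℓN β) := by
    intro u β
    haveI : Fact ℓ.Prime := ⟨hℓ⟩
    exact (isHeckeFamily_T N hℓN).heckeOp_comp (incl_injective N) u β
  refine AddMonoidHom.ext fun γ => ?_
  unfold homOf
  rw [map_sum, AddMonoidHom.finsetSum_apply, AddMonoidHom.finsetSum_apply]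
  simp only [hcomp, hm, AddMonoidHom.comp_apply, zmultiplesHom_apply,
    AddMonoidHom.finsetSum_apply, AddMonoidHom.smul_apply, Matrix.mulVec, dotProduct,
    Matrix.map_apply, Finset.sum_smul, Finset.smul_sum]
  rw [Finset.sum_comm]
  refine Finset.sum_congr rfl fun i _ => ?_
  refine Finset.sum_congr rfl fun j _ => ?_
  simp only [smul_eq_mul, zsmul_eq_mul, Int.cast_mul]
  ring

end Coord

/-! ## 3. P-LINK -/

/-- arithmetic of the level of a state of the class `G` -/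
theorem dvd_mem_of_geomHyp {p : ℕ} {Smin : Finset ℕ} {N₀ : ℕ} {Sig : Finset ℕ} {N : ℕ}
    {S : Finset ℕ} (hG : GeomHyp p Smin N₀ Sig N S) :
    ∀ q : ℕ, q.Prime → q ∣ N → q ∈ S := by
  intro q hq hqN
  rw [hG.hS]
  rw [hG.hN] at hqN
  rcases (Nat.Prime.dvd_mul hq).mp hqN with h | h
  · exact Finset.mem_union_left _ (hG.hN₀S q hq h)
  · obtain ⟨r, hr, hqr⟩ := (Prime.dvd_finsetProd_iff hq.prime _).mp h
    have h1 : q ∣ r := hq.dvd_of_dvd_pow hqr
    have h2 : q = r := (Nat.prime_dvd_prime_iff_eq hq (hG.hSig r hr).1).mp h1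
    rw [h2]
    exact Finset.mem_union_right _ hr

set_option maxHeartbeats 1600000 in
set_option synthInstance.maxHeartbeats 400000 in
/-- **P-LINK** from the pointwise local–global compatibility at `p`. -/
theorem plink_of (hLGC : Stmt_LGCpt) (hred : Fermat.Agent.R.Stmt_HeckeReduced)
    (hfin : ∀ (N : ℕ) [NeZero N] (S : Set ℕ), Module.Finite ℤ (CuspForm.heckeAlgebra N 2 S))
    (hbasis : Fermat.Agent.Betti.Stmt_basis) (hmat : Fermat.Agent.Betti.Stmt_matrixRep) :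
    Stmt_PLINK := by
  intro 𝒪 _ _ _ _ _ _ p _ hp2 hp𝒪 ρbar Smin hyp N₀ Sig s _ hG hF hp hpN ι hιinj hιrange hιT H ηhat
    hHπ hηhat hdet hres P hP ℒ g hg z hz πx v hv
  classical
  -- the level
  have hNS : ∀ q : ℕ, q.Prime → q ∣ s.N → q ∈ s.S := dvd_mem_of_geomHyp hG
  have hpS : p ∈ s.S := by
    rw [hG.hS]
    exact Finset.mem_union_left _ hyp.hpSmin
  have hpS' : p ∉ (↑(s.S.erase p) : Set ℕ) := by simp
  have hNS' : ∀ q : ℕ, q.Prime → q ∣ s.N → q ∈ (↑(s.S.erase p) : Set ℕ) := by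
    intro q hq hqN
    rw [Finset.mem_coe, Finset.mem_erase]
    refine ⟨?_, hNS q hq hqN⟩
    rintro rfl
    exact hpN hqN
  -- the homomorphism `φ = ι v` and its coordinates
  have hφB : InBetti 𝒪 s.N (↑s.S : Set ℕ) s.θ Sig (ι v) := (hιrange (ι v)).1 ⟨v, rfl⟩
  have heig : ∀ (ℓ : ℕ) (hℓ : ℓ.Prime) (hℓN : ¬ ℓ ∣ s.N) (hℓS : ℓ ∉ (↑s.S : Set ℕ)),
      TB s.N 𝒪 hℓ hℓN (ι v) =
        πx (CuspForm.heckeLocal.π s.N (↑s.S : Set ℕ) 𝒪 s.θ
          (CuspForm.heckeAlgebra.T hℓ hℓN hℓS)) • ι v := by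
    intro ℓ hℓ hℓN hℓS
    rw [← hιT ℓ hℓ hℓN hℓS v, ← hηhat, hv, map_smul]
  obtain ⟨r, b, hb⟩ := hbasis s.N
  obtain ⟨M, hMinj, hMT, hMU⟩ := hmat s.N (↑(s.S.erase p) : Set ℕ) r b hb
  haveI : IsAddTorsionFree 𝒪 := IsAddTorsionFree.of_isTorsionFree ℤ 𝒪
  obtain ⟨a, ha, -⟩ := hb.2 𝒪 (ι v) hφB.1
  have hφ : ι v = homOf b 𝒪 a := eq_homOf b 𝒪 a (ι v) ha
  -- the action of the Hecke algebra away from `S ∖ {p}` on the coordinates
  let ρM : CuspForm.heckeAlgebra s.N 2 (↑(s.S.erase p) : Set ℕ) →+*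
      Module.End 𝒪 (Fin r → 𝒪) :=
    ((Matrix.toLinAlgEquiv' : Matrix (Fin r) (Fin r) 𝒪 ≃ₐ[𝒪] _).toAlgHom.toRingHom).comp
      (((Int.castRingHom 𝒪).mapMatrix).comp M)
  have hρM : ∀ (t : CuspForm.heckeAlgebra s.N 2 (↑(s.S.erase p) : Set ℕ)) (a' : Fin r → 𝒪),
      ρM t a' = ((M t).map (Int.cast : ℤ → 𝒪)).mulVec a' := fun t a' => rfl
  have hTBρ : ∀ (ℓ : ℕ) (hℓ : ℓ.Prime) (hℓN : ¬ ℓ ∣ s.N)
      (hℓS' : ℓ ∉ (↑(s.S.erase p) : Set ℕ)) (a' : Fin r → 𝒪),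
      TB s.N 𝒪 hℓ hℓN (homOf b 𝒪 a') =
        homOf b 𝒪 (ρM (CuspForm.heckeAlgebra.T hℓ hℓN hℓS') a') := by
    intro ℓ hℓ hℓN hℓS' a'
    rw [hρM]
    exact TB_homOf b 𝒪 hℓ hℓN _ (hMT ℓ hℓ hℓN hℓS') a'
  have heigρ : ∀ (ℓ : ℕ) (hℓ : ℓ.Prime) (hℓN : ¬ ℓ ∣ s.N) (hℓS : ℓ ∉ (↑s.S : Set ℕ))
      (hℓS' : ℓ ∉ (↑(s.S.erase p) : Set ℕ)),
      ρM (CuspForm.heckeAlgebra.T hℓ hℓN hℓS') a =
        πx (CuspForm.heckeLocal.π s.N (↑s.S : Set ℕ) 𝒪 s.θ
          (CuspForm.heckeAlgebra.T hℓ hℓN hℓS)) • a := by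
    intro ℓ hℓ hℓN hℓS hℓS'
    apply homOf_injective b 𝒪 hb
    rw [← hTBρ, ← hφ, heig ℓ hℓ hℓN hℓS, homOf_smul, ← hφ]
  -- the Hecke algebra is a reduced order
  haveI : Module.Finite ℤ (CuspForm.heckeAlgebra s.N 2 (↑(s.S.erase p) : Set ℕ)) := hfin _ _
  haveI : IsReduced (CuspForm.heckeAlgebra s.N 2 (↑(s.S.erase p) : Set ℕ)) := hred _ _ hNS'
  -- the algebraic core
  have key := alg_core 𝒪 (CuspForm.heckeAlgebra s.N 2 (↑(s.S.erase p) : Set ℕ)) ρM a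
    (CuspForm.heckeAlgebra.T hp hpN hpS') (πx z) (πx z ^ 2 + (p : 𝒪)) ?_
  · rw [hφ, hTBρ p hp hpN hpS', ← homOf_smul, key, homOf_smul]
  -- the characters: local-global compatibility at `p`
  intro O' _ _ _ _ _ _ _ _ xt hxt
  have hπxloc : IsLocalHom (πx : CuspForm.heckeLocal s.N (↑s.S : Set ℕ) 𝒪 s.θ →+* 𝒪) :=
    IsLocalHom.of_surjective _ (fun c => ⟨algebraMap 𝒪 _ c, πx.commutes c⟩)
  have hf : IsLocalHom ((algebraMap 𝒪 O').comp
      (πx : CuspForm.heckeLocal s.N (↑s.S : Set ℕ) 𝒪 s.θ →+* 𝒪)) :=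
    ⟨fun t ht => hπxloc.map_nonunit t
      ((inferInstance : IsLocalHom (algebraMap 𝒪 O')).map_nonunit _ ht)⟩
  have hpO' : (p : O') ∈ maximalIdeal O' := by
    have h1 : algebraMap 𝒪 O' (p : 𝒪) ∈ maximalIdeal O' := by
      rw [mem_maximalIdeal, mem_nonunits_iff] at hp𝒪 ⊢
      exact fun h => hp𝒪 (isUnit_of_map_unit (algebraMap 𝒪 O') _ h)
    rwa [map_natCast] at h1
  obtain ⟨ℒ', hz'⟩ := exists_ordLine_baseChangeAlong ((algebraMap 𝒪 O').comp
      (πx : CuspForm.heckeLocal s.N (↑s.S : Set ℕ) 𝒪 s.θ →+* 𝒪)) hf H.ρ P ℒ g z hz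
  have hLG := hLGC O' p hp2 hpO' s.N s.S hpS hNS hp hpN hpS' xt
    (H.ρ.baseChangeAlong ((algebraMap 𝒪 O').comp
      (πx : CuspForm.heckeLocal s.N (↑s.S : Set ℕ) 𝒪 s.θ →+* 𝒪)) hf) ?_
    (Fermat.Agent.S56.H92.detIsCyclotomic_baseChangeAlong _ hf H.ρ p hdet)
    (Fermat.Agent.R.H86.residual_absIrr_baseChangeAlong _ hf H.ρ H.residual_absIrr)
    P hP ℒ' g hg _ hz'
  · have hLG' : algebraMap 𝒪 O' (πx z) ^ 2 -
        xt (CuspForm.heckeAlgebra.T hp hpN hpS') * algebraMap 𝒪 O' (πx z) + (p : O') = 0 := hLG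
    rw [map_add, map_pow, map_natCast]
    linear_combination (-1 : O') * hLG'
  · intro ℓ hℓ hℓN hℓS' hℓp B hB σ hσ
    have hℓS : ℓ ∉ (↑s.S : Set ℕ) := by
      intro h
      apply hℓS'
      rw [Finset.mem_coe, Finset.mem_erase]
      exact ⟨hℓp, Finset.mem_coe.1 h⟩
    rw [Fermat.Agent.R.H86.baseChangeAlong_charpoly, H.charpoly_frob ℓ hℓ hℓN hℓS B hB σ hσ,
      hxt _ _ (heigρ ℓ hℓ hℓN hℓS hℓS'), hHπ]
    simp only [Polynomial.map_sub, Polynomial.map_add, Polynomial.map_mul, Polynomial.map_pow,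
      Polynomial.map_X, Polynomial.map_C, Polynomial.map_natCast, RingHom.comp_apply, map_natCast]
    rfl

end Fermat.Agent.S59.CaseC.Geom.H90
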