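import Fermat.Agent.S59.CaseC.Geom.H90_PLink
import Fermat.Agent.R.H58_HeckeReduced
import Fermat.Agent.S22
import Fermat.Agent.Betti.Basis
import Fermat.Agent.Betti.H76_MatrixRep

/-!
# S59, case C, PGEOM, leaf P-LINK (helper90): final form

`stmt_PLINK_of : Stmt_LGCpt → Stmt_PLINK` (the Hecke algebra is reduced: `R.H58`; finite over
`ℤ`: `S22`; universal basis and matrix representation: `Betti`).
-/

set_option autoImplicit false

namespace Fermat.Agent.S59.CaseC.Geom.H90

open Fermat.Agent.S59.CaseC.Geom

/-- **P-LINK**, from the pointwise local–global compatibility at `p`. -/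
theorem stmt_PLINK_of (hLGC : Stmt_LGCpt) : Stmt_PLINK :=
  plink_of hLGC Fermat.Agent.R.H58.stmt_HeckeReduced
    (fun N _ S => Fermat.Agent.S22.result N 2 S)
    Fermat.Agent.Betti.stmt_basis Fermat.Agent.Betti.H76.stmt_matrixRep

end Fermat.Agent.S59.CaseC.Geom.H90
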