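import Fermat.Agent.S59.CaseC.Geom.H90_PLinkFinal
import Fermat.Agent.S59.LGC.H54_Final

/-!
# S59, case C, PGEOM, leaf P-LINK (helper90): unconditional form

`stmt_PLINK : Stmt_PLINK`, from `stmt_PLINK_of` and helper54's `S59.LGC.H54.stmt_LGCpt`.
-/

set_option autoImplicit false

namespace Fermat.Agent.S59.CaseC.Geom.H90

open Fermat.Agent.S59.CaseC.Geom

/-- **P-LINK**, unconditionally. -/
theorem stmt_PLINK : Stmt_PLINK :=
  stmt_PLINK_of Fermat.Agent.S59.LGC.H54.stmt_LGCpt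

end Fermat.Agent.S59.CaseC.Geom.H90
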