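/-
S59, case C, sub-package PGEOM, leaf PREL (helper92): the eight relations of Betti cohomology
between the levels `N` and `N q`, `q ∤ N` ANY prime:

  `U r₁ = r₁ T - r₂`, `U r₂ = q r₁`, `c₁ r₁ = q + 1`, `c₂ r₂ = q + 1`, `c₁ r₂ = T`, `c₂ r₁ = T`,
  `c₁ U = q c₂`, `c₂ U = T c₂ - c₁`.

The first two as in `NonMin.Geom.H12` (helper12, level `N q²`), the last two are
`NonMin.Geom.H92.cor1_UB`, `cor2_UB`.
-/
import Fermat.Agent.S59.CaseC.Geom.Defs
import Fermat.Agent.S59.NonMin.Geom.H12_Rel1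
import Fermat.Agent.S59.NonMin.Geom.H92_RelBase2

set_option autoImplicit false
set_option linter.style.haveILetI false
set_option linter.unusedSectionVars false

open scoped MatrixGroups
open CongruenceSubgroup Matrix ModularForm

namespace Fermat.Agent.S59.CaseC.Geom.H92

open Fermat.Agent.S41 Fermat.Agent.S41.H19 Fermat.Agent.S41.H77 Fermat.Agent.S41.H39
open Fermat.Agent.S41.H20 Fermat.Agent.Betti Fermat.Agent.S59.NonMin.Geom
open Fermat.Agent.S59.NonMin.Geom.H92

section Rel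

variable {N q : ℕ}

/-- The diagonal representative: `D γ = conj(γ) D`. -/
theorem repT_infty_rel2 (hq : q ≠ 0) (γ : Gamma0 (N * q)) :
    repT q (OnePoint.infty) * incl N (inclG N q γ)
      = incl N (conjG N q γ) * repT q (OnePoint.infty) := by
  apply Units.ext
  show ((heckeDiagMatrix q : GL (Fin 2) ℝ) : Matrix (Fin 2) (Fin 2) ℝ) *
      ((incl N (inclG N q γ) : GL (Fin 2) ℝ) : Matrix (Fin 2) (Fin 2) ℝ) =
    ((incl N (conjG N q γ) : GL (Fin 2) ℝ) : Matrix (Fin 2) (Fin 2) ℝ) *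
      ((heckeDiagMatrix q : GL (Fin 2) ℝ) : Matrix (Fin 2) (Fin 2) ℝ)
  rw [val_incl, val_incl, ModularForm.val_heckeDiagMatrix hq, mat_inclG, mat_conjG]
  have e : (Dq q).map (Int.cast : ℤ → ℝ) = !![(q : ℝ), 0; 0, 1] := by
    ext i k
    fin_cases i <;> fin_cases k <;> simp [Dq]
  rw [← e, ← Matrix.map_mul_intCast, ← Matrix.map_mul_intCast,
    conjMat_Dq (q_dvd_of_mem_gamma0_mul γ.2)]

end Rel

section Main

variable {N q : ℕ} [NeZero N] [NeZero (N * q)] {A : Type*} [AddCommGroup A]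

/-- `U_q r₁ = r₁ T_q - r₂`. -/
theorem UB_res1 (hq : q.Prime) (hqN : ¬ q ∣ N) (hd : q ∣ N * q)
    (φ : Additive (Gamma0 N) →+ A) :
    UB (N * q) A hd (res1 N q A φ) = res1 N q A (TB N A hq hqN φ) - res2 N q A φ := by
  haveI : Fact q.Prime := ⟨hq⟩
  haveI : NeZero q := ⟨hq.ne_zero⟩
  refine AddMonoidHom.ext fun γ' => ?_
  obtain ⟨γ, rfl⟩ : ∃ g : Gamma0 (N * q), Additive.ofMul g = γ' := ⟨Additive.toMul γ', rfl⟩
  set HU := isHeckeFamily_U (N * q) hd with hHU
  set HT := isHeckeFamily_T N hqN with hHT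
  have hx : ∀ x : ZMod q,
      HT.kap (inclG N q γ) (x : OnePoint (ZMod q)) = inclG N q (HU.kap γ x) := by
    intro x
    have h := HU.rep_mul γ x
    have h' : repT q (x : OnePoint (ZMod q)) * incl N (inclG N q γ)
        = incl N (inclG N q (HU.kap γ x))
          * repT q ((HU.perm γ x : ZMod q) : OnePoint (ZMod q)) := h
    exact ((HT.unique (incl_injective N) h').2).symm
  have hinf : HT.kap (inclG N q γ) (OnePoint.infty) = conjG N q γ :=
    ((HT.unique (incl_injective N) (repT_infty_rel2 hq.ne_zero γ)).2).symm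
  have hT : TB N A hq hqN φ (Additive.ofMul (inclG N q γ))
      = φ (Additive.ofMul (conjG N q γ))
        + ∑ x : ZMod q, φ (Additive.ofMul (inclG N q (HU.kap γ x))) := by
    rw [TB_apply_apply]
    refine (Fintype.sum_option
      (fun y : OnePoint (ZMod q) => φ (Additive.ofMul (HT.kap (inclG N q γ) y)))).trans ?_
    congr 1
    · exact congrArg (fun g => φ (Additive.ofMul g)) hinf
    · exact Finset.sum_congr rfl fun x _ => congrArg (fun g => φ (Additive.ofMul g)) (hx x)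
  have hU : UB (N * q) A hd (res1 N q A φ) (Additive.ofMul γ)
      = ∑ x : ZMod q, φ (Additive.ofMul (inclG N q (HU.kap γ x))) := by
    rw [UB_apply_apply]
    rfl
  rw [hU, AddMonoidHom.sub_apply]
  show _ = TB N A hq hqN φ (Additive.ofMul (inclG N q γ)) - φ (Additive.ofMul (conjG N q γ))
  rw [hT]
  abel

/-- `U_q r₂ = q r₁`. -/
theorem UB_res2 (hq : q.Prime) (hd : q ∣ N * q) (φ : Additive (Gamma0 N) →+ A) :
    UB (N * q) A hd (res2 N q A φ) = q • res1 N q A φ := by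
  haveI : NeZero q := ⟨hq.ne_zero⟩
  refine AddMonoidHom.ext fun γ' => ?_
  obtain ⟨γ, rfl⟩ : ∃ g : Gamma0 (N * q), Additive.ofMul g = γ' := ⟨Additive.toMul γ', rfl⟩
  set HU := isHeckeFamily_U (N * q) hd with hHU
  have hU : UB (N * q) A hd (res2 N q A φ) (Additive.ofMul γ)
      = ∑ x : ZMod q, φ (Additive.ofMul (conjG N q (HU.kap γ x))) := by
    rw [UB_apply_apply]
    rfl
  rw [hU]
  have hrel : ∀ x : ZMod q,
      conjG N q (HU.kap γ x) * uG N (((HU.permEquiv (incl_injective _) γ) x).val : ℤ)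
        = uG N (x.val : ℤ) * inclG N q γ := by
    intro x
    apply mat_injective
    rw [mat_mul, mat_mul, mat_conjG, mat_inclG, mat_uG, mat_uG]
    exact conj_rel_mat hq.ne_zero (Bmat_rel hq.ne_zero (HU.rep_mul γ x))
  have hterm : ∀ x : ZMod q, φ (Additive.ofMul (conjG N q (HU.kap γ x)))
      = φ (Additive.ofMul (uG N (x.val : ℤ))) + φ (Additive.ofMul (inclG N q γ))
        - φ (Additive.ofMul (uG N (((HU.permEquiv (incl_injective _) γ) x).val : ℤ))) :=
    fun x => H12.hom_of_mul_eq φ (hrel x)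
  rw [Finset.sum_congr rfl fun x _ => hterm x]
  rw [H12.sum_conj_eq (HU.permEquiv (incl_injective _) γ)
    (fun x : ZMod q => φ (Additive.ofMul (uG N (x.val : ℤ)))), ZMod.card]
  rfl

end Main

/-- **PREL**. -/
theorem stmt_PREL : Stmt_PREL := by
  intro N q _ _ hq hqN hd A _
  have hN : 0 < N := Nat.pos_of_ne_zero (NeZero.ne N)
  refine ⟨fun φ => ⟨UB_res1 hq hqN hd φ, UB_res2 hq hd φ, cor1_res1 hN hq hqN φ,
    cor2_res2 hN hq hqN φ, ?_, ?_⟩, fun ψ => ⟨cor1_UB hN hq hqN hd ψ, cor2_UB hN hq hqN hd ψ⟩⟩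
  · exact Tcoh_eq_TB hN hq hqN φ
  · rw [cor2_res1 hN hq hqN φ]
    exact Tcoh_eq_TB hN hq hqN φ

end Fermat.Agent.S59.CaseC.Geom.H92
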